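import Mathlib

set_option autoImplicit false

/-!
# Formal implicit function theorem over `MvPowerSeries σ W`

`W` is any commutative ring, `σ` any type.  `Fil n f` says that all coefficients of `f` of total
degree `< n` vanish (the `n`-th power of the augmentation ideal, for finite `σ`).  A map
`Φ : MvPowerSeries σ W → MvPowerSeries σ W` is `IsLin Φ c` (`c : W`) if on series without constant
term it satisfies `Φ z - Φ z' ≡ c (z - z') mod Fil (n+1)` whenever `z ≡ z' mod Fil n`.
Such maps with `c` a unit and `Φ 0 ≡ 0 mod Fil 1` have a unique zero without constant term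
(`IsLin.existsUnique_root`).  The maps `z ↦ ∑ j, lam j * (f j).subst z` (`lam j` multivariate series,
`f j` one-variable series over `W`) are of this kind (`existsUnique_root_sum`).
-/

namespace Fermat.Agent.FF.FAM.FormalIFT8

open MvPowerSeries

variable {σ : Type*} {W : Type*} [CommRing W]

/-- `Fil n f`: all coefficients of `f` of total degree `< n` vanish. -/
def Fil (n : ℕ) (f : MvPowerSeries σ W) : Prop :=
  ∀ e : σ →₀ ℕ, e.degree < n → coeff e f = 0

theorem fil_zero (f : MvPowerSeries σ W) : Fil 0 f := fun _ he => absurd he (Nat.not_lt_zero _)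

theorem fil_of_eq_zero (n : ℕ) : Fil n (0 : MvPowerSeries σ W) := fun e _ => by simp

theorem fil_one_iff {f : MvPowerSeries σ W} : Fil 1 f ↔ constantCoeff f = 0 := by
  constructor
  · intro h
    have := h 0 (by simp)
    simpa using this
  · intro h e he
    have h0 : e.degree = 0 := by omega
    have : e = 0 := (Finsupp.degree_eq_zero_iff e).mp h0
    subst this
    simpa using h

theorem Fil.mono {n m : ℕ} {f : MvPowerSeries σ W} (h : Fil m f) (hnm : n ≤ m) : Fil n f :=
  fun e he => h e (lt_of_lt_of_le he hnm)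

theorem Fil.add {n : ℕ} {f g : MvPowerSeries σ W} (hf : Fil n f) (hg : Fil n g) :
    Fil n (f + g) := fun e he => by
  rw [map_add, hf e he, hg e he, add_zero]

theorem Fil.neg {n : ℕ} {f : MvPowerSeries σ W} (hf : Fil n f) : Fil n (-f) := fun e he => by
  rw [map_neg, hf e he, neg_zero]

theorem Fil.sub {n : ℕ} {f g : MvPowerSeries σ W} (hf : Fil n f) (hg : Fil n g) :
    Fil n (f - g) := fun e he => by
  rw [map_sub, hf e he, hg e he, sub_zero]

theorem Fil.mul {n m : ℕ} {f g : MvPowerSeries σ W} (hf : Fil n f) (hg : Fil m g) :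
    Fil (n + m) (f * g) := fun e he => by
  classical
  rw [coeff_mul]
  refine Finset.sum_eq_zero fun p hp => ?_
  have hpe : p.1 + p.2 = e := by simpa using hp
  have hdeg : p.1.degree + p.2.degree = e.degree := by rw [← map_add, hpe]
  by_cases h1 : p.1.degree < n
  · rw [hf _ h1, zero_mul]
  · have h2 : p.2.degree < m := by omega
    rw [hg _ h2, mul_zero]

theorem Fil.mul_left {n : ℕ} {f : MvPowerSeries σ W} (g : MvPowerSeries σ W) (hf : Fil n f) :
    Fil n (g * f) := by
  simpa using (fil_zero g).mul hf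

theorem Fil.mul_right {n : ℕ} {f : MvPowerSeries σ W} (hf : Fil n f) (g : MvPowerSeries σ W) :
    Fil n (f * g) := by
  simpa using hf.mul (fil_zero g)

theorem Fil.sum {ι : Type*} {n : ℕ} (s : Finset ι) (f : ι → MvPowerSeries σ W)
    (h : ∀ i ∈ s, Fil n (f i)) : Fil n (∑ i ∈ s, f i) := fun e he => by
  rw [map_sum]
  exact Finset.sum_eq_zero fun i hi => h i hi e he

theorem eq_zero_of_fil {f : MvPowerSeries σ W} (h : ∀ n, Fil n f) : f = 0 := by
  ext e
  simpa using h (e.degree + 1) e (Nat.lt_succ_self _)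

theorem fil_sub_C {f : MvPowerSeries σ W} : Fil 1 (f - C (constantCoeff f)) := by
  rw [fil_one_iff]; simp

/-- Coefficientwise limit of a sequence which is Cauchy for the filtration. -/
theorem exists_limit (z : ℕ → MvPowerSeries σ W) (h : ∀ k, Fil (k + 1) (z (k + 1) - z k)) :
    ∃ y : MvPowerSeries σ W, ∀ k, Fil (k + 1) (y - z k) := by
  have hst : ∀ k j, k ≤ j → Fil (k + 1) (z j - z k) := by
    intro k j hkj
    induction j, hkj using Nat.le_induction with
    | base => simpa using fil_of_eq_zero (σ := σ) (W := W) (k + 1)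
    | succ j hkj ih =>
      have : z (j + 1) - z k = (z (j + 1) - z j) + (z j - z k) := by ring
      rw [this]
      exact ((h j).mono (by omega)).add ih
  refine ⟨fun e => coeff e (z e.degree), fun k e he => ?_⟩
  rw [map_sub, sub_eq_zero]
  have h1 : coeff e (fun e => coeff e (z e.degree) : MvPowerSeries σ W)
      = coeff e (z e.degree) := rfl
  rw [h1]
  have := hst e.degree k (by omega) e (Nat.lt_succ_self _)
  rw [map_sub, sub_eq_zero] at this
  exact this.symm

/-! ### Linearisable maps -/

/-- `Φ z - Φ z' ≡ c (z - z')` one step deeper in the filtration than `z ≡ z'`, for `z, z'` without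
constant term. -/
def IsLin (Φ : MvPowerSeries σ W → MvPowerSeries σ W) (c : W) : Prop :=
  ∀ (n : ℕ) (z z' : MvPowerSeries σ W), constantCoeff z = 0 → constantCoeff z' = 0 →
    Fil n (z - z') → Fil (n + 1) (Φ z - Φ z' - C c * (z - z'))

theorem IsLin.lip {Φ : MvPowerSeries σ W → MvPowerSeries σ W} {c : W} (h : IsLin Φ c)
    (n : ℕ) {z z' : MvPowerSeries σ W} (hz : constantCoeff z = 0) (hz' : constantCoeff z' = 0)
    (hzz : Fil n (z - z')) : Fil n (Φ z - Φ z') := by
  have h1 := (h n z z' hz hz' hzz).mono (Nat.le_succ n)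
  have h2 : Fil n (C c * (z - z')) := hzz.mul_left _
  have := h1.add h2
  simpa using this

theorem IsLin.constantCoeff_eq {Φ : MvPowerSeries σ W → MvPowerSeries σ W} {c : W} (h : IsLin Φ c)
    {z : MvPowerSeries σ W} (hz : constantCoeff z = 0) :
    constantCoeff (Φ z) = constantCoeff (Φ 0) := by
  have h1 : Fil 1 (z - 0) := by rw [sub_zero]; exact fil_one_iff.mpr hz
  have := fil_one_iff.mp (h.lip 1 hz (map_zero _) h1)
  rw [map_sub, sub_eq_zero] at this
  exact this

theorem isLin_const (a : MvPowerSeries σ W) : IsLin (fun _ => a) (0 : W) := by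
  intro n z z' _ _ _
  simpa using fil_of_eq_zero (σ := σ) (W := W) (n + 1)

theorem isLin_id : IsLin (fun z : MvPowerSeries σ W => z) (1 : W) := by
  intro n z z' _ _ _
  simpa using fil_of_eq_zero (σ := σ) (W := W) (n + 1)

theorem IsLin.add {Φ Ψ : MvPowerSeries σ W → MvPowerSeries σ W} {c d : W} (hΦ : IsLin Φ c)
    (hΨ : IsLin Ψ d) : IsLin (fun z => Φ z + Ψ z) (c + d) := by
  intro n z z' hz hz' hzz
  have := (hΦ n z z' hz hz' hzz).add (hΨ n z z' hz hz' hzz)
  convert this using 1
  rw [map_add]; ring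

theorem IsLin.mul_left {Φ : MvPowerSeries σ W → MvPowerSeries σ W} {c : W} (hΦ : IsLin Φ c)
    (a : MvPowerSeries σ W) : IsLin (fun z => a * Φ z) (constantCoeff a * c) := by
  intro n z z' hz hz' hzz
  have h1 : Fil (n + 1) (a * (Φ z - Φ z' - C c * (z - z'))) := (hΦ n z z' hz hz' hzz).mul_left a
  have h2 : Fil (n + 1) ((a - C (constantCoeff a)) * (C c * (z - z'))) := by
    have := (fil_sub_C (f := a)).mul (hzz.mul_left (C c))
    rwa [add_comm] at this
  have := h1.add h2
  convert this using 1
  rw [map_mul]; ring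

theorem isLin_sum {ι : Type*} (s : Finset ι) (Φ : ι → MvPowerSeries σ W → MvPowerSeries σ W)
    (c : ι → W) (h : ∀ i ∈ s, IsLin (Φ i) (c i)) :
    IsLin (fun z => ∑ i ∈ s, Φ i z) (∑ i ∈ s, c i) := by
  classical
  induction s using Finset.induction_on with
  | empty => simpa using isLin_const (σ := σ) (W := W) 0
  | insert i s hi ih =>
    have h1 := (h i (Finset.mem_insert_self i s)).add
      (ih fun j hj => h j (Finset.mem_insert_of_mem hj))
    simpa [Finset.sum_insert hi] using h1

/-! ### Substitution into one-variable series -/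

theorem subst_eq (f : PowerSeries W) {z : MvPowerSeries σ W} (hz : constantCoeff z = 0) :
    f.subst z = C (PowerSeries.constantCoeff f) +
      z * (PowerSeries.mk fun p => PowerSeries.coeff (p + 1) f).subst z := by
  have hs : PowerSeries.HasSubst z := PowerSeries.HasSubst.of_constantCoeff_zero hz
  conv_lhs => rw [PowerSeries.eq_X_mul_shift_add_const f]
  rw [PowerSeries.subst_add hs, PowerSeries.subst_mul hs, PowerSeries.subst_X hs,
    PowerSeries.subst_C, add_comm]

theorem constantCoeff_subst (f : PowerSeries W) {z : MvPowerSeries σ W}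
    (hz : constantCoeff z = 0) :
    constantCoeff (f.subst z) = PowerSeries.constantCoeff f := by
  rw [subst_eq f hz, map_add, map_mul, hz, zero_mul, add_zero, constantCoeff_C]

theorem fil_subst_sub (n : ℕ) : ∀ (f : PowerSeries W) {z z' : MvPowerSeries σ W},
    constantCoeff z = 0 → constantCoeff z' = 0 → Fil n (z - z') →
    Fil n (f.subst z - f.subst z') := by
  induction n with
  | zero => intros; exact fil_zero _
  | succ n ih =>
    intro f z z' hz hz' h
    rw [subst_eq f hz, subst_eq f hz']
    set f₁ : PowerSeries W := PowerSeries.mk fun p => PowerSeries.coeff (p + 1) f with hf₁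
    have e1 : C (PowerSeries.constantCoeff f) + z * f₁.subst z -
        (C (PowerSeries.constantCoeff f) + z' * f₁.subst z') =
        (z - z') * f₁.subst z + z' * (f₁.subst z - f₁.subst z') := by ring
    rw [e1]
    refine (h.mul_right _).add ?_
    have h1 : Fil 1 z' := fil_one_iff.mpr hz'
    have := h1.mul (ih f₁ hz hz' (h.mono (Nat.le_succ n)))
    rwa [add_comm] at this

theorem isLin_subst (f : PowerSeries W) :
    IsLin (fun z : MvPowerSeries σ W => f.subst z) (PowerSeries.coeff 1 f) := by
  intro n z z' hz hz' h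
  show Fil (n + 1) (f.subst z - f.subst z' - C (PowerSeries.coeff 1 f) * (z - z'))
  rw [subst_eq f hz, subst_eq f hz']
  set f₁ : PowerSeries W := PowerSeries.mk fun p => PowerSeries.coeff (p + 1) f with hf₁
  have hc1 : PowerSeries.constantCoeff f₁ = PowerSeries.coeff 1 f := by
    rw [hf₁, ← PowerSeries.coeff_zero_eq_constantCoeff_apply, PowerSeries.coeff_mk]
  have e1 : C (PowerSeries.constantCoeff f) + z * f₁.subst z -
      (C (PowerSeries.constantCoeff f) + z' * f₁.subst z') - C (PowerSeries.coeff 1 f) * (z - z') =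
      (z - z') * (f₁.subst z - C (PowerSeries.coeff 1 f)) + z' * (f₁.subst z - f₁.subst z') := by
    ring
  rw [e1]
  refine Fil.add ?_ ?_
  · have h2 : Fil 1 (f₁.subst z - C (PowerSeries.coeff 1 f)) := by
      rw [fil_one_iff, map_sub, constantCoeff_subst f₁ hz, hc1, constantCoeff_C, sub_self]
    exact h.mul h2
  · have h1 : Fil 1 z' := fil_one_iff.mpr hz'
    have := h1.mul (fil_subst_sub n f₁ hz hz' h)
    rwa [add_comm] at this

/-! ### The abstract root theorem -/

theorem IsLin.root_unique {Φ : MvPowerSeries σ W → MvPowerSeries σ W} {c : W} (h : IsLin Φ c)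
    (hc : IsUnit c) {z z' : MvPowerSeries σ W} (hz : constantCoeff z = 0)
    (hz' : constantCoeff z' = 0) (hΦ : Φ z = 0) (hΦ' : Φ z' = 0) : z = z' := by
  obtain ⟨u, rfl⟩ := hc
  rw [← sub_eq_zero]
  refine eq_zero_of_fil fun n => ?_
  induction n with
  | zero => exact fil_zero _
  | succ n ih =>
    have h1 := h n z z' hz hz' ih
    rw [hΦ, hΦ', sub_zero, zero_sub] at h1
    have h2 := (h1.neg).mul_left (C ((↑u⁻¹ : W)))
    have e : C ((↑u⁻¹ : W)) * -(-(C (u : W) * (z - z'))) = z - z' := by
      rw [neg_neg, ← mul_assoc, ← map_mul, Units.inv_mul, map_one, one_mul]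
    rwa [e] at h2

theorem IsLin.exists_root {Φ : MvPowerSeries σ W → MvPowerSeries σ W} {c : W} (h : IsLin Φ c)
    (hc : IsUnit c) (h0 : constantCoeff (Φ 0) = 0) :
    ∃ z : MvPowerSeries σ W, constantCoeff z = 0 ∧ Φ z = 0 := by
  obtain ⟨u, rfl⟩ := hc
  -- the iteration
  let N : MvPowerSeries σ W → MvPowerSeries σ W := fun z => z - C ((↑u⁻¹ : W)) * Φ z
  let zs : ℕ → MvPowerSeries σ W := fun k => N^[k] 0
  have hzs_succ : ∀ k, zs (k + 1) = zs k - C ((↑u⁻¹ : W)) * Φ (zs k) := fun k => by
    show N^[k + 1] 0 = _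
    rw [Function.iterate_succ_apply']
  have key : ∀ k, constantCoeff (zs k) = 0 ∧ Fil (k + 1) (Φ (zs k)) := by
    intro k
    induction k with
    | zero =>
      refine ⟨by simp [zs], ?_⟩
      show Fil 1 (Φ 0)
      exact fil_one_iff.mpr h0
    | succ k ih =>
      obtain ⟨ih0, ih1⟩ := ih
      have hc0 : constantCoeff (zs (k + 1)) = 0 := by
        rw [hzs_succ, map_sub, map_mul, ih0, fil_one_iff.mp (ih1.mono (by omega)), mul_zero,
          sub_zero]
      refine ⟨hc0, ?_⟩
      have hd : zs (k + 1) - zs k = -(C ((↑u⁻¹ : W)) * Φ (zs k)) := by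
        rw [hzs_succ]; ring
      have hfd : Fil (k + 1) (zs (k + 1) - zs k) := by
        rw [hd]; exact (ih1.mul_left _).neg
      have h1 := h (k + 1) (zs (k + 1)) (zs k) hc0 ih0 hfd
      have e : Φ (zs (k + 1)) - Φ (zs k) - C (u : W) * (zs (k + 1) - zs k) = Φ (zs (k + 1)) := by
        rw [hd, mul_neg, ← mul_assoc, ← map_mul, Units.mul_inv, map_one, one_mul]; ring
      rwa [e] at h1
  have hcauchy : ∀ k, Fil (k + 1) (zs (k + 1) - zs k) := by
    intro k
    have hd : zs (k + 1) - zs k = -(C ((↑u⁻¹ : W)) * Φ (zs k)) := by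
      rw [hzs_succ]; ring
    rw [hd]; exact ((key k).2.mul_left _).neg
  obtain ⟨y, hy⟩ := exists_limit zs hcauchy
  have hy0 : constantCoeff y = 0 := by
    have := fil_one_iff.mp ((hy 0).mono (le_refl _))
    rw [map_sub, (key 0).1, sub_zero] at this
    exact this
  refine ⟨y, hy0, eq_zero_of_fil fun n => ?_⟩
  rcases n with _ | n
  · exact fil_zero _
  · have h1 := h.lip (n + 1) hy0 (key n).1 (hy n)
    have := h1.add (key n).2
    simpa using this

theorem IsLin.existsUnique_root {Φ : MvPowerSeries σ W → MvPowerSeries σ W} {c : W}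
    (h : IsLin Φ c) (hc : IsUnit c) (h0 : constantCoeff (Φ 0) = 0) :
    ∃! z : MvPowerSeries σ W, constantCoeff z = 0 ∧ Φ z = 0 := by
  obtain ⟨z, hz, hΦ⟩ := h.exists_root hc h0
  exact ⟨z, ⟨hz, hΦ⟩, fun z' hz' => h.root_unique hc hz'.1 hz hz'.2 hΦ⟩

/-! ### The linear-combination form -/

theorem isLin_sum_subst {ι : Type*} (s : Finset ι) (lam : ι → MvPowerSeries σ W)
    (f : ι → PowerSeries W) :
    IsLin (fun z => ∑ j ∈ s, lam j * (f j).subst z)
      (∑ j ∈ s, constantCoeff (lam j) * PowerSeries.coeff 1 (f j)) :=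
  isLin_sum s (fun j z => lam j * (f j).subst z) _ fun j _ => (isLin_subst (f j)).mul_left (lam j)

/-- **Formal implicit function theorem**, linear-combination form: if
`∑ j, lam j(0) * f j(0) = 0` and `∑ j, lam j(0) * f j'(0)` is a unit of `W`, there is a unique
`ζ` without constant term such that `∑ j, lam j * (f j)(ζ) = 0`. -/
theorem existsUnique_root_sum {ι : Type*} (s : Finset ι) (lam : ι → MvPowerSeries σ W)
    (f : ι → PowerSeries W)
    (h0 : ∑ j ∈ s, constantCoeff (lam j) * PowerSeries.constantCoeff (f j) = 0)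
    (h1 : IsUnit (∑ j ∈ s, constantCoeff (lam j) * PowerSeries.coeff 1 (f j))) :
    ∃! ζ : MvPowerSeries σ W, constantCoeff ζ = 0 ∧ ∑ j ∈ s, lam j * (f j).subst ζ = 0 := by
  refine (isLin_sum_subst s lam f).existsUnique_root h1 ?_
  show constantCoeff (∑ j ∈ s, lam j * (f j).subst (0 : MvPowerSeries σ W)) = 0
  rw [map_sum, ← h0]
  refine Finset.sum_congr rfl fun j _ => ?_
  rw [map_mul, constantCoeff_subst (f j) (map_zero _)]

end Fermat.Agent.FF.FAM.FormalIFT8
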