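import Mathlib
import Fermat.Agent.FF.FAM.FormalIFT8

set_option autoImplicit false

/-!
# The formal simple step

Linear algebra with a unit minor (`existsUnique_bordered`) and the **formal simple step**:
from the expansions `e a j` (of `b_j · u_a` in the disc of the `a`-th condition, `a : ι`) and
`res q j` (of `b_j · u_q` in the `q`-th residual disc), for a basis `b_none = 1, b_(some i)`
indexed by `Option ι`, we construct the Cramer coefficients `lam j ∈ W⟦X_a, a : ι⟧` and the
coordinates `zeta q` of the residual zeros.
-/

namespace Fermat.Agent.FF.FAM.Step8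

open Fermat.Agent.FF.FAM.FormalIFT8

/-! ### Bordered linear systems with a unit minor -/

section Bordered

variable {R : Type*} [CommRing R] {ι : Type*} [Fintype ι] [DecidableEq ι]

/-- the square minor of a bordered system (columns `some i`) -/
def minor (c : ι → Option ι → R) : Matrix ι ι R :=
  Matrix.of fun a j => c a (some j)

omit [DecidableEq ι] in
theorem sum_eq_border (c : ι → Option ι → R) (lam : Option ι → R) (a : ι) :
    ∑ j, lam j * c a j = lam none * c a none + (minor c).mulVec (fun j => lam (some j)) a := by
  rw [Fintype.sum_option, Matrix.mulVec, dotProduct]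
  congr 1
  refine Finset.sum_congr rfl fun j _ => ?_
  simp [minor, mul_comm]

/-- the normalised solution of a bordered system with a unit minor -/
noncomputable def solve (c : ι → Option ι → R) : Option ι → R :=
  fun j => j.elim 1 ((minor c)⁻¹.mulVec fun a => -c a none)

@[simp] theorem solve_none (c : ι → Option ι → R) : solve c none = 1 := rfl

theorem solve_some (c : ι → Option ι → R) (j : ι) :
    solve c (some j) = (minor c)⁻¹.mulVec (fun a => -c a none) j := rfl

theorem solve_spec (c : ι → Option ι → R) (hdet : IsUnit (minor c).det) (a : ι) :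
    ∑ j, solve c j * c a j = 0 := by
  rw [sum_eq_border, solve_none, one_mul]
  have h1 : (fun j : ι => solve c (some j)) = (minor c)⁻¹.mulVec (fun a => -c a none) := by
    funext j; exact solve_some c j
  rw [h1, Matrix.mulVec_mulVec, Matrix.mul_nonsing_inv _ hdet, Matrix.one_mulVec]
  ring

theorem solve_unique (c : ι → Option ι → R) (hdet : IsUnit (minor c).det)
    (lam : Option ι → R) (h0 : lam none = 1) (h : ∀ a, ∑ j, lam j * c a j = 0) :
    lam = solve c := by
  have hinj : Function.Injective (minor c).mulVec :=
    Matrix.mulVec_injective_of_isUnit ((Matrix.isUnit_iff_isUnit_det _).mpr hdet)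
  have h1 : (fun j : ι => lam (some j)) = fun j : ι => solve c (some j) := by
    apply hinj
    funext a
    have e1 := h a
    have e2 := solve_spec c hdet a
    rw [sum_eq_border, h0, one_mul] at e1
    rw [sum_eq_border, solve_none, one_mul] at e2
    have e1' : (minor c).mulVec (fun j => lam (some j)) a = -c a none := by
      rw [← sub_eq_zero, sub_neg_eq_add, add_comm]; exact e1
    have e2' : (minor c).mulVec (fun j => solve c (some j)) a = -c a none := by
      rw [← sub_eq_zero, sub_neg_eq_add, add_comm]; exact e2
    rw [e1', e2']
  funext j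
  cases j with
  | none => rw [h0, solve_none]
  | some j => exact congrFun h1 j

theorem existsUnique_bordered (c : ι → Option ι → R) (hdet : IsUnit (minor c).det) :
    ∃! lam : Option ι → R, lam none = 1 ∧ ∀ a, ∑ j, lam j * c a j = 0 :=
  ⟨solve c, ⟨solve_none c, solve_spec c hdet⟩, fun lam h => solve_unique c hdet lam h.1 h.2⟩

/-- If the border column lies in an ideal, so do the nontrivial coordinates of the solution. -/
theorem solve_some_mem (c : ι → Option ι → R) (I : Ideal R) (hI : ∀ a, c a none ∈ I)
    (j : ι) : solve c (some j) ∈ I := by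
  rw [solve_some, Matrix.mulVec, dotProduct]
  refine Ideal.sum_mem _ fun a _ => ?_
  exact Ideal.mul_mem_left _ _ (I.neg_mem (hI a))

theorem minor_map {R' : Type*} [CommRing R'] (φ : R →+* R') (c : ι → Option ι → R) :
    minor (fun a j => φ (c a j)) = φ.mapMatrix (minor c) := by
  ext a j; simp [minor]

theorem isUnit_det_minor_map {R' : Type*} [CommRing R'] (φ : R →+* R') (c : ι → Option ι → R)
    (hdet : IsUnit (minor c).det) : IsUnit (minor (fun a j => φ (c a j))).det := by
  rw [minor_map, ← RingHom.map_det]
  exact hdet.map φ

/-- Naturality of the solution under ring homomorphisms. -/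
theorem map_solve {R' : Type*} [CommRing R'] (φ : R →+* R') (c : ι → Option ι → R)
    (hdet : IsUnit (minor c).det) :
    (fun j => φ (solve c j)) = solve (fun a j => φ (c a j)) := by
  refine solve_unique _ (isUnit_det_minor_map φ c hdet) _ (by simp) fun a => ?_
  have := congrArg φ (solve_spec c hdet a)
  rw [map_sum, map_zero] at this
  rw [← this]
  exact Finset.sum_congr rfl fun j _ => (map_mul φ _ _).symm

/-- A unit minor modulo nilpotents is a unit minor: if the entries of `c` and `c'` differ by
elements of an ideal consisting of nilpotent elements... (stated with the nilradical). -/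
theorem isUnit_det_of_sub_mem_nilradical (M M' : Matrix ι ι R)
    (h : ∀ a j, M a j - M' a j ∈ nilradical R) (hM' : IsUnit M'.det) : IsUnit M.det := by
  have hq : (Ideal.Quotient.mk (nilradical R)).mapMatrix M =
      (Ideal.Quotient.mk (nilradical R)).mapMatrix M' := by
    ext a j
    simp only [RingHom.mapMatrix_apply, Matrix.map_apply]
    exact (Ideal.Quotient.eq).mpr (h a j)
  have h1 : Ideal.Quotient.mk (nilradical R) M.det = Ideal.Quotient.mk (nilradical R) M'.det := by
    rw [RingHom.map_det, RingHom.map_det, hq]
  have h2 : M.det - M'.det ∈ nilradical R := (Ideal.Quotient.eq).mp h1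
  have h3 : IsNilpotent (M.det - M'.det) := (mem_nilradical).mp h2
  have : M.det = M'.det + (M.det - M'.det) := by ring
  rw [this]
  exact IsNilpotent.isUnit_add_left_of_commute h3 hM' (Commute.all _ _)

end Bordered

/-! ### The formal simple step -/

open MvPowerSeries

/-- The data of a simple step: expansions at the condition discs (indexed by `ι`) and at the
residual discs (indexed by `Q`), for a basis `b_none = 1, b_(some i)`. -/
structure StepData (W : Type*) [CommRing W] (ι : Type*) [Fintype ι] [DecidableEq ι]
    (Q : Type*) where
  /-- expansion of `b_j · u_a` in the disc of the `a`-th condition -/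
  e : ι → Option ι → PowerSeries W
  /-- expansion of `b_j · u_q` in the residual disc `q` -/
  res : Q → Option ι → PowerSeries W
  e_zero : ∀ a, PowerSeries.constantCoeff (e a none) = 0
  det_unit : IsUnit (Matrix.det (Matrix.of fun a j : ι =>
    PowerSeries.constantCoeff (e a (some j))))
  res_zero : ∀ q, PowerSeries.constantCoeff (res q none) = 0
  res_one : ∀ q, IsUnit (PowerSeries.coeff 1 (res q none))

namespace StepData

variable {W : Type*} [CommRing W] {ι : Type*} [Fintype ι] [DecidableEq ι] {Q : Type*}
  (D : StepData W ι Q)

/-- the conditions as a bordered system over `W⟦X_a, a : ι⟧`: the `a`-th condition is the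
vanishing at the point of the `a`-th disc with coordinate `X a`. -/
noncomputable def cond : ι → Option ι → MvPowerSeries ι W :=
  fun a j => (D.e a j).subst (X a : MvPowerSeries ι W)

theorem constantCoeff_cond (a : ι) (j : Option ι) :
    constantCoeff (D.cond a j) = PowerSeries.constantCoeff (D.e a j) :=
  FormalIFT8.constantCoeff_subst _ (constantCoeff_X a)

theorem isUnit_det_minor_cond : IsUnit (minor D.cond).det := by
  rw [MvPowerSeries.isUnit_iff_constantCoeff, RingHom.map_det]
  have : (constantCoeff (σ := ι) (R := W)).mapMatrix (minor D.cond) =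
      Matrix.of fun a j : ι => PowerSeries.constantCoeff (D.e a (some j)) := by
    ext a j
    simp [minor, constantCoeff_cond]
  rw [this]
  exact D.det_unit

/-- the Cramer coefficients -/
noncomputable def lam : Option ι → MvPowerSeries ι W := solve D.cond

@[simp] theorem lam_none : D.lam none = 1 := rfl

theorem lam_spec (a : ι) :
    ∑ j, D.lam j * (D.e a j).subst (X a : MvPowerSeries ι W) = 0 :=
  solve_spec D.cond D.isUnit_det_minor_cond a

theorem constantCoeff_lam_some (j : ι) : constantCoeff (D.lam (some j)) = 0 := by
  have h := solve_some_mem D.cond (RingHom.ker (constantCoeff (σ := ι) (R := W)))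
    (fun a => by rw [RingHom.mem_ker, constantCoeff_cond, D.e_zero]) j
  exact (RingHom.mem_ker).mp h

theorem lam_unique (lam' : Option ι → MvPowerSeries ι W) (h0 : lam' none = 1)
    (h : ∀ a, ∑ j, lam' j * (D.e a j).subst (X a : MvPowerSeries ι W) = 0) :
    lam' = D.lam :=
  solve_unique D.cond D.isUnit_det_minor_cond lam' h0 h

theorem sum_lam_constantCoeff (f : Option ι → W) :
    ∑ j, constantCoeff (D.lam j) * f j = f none := by
  rw [Fintype.sum_option]
  simp [constantCoeff_lam_some]

theorem existsUnique_zeta (q : Q) :
    ∃! ζ : MvPowerSeries ι W, constantCoeff ζ = 0 ∧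
      ∑ j, D.lam j * (D.res q j).subst ζ = 0 := by
  refine existsUnique_root_sum Finset.univ D.lam (D.res q) ?_ ?_
  · rw [sum_lam_constantCoeff]; exact D.res_zero q
  · rw [sum_lam_constantCoeff]; exact D.res_one q

/-- the coordinates of the residual zeros -/
noncomputable def zeta (q : Q) : MvPowerSeries ι W := (D.existsUnique_zeta q).exists.choose

theorem constantCoeff_zeta (q : Q) : constantCoeff (D.zeta q) = 0 :=
  (D.existsUnique_zeta q).exists.choose_spec.1

theorem zeta_spec (q : Q) : ∑ j, D.lam j * (D.res q j).subst (D.zeta q) = 0 :=
  (D.existsUnique_zeta q).exists.choose_spec.2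

theorem zeta_unique (q : Q) (ζ : MvPowerSeries ι W) (h0 : constantCoeff ζ = 0)
    (h : ∑ j, D.lam j * (D.res q j).subst ζ = 0) : ζ = D.zeta q :=
  (D.existsUnique_zeta q).unique ⟨h0, h⟩ ⟨D.constantCoeff_zeta q, D.zeta_spec q⟩

end StepData

end Fermat.Agent.FF.FAM.Step8
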