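import Mathlib
import Fermat.Agent.FF.RED.Expand7
import Fermat.Agent.FF.KER.Add0
import Fermat.Agent.FF.FAM.Step8

set_option autoImplicit false
set_option linter.unusedSectionVars false
set_option linter.style.longLine false

/-!
# The exact simple step over a good-reduction datum

`C : CondFam D ι` a finite family of condition centres (pairwise distinct discs, good uniformizers),
`S : NSSystem D g` the residual non-special system, all discs distinct, `b j` integral functions of
`L(ΣC_a + ΣS.P_q)` whose polar matrix at the `C_a` is invertible over `A`.  For condition points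
`c_a` (coordinates `T a ∈ m_A`) we solve the linear system exactly over `A`, obtain the section
`s = 1 + Σ μ_j b_j` with `div s = Σ c_a − ΣC_a − ΣS.P_q + E_S(T'')`, and the exact equations
satisfied by the coordinates `T''` of the residual zeros.
-/

namespace Fermat.Agent.FF.FAM.BridgeExact8

open AlgebraicCurve Fermat.Agent.X0.FF Fermat.Agent.RR.LSpace Fermat.Agent.MW.EMB.Value6
open Fermat.Agent.FF.RED.RedDatum7 Fermat.Agent.FF.RED.Disc7 Fermat.Agent.FF.RED.Expand7
open Fermat.Agent.FF.KER.Ker0 Fermat.Agent.FF.KER.Add0 Fermat.Agent.FF.FAM.Step8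

noncomputable section

open scoped Classical

variable {L F k Ft : Type*} [Field L] [Field F] [Algebra L F] [Field k] [Field Ft] [Algebra k Ft]

/-- a finite family of condition centres in pairwise distinct discs, with good uniformizers -/
structure CondFam (D : RedDatum L F k Ft) (ι : Type*) where
  P : ι → Place L F
  u : ι → D.G
  good : ∀ a, IsGoodUnif D (P a) (u a)
  inj : Function.Injective fun a => D.r (P a)

variable {D : RedDatum L F k Ft} {ι : Type*}

namespace CondFam

variable (C : CondFam D ι)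

/-- the disc of the `a`-th centre -/
def Q (a : ι) : Place k Ft := D.r (C.P a)

/-- the chart of the `a`-th disc -/
def chart (a : ι) : Chart D (C.Q a) := ⟨C.P a, rfl, C.u a, C.good a⟩

/-- the place of the `a`-th disc with coordinate `c` -/
def pt (a : ι) (c : mA D) : Place L F :=
  ((C.good a).exists_valF_eq (not_isUnit_of_mA c)).choose

theorem r_pt (a : ι) (c : mA D) : D.r (C.pt a c) = C.Q a :=
  ((C.good a).exists_valF_eq (not_isUnit_of_mA c)).choose_spec.1

theorem valF_pt (a : ι) (c : mA D) : valF D.HL (C.pt a c) (C.u a : F) = ((c : D.A) : L) :=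
  ((C.good a).exists_valF_eq (not_isUnit_of_mA c)).choose_spec.2

theorem evR_uR_pt (a : ι) (c : mA D) : evR (C.r_pt a c) (C.chart a).uR = (c : D.A) := by
  apply Subtype.ext
  rw [coe_evR]
  exact C.valF_pt a c

theorem ord_u_of_r {a : ι} {P' : Place L F} (hP' : D.r P' = C.Q a) :
    P'.ord (C.u a : F) = if P' = C.P a then 1 else 0 := by
  split_ifs with h
  · rw [h]; exact (C.good a).1
  · exact ((C.good a).2.2 P' hP').2 h

theorem u_ne_zero (a : ι) : (C.u a : F) ≠ 0 := D.coe_ne_zero_of_red_ne_zero (C.good a).2.1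

variable [Fintype ι]

/-- the divisor of the centres -/
def D0 : Divisor L F := ∑ a, Finsupp.single (C.P a) (1 : ℤ)

/-- the divisor of the condition points -/
def Ediv (T : ι → mA D) : Divisor L F := ∑ a, Finsupp.single (C.pt a (T a)) (1 : ℤ)

theorem sum_single_apply_of_r (p : ι → Place L F) (hp : ∀ a, D.r (p a) = C.Q a) {a : ι}
    {P' : Place L F} (hP' : D.r P' = C.Q a) :
    (∑ a', Finsupp.single (p a') (1 : ℤ)) P' = if P' = p a then 1 else 0 := by
  rw [Finsupp.finsetSum_apply, Finset.sum_eq_single a]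
  · rw [Finsupp.single_apply]
    by_cases h : P' = p a
    · rw [if_pos h, if_pos h.symm]
    · rw [if_neg h, if_neg (fun h' => h h'.symm)]
  · intro a' _ hne
    rw [Finsupp.single_apply, if_neg]
    intro h
    apply hne
    apply C.inj
    show C.Q a' = C.Q a
    rw [← hp a', h, hP']
  · intro h; exact absurd (Finset.mem_univ a) h

theorem sum_single_apply_of_not (p : ι → Place L F) (hp : ∀ a, D.r (p a) = C.Q a)
    {P' : Place L F} (hP' : ∀ a, D.r P' ≠ C.Q a) :
    (∑ a', Finsupp.single (p a') (1 : ℤ)) P' = 0 := by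
  classical
  rw [Finsupp.finsetSum_apply]
  refine Finset.sum_eq_zero fun a _ => ?_
  rw [Finsupp.single_apply, if_neg]
  intro h
  exact hP' a (by rw [← h, hp a])

theorem D0_apply_of_r {a : ι} {P' : Place L F} (hP' : D.r P' = C.Q a) :
    C.D0 P' = if P' = C.P a then 1 else 0 :=
  C.sum_single_apply_of_r C.P (fun _ => rfl) hP'

theorem D0_apply_of_not {P' : Place L F} (hP' : ∀ a, D.r P' ≠ C.Q a) : C.D0 P' = 0 :=
  C.sum_single_apply_of_not C.P (fun _ => rfl) hP'

theorem Ediv_apply_of_r (T : ι → mA D) {a : ι} {P' : Place L F} (hP' : D.r P' = C.Q a) :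
    C.Ediv T P' = if P' = C.pt a (T a) then 1 else 0 :=
  C.sum_single_apply_of_r (fun a => C.pt a (T a)) (fun a => C.r_pt a (T a)) hP'

theorem Ediv_apply_of_not (T : ι → mA D) {P' : Place L F} (hP' : ∀ a, D.r P' ≠ C.Q a) :
    C.Ediv T P' = 0 :=
  C.sum_single_apply_of_not (fun a => C.pt a (T a)) (fun a => C.r_pt a (T a)) hP'

theorem D0_nonneg : 0 ≤ C.D0 := by
  classical
  intro P
  rw [D0, Finsupp.finsetSum_apply]
  refine Finset.sum_nonneg fun i _ => ?_
  rw [Finsupp.single_apply]
  split_ifs <;> simp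

theorem mapDomain_Ediv (T : ι → mA D) :
    Finsupp.mapDomain D.r (C.Ediv T) = Finsupp.mapDomain D.r C.D0 := by
  rw [Ediv, D0, Finsupp.mapDomain_finsetSum, Finsupp.mapDomain_finsetSum]
  refine Finset.sum_congr rfl fun a _ => ?_
  rw [Finsupp.mapDomain_single, Finsupp.mapDomain_single, C.r_pt]
  rfl


/-- a non-special system as a family of condition centres -/
def ofNS {g : ℕ} (S : NSSystem D g) : CondFam D (Fin g) := ⟨S.P, S.u, S.good, S.inj⟩

@[simp] theorem ofNS_D0 {g : ℕ} (S : NSSystem D g) : (ofNS S).D0 = S.D0 := rfl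

@[simp] theorem ofNS_Ediv {g : ℕ} (S : NSSystem D g) (T : Fin g → mA D) :
    (ofNS S).Ediv T = S.Ediv T := rfl

@[simp] theorem ofNS_pt {g : ℕ} (S : NSSystem D g) (i : Fin g) (c : mA D) :
    (ofNS S).pt i c = S.pt i c := rfl

@[simp] theorem ofNS_Q {g : ℕ} (S : NSSystem D g) (i : Fin g) : (ofNS S).Q i = S.Q i := rfl

end CondFam

/-! ### the geometric data of a simple step -/

/-- the geometric data of a simple step, without the polar condition -/
structure StepPre (D : RedDatum L F k Ft) (ι : Type*) [Fintype ι] (g : ℕ) where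
  /-- the condition centres -/
  C : CondFam D ι
  /-- the residual non-special system -/
  S : NSSystem D g
  disj : ∀ a i, D.r (C.P a) ≠ D.r (S.P i)
  /-- the functions `b_j` (together with `1`, integral functions of `L(ΣC_a + ΣS.P_q)`) -/
  b : ι → F
  b_mem_G : ∀ j, b j ∈ D.G
  b_mem_L : ∀ j, b j ∈ riemannRochSpace (C.D0 + S.D0)

namespace StepPre

variable [Fintype ι] {g : ℕ} (X : StepPre D ι g)

/-- the basis functions, with `bb none = 1` -/
def bb (j : Option ι) : F := j.elim 1 X.b

@[simp] theorem bb_none : X.bb none = 1 := rfl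

@[simp] theorem bb_some (j : ι) : X.bb (some j) = X.b j := rfl

theorem bb_mem_G (j : Option ι) : X.bb j ∈ D.G := by
  cases j with
  | none => exact D.G.one_mem
  | some j => exact X.b_mem_G j

theorem SD0_nonneg : 0 ≤ X.S.D0 := by
  rw [← X.S.Ediv_zero]; exact X.S.Ediv_nonneg 0

theorem bb_mem_L (j : Option ι) : X.bb j ∈ riemannRochSpace (X.C.D0 + X.S.D0) := by
  cases j with
  | none =>
    rw [bb_none, mem_riemannRochSpace_iff]
    intro v
    right
    rw [Place.ord_one, Finsupp.add_apply]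
    have h1 := X.C.D0_nonneg v
    have h2 := X.SD0_nonneg v
    simp only [Finsupp.coe_zero, Pi.zero_apply] at h1 h2
    omega
  | some j => exact X.b_mem_L j

theorem SD0_apply_of_C {a : ι} {P' : Place L F} (hP' : D.r P' = X.C.Q a) : X.S.D0 P' = 0 := by
  have := (CondFam.ofNS X.S).D0_apply_of_not (P' := P') (fun i h => X.disj a i (by
    rw [CondFam.ofNS_Q] at h
    exact hP'.symm.trans h))
  simpa using this

theorem CD0_apply_of_S {q : Fin g} {P' : Place L F} (hP' : D.r P' = X.S.Q q) : X.C.D0 P' = 0 :=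
  X.C.D0_apply_of_not (fun a h => X.disj a q (by
    have : X.C.Q a = X.S.Q q := h.symm.trans hP'
    exact this))

theorem CEdiv_apply_of_S (T : ι → mA D) {q : Fin g} {P' : Place L F} (hP' : D.r P' = X.S.Q q) :
    X.C.Ediv T P' = 0 :=
  X.C.Ediv_apply_of_not T (fun a h => X.disj a q (by
    have : X.C.Q a = X.S.Q q := h.symm.trans hP'
    exact this))

theorem SD0_apply_of_S {q : Fin g} {P' : Place L F} (hP' : D.r P' = X.S.Q q) :
    X.S.D0 P' = if P' = X.S.P q then 1 else 0 := by
  have := (CondFam.ofNS X.S).D0_apply_of_r (a := q) (P' := P') hP'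
  rw [CondFam.ofNS_D0] at this
  exact this

theorem ord_uS_of_S {q : Fin g} {P' : Place L F} (hP' : D.r P' = X.S.Q q) :
    P'.ord (X.S.u q : F) = if P' = X.S.P q then 1 else 0 :=
  (CondFam.ofNS X.S).ord_u_of_r (a := q) hP'

theorem uS_ne_zero (q : Fin g) : (X.S.u q : F) ≠ 0 := (CondFam.ofNS X.S).u_ne_zero q

theorem poleFree_mul_u (a : ι) (j : Option ι) :
    D.PoleFree (X.bb j * (X.C.u a : F)) (X.C.Q a) := by
  intro P' hP'
  by_cases h0 : X.bb j = 0
  · rw [h0, zero_mul, Place.ord_zero]
  have hL := (mem_L_iff h0).mp (X.bb_mem_L j) P'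
  rw [P'.ord_mul h0 (X.C.u_ne_zero a), X.C.ord_u_of_r hP']
  rw [Finsupp.add_apply, X.C.D0_apply_of_r hP', X.SD0_apply_of_C hP'] at hL
  split_ifs at hL ⊢ <;> omega

theorem poleFree_mul_uS (q : Fin g) (j : Option ι) :
    D.PoleFree (X.bb j * (X.S.u q : F)) (X.S.Q q) := by
  intro P' hP'
  by_cases h0 : X.bb j = 0
  · rw [h0, zero_mul, Place.ord_zero]
  have hL := (mem_L_iff h0).mp (X.bb_mem_L j) P'
  rw [P'.ord_mul h0 (X.uS_ne_zero q), X.ord_uS_of_S hP']
  rw [Finsupp.add_apply, X.CD0_apply_of_S hP', X.SD0_apply_of_S hP'] at hL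
  split_ifs at hL ⊢ <;> omega

/-- `b_j · u_a` as an element of the ring of the `a`-th condition disc -/
def hC (a : ι) (j : Option ι) : discRing D (X.C.Q a) :=
  ⟨X.bb j * (X.C.u a : F), D.G.mul_mem (X.bb_mem_G j) (X.C.u a).2, X.poleFree_mul_u a j⟩

/-- `b_j · u_q` as an element of the ring of the `q`-th residual disc -/
def hS (q : Fin g) (j : Option ι) : discRing D (X.S.Q q) :=
  ⟨X.bb j * (X.S.u q : F), D.G.mul_mem (X.bb_mem_G j) (X.S.u q).2, X.poleFree_mul_uS q j⟩

@[simp] theorem coe_hC (a : ι) (j : Option ι) : ((X.hC a j : discRing D (X.C.Q a)) : F) =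
    X.bb j * (X.C.u a : F) := rfl

@[simp] theorem coe_hS (q : Fin g) (j : Option ι) : ((X.hS q j : discRing D (X.S.Q q)) : F) =
    X.bb j * (X.S.u q : F) := rfl

theorem hC_none (a : ι) : X.hC a none = (X.C.chart a).uR := by
  apply Subtype.ext
  show X.bb none * (X.C.u a : F) = (X.C.u a : F)
  rw [bb_none, one_mul]

/-- the chart of the `q`-th residual disc -/
def chartS (q : Fin g) : Chart D (X.S.Q q) := ⟨X.S.P q, rfl, X.S.u q, X.S.good q⟩

theorem hS_none (q : Fin g) : X.hS q none = (X.chartS q).uR := by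
  apply Subtype.ext
  show X.bb none * (X.S.u q : F) = (X.S.u q : F)
  rw [bb_none, one_mul]

variable [DecidableEq ι]

/-- the polar matrix: leading polar coefficients of the `b_j` at the condition centres -/
def polar : Matrix ι ι D.A :=
  Matrix.of fun a j => evR (X.C.chart a).hP (X.hC a (some j))

/-- the exact linear system at the condition points with coordinates `T` -/
def cT (T : ι → mA D) (a : ι) (j : Option ι) : D.A := evR (X.C.r_pt a (T a)) (X.hC a j)

theorem cT_none (T : ι → mA D) (a : ι) : X.cT T a none = (T a : D.A) := by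
  rw [cT, hC_none, X.C.evR_uR_pt]

theorem res_cT (T : ι → mA D) (a : ι) (j : ι) :
    D.res (X.cT T a (some j)) = D.res (X.polar a j) := by
  rw [cT, polar, Matrix.of_apply, res_evR, res_evR]

theorem isUnit_det_minor_cT (hpolar : IsUnit X.polar.det) (T : ι → mA D) :
    IsUnit (minor (X.cT T)).det := by
  have h1 : D.res.mapMatrix (minor (X.cT T)) = D.res.mapMatrix X.polar := by
    ext a j
    simp only [RingHom.mapMatrix_apply, Matrix.map_apply, minor, Matrix.of_apply]
    exact X.res_cT T a j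
  by_contra hnu
  have h2 : D.res (minor (X.cT T)).det = 0 := (D.res_eq_zero_iff _).mpr hnu
  rw [RingHom.map_det, h1, ← RingHom.map_det] at h2
  exact (D.res_eq_zero_iff _).mp h2 hpolar

/-- the exact Cramer coefficients -/
def mu (T : ι → mA D) : Option ι → D.A := solve (X.cT T)

@[simp] theorem mu_none (T : ι → mA D) : X.mu T none = 1 := rfl

theorem mu_spec (hpolar : IsUnit X.polar.det) (T : ι → mA D) (a : ι) :
    ∑ j, X.mu T j * X.cT T a j = 0 :=
  solve_spec _ (X.isUnit_det_minor_cT hpolar T) a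

theorem mu_some_mem (T : ι → mA D) (j : ι) :
    X.mu T (some j) ∈ IsLocalRing.maximalIdeal D.A :=
  solve_some_mem _ _ (fun a => by rw [X.cT_none]; exact (T a).2) j

/-- the section `s = Σ μ_j b_j` -/
def sec (T : ι → mA D) : F := ∑ j, algebraMap L F (X.mu T j : L) * X.bb j

theorem sec_mem_L (T : ι → mA D) : X.sec T ∈ riemannRochSpace (X.C.D0 + X.S.D0) := by
  refine Submodule.sum_mem _ fun j _ => ?_
  rw [← Algebra.smul_def]
  exact Submodule.smul_mem _ _ (X.bb_mem_L j)

theorem sec_mem_G (T : ι → mA D) : X.sec T ∈ D.G :=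
  D.G.sum_mem fun j _ => D.G.mul_mem (D.const_mem _) (X.bb_mem_G j)

theorem red_sec (T : ι → mA D) : D.red ⟨X.sec T, X.sec_mem_G T⟩ = 1 := by
  have h1 : (⟨X.sec T, X.sec_mem_G T⟩ : D.G) =
      ∑ j, D.const (X.mu T j) * ⟨X.bb j, X.bb_mem_G j⟩ := by
    apply Subtype.ext
    rw [AddSubmonoidClass.coe_finsetSum]
    rfl
  rw [h1, map_sum, Fintype.sum_option]
  have h2 : ∀ j : ι, D.red (D.const (X.mu T (some j)) * ⟨X.bb (some j), X.bb_mem_G (some j)⟩)
      = 0 := by
    intro j
    rw [map_mul, D.red_const']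
    have : D.res (X.mu T (some j)) = 0 := by
      rw [D.res_eq_zero_iff]
      have := X.mu_some_mem T j
      rwa [IsLocalRing.mem_maximalIdeal, mem_nonunits_iff] at this
    rw [this, map_zero, zero_mul]
  rw [Finset.sum_eq_zero (fun j _ => h2 j), add_zero, map_mul, D.red_const', mu_none, map_one,
    map_one, one_mul]
  have : (⟨X.bb none, X.bb_mem_G none⟩ : D.G) = 1 := Subtype.ext rfl
  rw [this, map_one]

theorem sec_ne_zero (T : ι → mA D) : X.sec T ≠ 0 := by
  intro h0
  have h1 := X.red_sec T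
  have : (⟨X.sec T, X.sec_mem_G T⟩ : D.G) = 0 := Subtype.ext h0
  rw [this, map_zero] at h1
  exact zero_ne_one h1

/-- `s · u_a` in the ring of the `a`-th condition disc -/
theorem sec_mul_u_eq (T : ι → mA D) (a : ι) :
    X.sec T * (X.C.u a : F) =
      ((∑ j, constR D (X.C.Q a) (X.mu T j) * X.hC a j : discRing D (X.C.Q a)) : F) := by
  rw [AddSubmonoidClass.coe_finsetSum, sec, Finset.sum_mul]
  refine Finset.sum_congr rfl fun j _ => ?_
  rw [Subring.coe_mul, coe_constR, coe_hC, mul_assoc]

theorem sec_mul_uS_eq (T : ι → mA D) (q : Fin g) :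
    X.sec T * (X.S.u q : F) =
      ((∑ j, constR D (X.S.Q q) (X.mu T j) * X.hS q j : discRing D (X.S.Q q)) : F) := by
  rw [AddSubmonoidClass.coe_finsetSum, sec, Finset.sum_mul]
  refine Finset.sum_congr rfl fun j _ => ?_
  rw [Subring.coe_mul, coe_constR, coe_hS, mul_assoc]

theorem evR_sum_C (T : ι → mA D) (a : ι) {P' : Place L F} (hP' : D.r P' = X.C.Q a) :
    evR hP' (∑ j, constR D (X.C.Q a) (X.mu T j) * X.hC a j) =
      ∑ j, X.mu T j * evR hP' (X.hC a j) := by
  rw [map_sum]
  refine Finset.sum_congr rfl fun j _ => ?_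
  rw [map_mul, evR_constR]

theorem evR_sum_S (T : ι → mA D) (q : Fin g) {P' : Place L F} (hP' : D.r P' = X.S.Q q) :
    evR hP' (∑ j, constR D (X.S.Q q) (X.mu T j) * X.hS q j) =
      ∑ j, X.mu T j * evR hP' (X.hS q j) := by
  rw [map_sum]
  refine Finset.sum_congr rfl fun j _ => ?_
  rw [map_mul, evR_constR]

/-- the section vanishes at the condition points -/
theorem ord_sec_pt (hpolar : IsUnit X.polar.det) (T : ι → mA D) (a : ι) :
    0 < (X.C.pt a (T a)).ord (X.sec T) +
      (if X.C.pt a (T a) = X.C.P a then 1 else 0) := by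
  have h0 : evR (X.C.r_pt a (T a)) (∑ j, constR D (X.C.Q a) (X.mu T j) * X.hC a j) = 0 := by
    rw [X.evR_sum_C T a]
    exact X.mu_spec hpolar T a
  rw [evR_eq_zero_iff, ← X.sec_mul_u_eq T a] at h0
  rcases h0 with h0 | h0
  · exact absurd h0 (mul_ne_zero (X.sec_ne_zero T) (X.C.u_ne_zero a))
  · rwa [Place.ord_mul _ (X.sec_ne_zero T) (X.C.u_ne_zero a),
      X.C.ord_u_of_r (X.C.r_pt a (T a))] at h0

/-- the divisor of conditions `Σ c_a − ΣC_a − ΣS.P_q` -/
def Bdiv (T : ι → mA D) : Divisor L F := X.C.Ediv T - X.C.D0 - X.S.D0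

theorem Bdiv_le_ord (hpolar : IsUnit X.polar.det) (T : ι → mA D) (P : Place L F) :
    X.Bdiv T P ≤ P.ord (X.sec T) := by
  have hL := (mem_L_iff (X.sec_ne_zero T)).mp (X.sec_mem_L T) P
  rw [Finsupp.add_apply] at hL
  rw [Bdiv, Finsupp.sub_apply, Finsupp.sub_apply]
  by_cases hex : ∃ a, D.r P = X.C.Q a
  · obtain ⟨a, ha⟩ := hex
    rw [X.C.Ediv_apply_of_r T ha, X.C.D0_apply_of_r ha, X.SD0_apply_of_C ha]
    rw [X.C.D0_apply_of_r ha, X.SD0_apply_of_C ha] at hL
    by_cases hPc : P = X.C.pt a (T a)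
    · have h1 := X.ord_sec_pt hpolar T a
      rw [← hPc] at h1
      rw [if_pos hPc]
      split_ifs at h1 hL ⊢ <;> omega
    · rw [if_neg hPc]
      split_ifs at hL ⊢ <;> omega
  · push Not at hex
    rw [X.C.Ediv_apply_of_not T hex, X.C.D0_apply_of_not hex]
    rw [X.C.D0_apply_of_not hex] at hL
    omega

theorem mapDomain_Bdiv (T : ι → mA D) (Q' : Place k Ft) :
    Finsupp.mapDomain D.r (X.Bdiv T) Q' = -(X.S.redDiv Q') := by
  rw [Bdiv, mapDomain_sub', mapDomain_sub', X.C.mapDomain_Ediv, mapDomain_D0]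
  simp only [Finsupp.sub_apply]
  ring

/-- **The exact simple step.**  The section `s` has divisor `Bdiv T + E_S(T'')`, and the
coordinates `T''` of its residual zeros satisfy the exact equations
`Σ_j μ_j · (b_j u_q)(z_q) = 0`. -/
theorem exact_step (hpolar : IsUnit X.polar.det) (T : ι → mA D) :
    ∃ T'' : Fin g → mA D,
      (∀ P : Place L F, P.ord (X.sec T) = X.Bdiv T P + X.S.Ediv T'' P) ∧
      ∀ q, ∑ j, X.mu T j * evR (X.S.r_pt q (T'' q)) (X.hS q j) = 0 := by
  obtain ⟨T'', hT''⟩ := exists_residual X.S (X.Bdiv T) (X.mapDomain_Bdiv T) (X.sec_ne_zero T)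
    (X.Bdiv_le_ord hpolar T)
  refine ⟨T'', hT'', fun q => ?_⟩
  have hz : D.r (X.S.pt q (T'' q)) = X.S.Q q := X.S.r_pt q (T'' q)
  rw [← X.evR_sum_S T q hz, evR_eq_zero_iff]
  right
  rw [← X.sec_mul_uS_eq T q, Place.ord_mul _ (X.sec_ne_zero T) (X.uS_ne_zero q), hT'',
    X.ord_uS_of_S hz, Bdiv, Finsupp.sub_apply, Finsupp.sub_apply, X.CEdiv_apply_of_S T hz,
    X.CD0_apply_of_S hz, X.SD0_apply_of_S hz, X.S.Ediv_apply_pt]
  split_ifs <;> omega

/-- the expansions of the `b_j u_a` at the condition discs -/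
def expC (a : ι) (j : Option ι) : PowerSeries D.A := (X.C.chart a).expand (X.hC a j)

/-- the expansions of the `b_j u_q` at the residual discs -/
def expS (q : Fin g) (j : Option ι) : PowerSeries D.A := (X.chartS q).expand (X.hS q j)

theorem expC_none (a : ι) : X.expC a none = PowerSeries.X := by
  rw [expC, hC_none, Chart.expand_uR]

theorem expS_none (q : Fin g) : X.expS q none = PowerSeries.X := by
  rw [expS, hS_none, Chart.expand_uR]

theorem constantCoeff_expC (a : ι) (j : Option ι) :
    PowerSeries.constantCoeff (X.expC a j) = evR (X.C.chart a).hP (X.hC a j) :=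
  (X.C.chart a).expDatum.constantCoeff_expand (X.hC a j)

/-- **the formal step data of the geometric step** (coefficients in `A`). -/
def stepData (hpolar : IsUnit X.polar.det) : StepData D.A ι (Fin g) where
  e := X.expC
  res := X.expS
  e_zero a := by rw [expC_none, PowerSeries.constantCoeff_X]
  det_unit := by
    have h : (Matrix.of fun a j : ι => PowerSeries.constantCoeff (X.expC a (some j))) =
        X.polar := by
      ext a j
      rw [Matrix.of_apply, constantCoeff_expC]
      rfl
    rw [h]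
    exact hpolar
  res_zero q := by rw [expS_none, PowerSeries.constantCoeff_X]
  res_one q := by rw [expS_none, PowerSeries.coeff_one_X]; exact isUnit_one

end StepPre

end

end Fermat.Agent.FF.FAM.BridgeExact8
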