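import Mathlib
import Fermat.Agent.FF.FAM.BridgeExact8

set_option autoImplicit false
set_option linter.unusedSectionVars false
set_option linter.style.longLine false

/-!
# The exact chains: transition and sum

Three non-special systems `S0, S0', S1` with pairwise distinct discs and four polar families.
* transition `S0 → S0'`: step A (conditions at `S0`, residual `S1`, lattice `L(D0 + D1)`), then
  step B (conditions at `S1`, residual `S0'`, lattice `L(D1 + D0')`): `kap0' T'' = kap0 T'`;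
* sum: step C (conditions at `S0 ⊔ S0'`, residual `S1`, lattice `L(D0 + D0' + D1)`), then step D
  (conditions at `S1`, residual `S0`, lattice `L(D1 + D0)`): `kap0 T''' = kap0 T + kap0' T''`.
-/

namespace Fermat.Agent.FF.FAM.Chain8

open AlgebraicCurve Fermat.Agent.X0.FF Fermat.Agent.RR.LSpace Fermat.Agent.MW.EMB.Value6
open Fermat.Agent.FF.RED.RedDatum7 Fermat.Agent.FF.RED.Disc7 Fermat.Agent.FF.RED.Expand7
open Fermat.Agent.FF.KER.Ker0 Fermat.Agent.FF.KER.Add0 Fermat.Agent.FF.FAM.Step8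
open Fermat.Agent.FF.FAM.BridgeExact8

noncomputable section

open scoped Classical

variable {L F k Ft : Type*} [Field L] [Field F] [Algebra L F] [Field k] [Field Ft] [Algebra k Ft]
variable {D : RedDatum L F k Ft}

/-- disjoint union of two families of condition centres -/
def sumFam {ι ι' : Type*} (C : CondFam D ι) (C' : CondFam D ι')
    (h : ∀ a a', D.r (C.P a) ≠ D.r (C'.P a')) : CondFam D (ι ⊕ ι') where
  P := Sum.elim C.P C'.P
  u := Sum.elim C.u C'.u
  good := fun x => match x with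
    | Sum.inl a => C.good a
    | Sum.inr a => C'.good a
  inj := by
    rintro (a | a) (b | b) hab
    · exact congrArg Sum.inl (C.inj hab)
    · exact absurd hab (h a b)
    · exact absurd hab.symm (h b a)
    · exact congrArg Sum.inr (C'.inj hab)

section sumFam

variable {ι ι' : Type*} [Fintype ι] [Fintype ι'] (C : CondFam D ι) (C' : CondFam D ι')
  (h : ∀ a a', D.r (C.P a) ≠ D.r (C'.P a'))

theorem sumFam_D0 : (sumFam C C' h).D0 = C.D0 + C'.D0 := by
  rw [CondFam.D0, Fintype.sum_sum_type]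
  rfl

theorem sumFam_Ediv (T : ι → mA D) (T' : ι' → mA D) :
    (sumFam C C' h).Ediv (Sum.elim T T') = C.Ediv T + C'.Ediv T' := by
  rw [CondFam.Ediv, Fintype.sum_sum_type]
  rfl

end sumFam

/-- the relation between the coordinates of the condition points and of the residual zeros of a
simple step -/
def Rel {ι : Type*} [Fintype ι] [DecidableEq ι] {g : ℕ} (X : StepPre D ι g) (T : ι → mA D)
    (T'' : Fin g → mA D) : Prop :=
  (∀ P : Place L F, P.ord (X.sec T) = X.Bdiv T P + X.S.Ediv T'' P) ∧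
    ∀ q, ∑ j, X.mu T j * evR (X.S.r_pt q (T'' q)) (X.hS q j) = 0

theorem exists_rel {ι : Type*} [Fintype ι] [DecidableEq ι] {g : ℕ} (X : StepPre D ι g)
    (hpolar : IsUnit X.polar.det) (T : ι → mA D) : ∃ T'', Rel X T T'' :=
  X.exact_step hpolar T

/-- the data of the two chains -/
structure ChainData (D : RedDatum L F k Ft) (g : ℕ) where
  S0 : NSSystem D g
  S0' : NSSystem D g
  S1 : NSSystem D g
  d01 : ∀ i j, D.r (S0.P i) ≠ D.r (S1.P j)
  d0'1 : ∀ i j, D.r (S0'.P i) ≠ D.r (S1.P j)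
  d00' : ∀ i j, D.r (S0.P i) ≠ D.r (S0'.P j)
  bA : Fin g → F
  bA_G : ∀ j, bA j ∈ D.G
  bA_L : ∀ j, bA j ∈ riemannRochSpace ((CondFam.ofNS S0).D0 + S1.D0)
  bB : Fin g → F
  bB_G : ∀ j, bB j ∈ D.G
  bB_L : ∀ j, bB j ∈ riemannRochSpace ((CondFam.ofNS S1).D0 + S0'.D0)
  bC : Fin g ⊕ Fin g → F
  bC_G : ∀ j, bC j ∈ D.G
  bC_L : ∀ j, bC j ∈ riemannRochSpace
    ((sumFam (CondFam.ofNS S0) (CondFam.ofNS S0') d00').D0 + S1.D0)
  bD : Fin g → F
  bD_G : ∀ j, bD j ∈ D.G
  bD_L : ∀ j, bD j ∈ riemannRochSpace ((CondFam.ofNS S1).D0 + S0.D0)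

namespace ChainData

variable {g : ℕ} (K : ChainData D g)

/-- step A: conditions at `S0`, residual `S1` -/
def XA : StepPre D (Fin g) g :=
  ⟨CondFam.ofNS K.S0, K.S1, K.d01, K.bA, K.bA_G, K.bA_L⟩

/-- step B: conditions at `S1`, residual `S0'` -/
def XB : StepPre D (Fin g) g :=
  ⟨CondFam.ofNS K.S1, K.S0', fun i j => (K.d0'1 j i).symm, K.bB, K.bB_G, K.bB_L⟩

/-- step C: conditions at `S0 ⊔ S0'`, residual `S1` -/
def XC : StepPre D (Fin g ⊕ Fin g) g :=
  ⟨sumFam (CondFam.ofNS K.S0) (CondFam.ofNS K.S0') K.d00', K.S1,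
    fun x j => match x with
      | Sum.inl a => K.d01 a j
      | Sum.inr a => K.d0'1 a j,
    K.bC, K.bC_G, K.bC_L⟩

/-- step D: conditions at `S1`, residual `S0` -/
def XD : StepPre D (Fin g) g :=
  ⟨CondFam.ofNS K.S1, K.S0, fun i j => (K.d01 j i).symm, K.bD, K.bD_G, K.bD_L⟩

/-- the polar conditions of the four steps -/
structure Polar : Prop where
  hA : IsUnit K.XA.polar.det
  hB : IsUnit K.XB.polar.det
  hC : IsUnit K.XC.polar.det
  hD : IsUnit K.XD.polar.det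

theorem kap_of_div {S S' : NSSystem D g} {T T' : Fin g → mA D} {s z : F} (hs : s ≠ 0)
    (hz : z ≠ 0)
    (h : ∀ P : Place L F, P.ord z - P.ord s =
      (S'.Ediv T' P - S'.D0 P) - (S.Ediv T P - S.D0 P)) : S.kap T = S'.kap T' := by
  rw [NSSystem.kap, NSSystem.kap, NSSystem.mk_eq_mk_iff]
  refine ⟨z / s, div_ne_zero hz hs, fun P => ?_⟩
  rw [div_eq_mul_inv, P.ord_mul hz (inv_ne_zero hs), Place.ord_inv]
  show (S'.Ediv T' - S'.D0 - (S.Ediv T - S.D0)) P = _
  simp only [Finsupp.sub_apply]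
  have := h P
  omega

/-- **transition**: steps A and B. -/
theorem kap_trans {T' ζ T'' : Fin g → mA D} (hA : Rel K.XA T' ζ) (hB : Rel K.XB ζ T'') :
    K.S0.kap T' = K.S0'.kap T'' := by
  refine kap_of_div (K.XA.sec_ne_zero T') (K.XB.sec_ne_zero ζ) fun P => ?_
  rw [hA.1 P, hB.1 P]
  simp only [StepPre.Bdiv, Finsupp.sub_apply, XA, XB, CondFam.ofNS_Ediv, CondFam.ofNS_D0]
  ring

/-- **sum**: steps C and D. -/
theorem kap_sum {T T'' ζ' T''' : Fin g → mA D} (hC : Rel K.XC (Sum.elim T T'') ζ')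
    (hD : Rel K.XD ζ' T''') : K.S0.kap T + K.S0'.kap T'' = K.S0.kap T''' := by
  rw [NSSystem.kap, NSSystem.kap, NSSystem.kap, ← Pic0.mk_add, NSSystem.mk_eq_mk_iff]
  refine ⟨K.XD.sec ζ' / K.XC.sec (Sum.elim T T''),
    div_ne_zero (K.XD.sec_ne_zero ζ') (K.XC.sec_ne_zero _), fun P => ?_⟩
  rw [div_eq_mul_inv, P.ord_mul (K.XD.sec_ne_zero ζ') (inv_ne_zero (K.XC.sec_ne_zero _)),
    Place.ord_inv, hC.1 P, hD.1 P]
  show (K.S0.Ediv T''' - K.S0.D0 - ((K.S0.Ediv T - K.S0.D0) + (K.S0'.Ediv T'' - K.S0'.D0))) P = _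
  simp only [StepPre.Bdiv, Finsupp.sub_apply, Finsupp.add_apply, XC, XD, CondFam.ofNS_Ediv,
    CondFam.ofNS_D0, sumFam_Ediv, sumFam_D0]
  ring

/-- **the exact chain**: for `T, T'` the four steps can be carried out and compute the sum. -/
theorem exists_chain (hK : K.Polar) (T T' : Fin g → mA D) :
    ∃ ζ T'' ζ' T''' : Fin g → mA D, Rel K.XA T' ζ ∧ Rel K.XB ζ T'' ∧
      Rel K.XC (Sum.elim T T'') ζ' ∧ Rel K.XD ζ' T''' ∧
      K.S0.kap T + K.S0.kap T' = K.S0.kap T''' := by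
  obtain ⟨ζ, hζ⟩ := exists_rel K.XA hK.hA T'
  obtain ⟨T'', hT''⟩ := exists_rel K.XB hK.hB ζ
  obtain ⟨ζ', hζ'⟩ := exists_rel K.XC hK.hC (Sum.elim T T'')
  obtain ⟨T''', hT'''⟩ := exists_rel K.XD hK.hD ζ'
  refine ⟨ζ, T'', ζ', T''', hζ, hT'', hζ', hT''', ?_⟩
  rw [K.kap_trans hζ hT'']
  exact K.kap_sum hζ' hT'''

end ChainData

end

end Fermat.Agent.FF.FAM.Chain8
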