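/-
PROGRAMME FF (S19), chapter F5 FAMILY, brick (D') (helper4): **evaluated divided differences without
topology** (abstract form, for any ring homomorphism out of `MvPowerSeries (Fin 2) W`; to be
instantiated with the nilpotent evaluation `NilEval3.nilEval ![x, y]`).

`ev₂ : MvPowerSeries (Fin 2) W →ₐ[W] O` any `W`-algebra homomorphism; write `x = ev₂ (X 0)`,
`y = ev₂ (X 1)`, `f(x) := ev₂ (subst (X 0) f)`, `f(y) := ev₂ (subst (X 1) f)`.

* (D6') `ev_sub_ev` : `f(x) - f(y) = (x - y) * ev₂ (dd f)`;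
* `ev_dd_sub_isNilpotent`, `isUnit_sum_ev_dd` : if `ev₂` sends power series without constant term to
  nilpotent elements, `Σ_j μ j * ev₂ (dd (f j))` is a unit as soon as
  `Σ_j μ j * algebraMap (coeff 1 (f j))` is;
* (D7') `ev_X_eq_of_sum_eq` / `ev_X_eq_of_sum_eq_zero` : UNIQUE ROOT, linear-combination form:
  if `Σ_j μ j * f_j(x) = Σ_j μ j * f_j(y)` (e.g. both `0`) and `Σ_j μ j * (f_j)_1` is a unit, then
  `x = y`.
-/
import Mathlib
import Fermat.Agent.FF.FAM.DivDiff4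

set_option autoImplicit false
set_option linter.unusedSectionVars false

namespace Fermat.Agent.FF.FAM.DivDiffNil4

open MvPowerSeries Fermat.Agent.FF.FAM.DivDiff4

variable {W O : Type*} [CommRing W] [CommRing O]

/-- **(D6')** the evaluated form of `dd_spec`, for any ring homomorphism. -/
theorem ev_sub_ev (ev₂ : MvPowerSeries (Fin 2) W →+* O) (f : PowerSeries W) :
    ev₂ (PowerSeries.subst (X 0 : MvPowerSeries (Fin 2) W) f) -
        ev₂ (PowerSeries.subst (X 1 : MvPowerSeries (Fin 2) W) f) =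
      (ev₂ (X 0) - ev₂ (X 1)) * ev₂ (dd f) := by
  rw [← map_sub, ← map_sub, ← map_mul, dd_spec]

variable [Algebra W O]

/-- `ev₂ (dd f) - f_1` is nilpotent when `ev₂` sends series without constant term to nilpotents. -/
theorem ev_dd_sub_isNilpotent (ev₂ : MvPowerSeries (Fin 2) W →ₐ[W] O)
    (hnil : ∀ g : MvPowerSeries (Fin 2) W, MvPowerSeries.constantCoeff g = 0 → IsNilpotent (ev₂ g))
    (f : PowerSeries W) :
    IsNilpotent (ev₂ (dd f) - algebraMap W O (PowerSeries.coeff 1 f)) := by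
  have hg : MvPowerSeries.constantCoeff (dd f - MvPowerSeries.C (PowerSeries.coeff 1 f)) = 0 := by
    rw [map_sub, constantCoeff_dd, MvPowerSeries.constantCoeff_C, sub_self]
  have := hnil _ hg
  rwa [map_sub, MvPowerSeries.c_eq_algebraMap, AlgHom.commutes] at this

/-- `Σ_j μ j * ev₂ (dd (f j))` is a unit as soon as `Σ_j μ j * (f j)_1` is. -/
theorem isUnit_sum_ev_dd {ι : Type*} (s : Finset ι) (ev₂ : MvPowerSeries (Fin 2) W →ₐ[W] O)
    (hnil : ∀ g : MvPowerSeries (Fin 2) W, MvPowerSeries.constantCoeff g = 0 → IsNilpotent (ev₂ g))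
    (μ : ι → O) (f : ι → PowerSeries W)
    (hu : IsUnit (∑ j ∈ s, μ j * algebraMap W O (PowerSeries.coeff 1 (f j)))) :
    IsUnit (∑ j ∈ s, μ j * ev₂ (dd (f j))) := by
  have h1 : ∑ j ∈ s, μ j * ev₂ (dd (f j)) =
      ∑ j ∈ s, μ j * algebraMap W O (PowerSeries.coeff 1 (f j)) +
        ∑ j ∈ s, μ j * (ev₂ (dd (f j)) - algebraMap W O (PowerSeries.coeff 1 (f j))) := by
    rw [← Finset.sum_add_distrib]
    exact Finset.sum_congr rfl fun j _ => by ring
  have h2 : IsNilpotent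
      (∑ j ∈ s, μ j * (ev₂ (dd (f j)) - algebraMap W O (PowerSeries.coeff 1 (f j)))) := by
    rw [← mem_nilradical]
    refine (nilradical O).sum_mem fun j _ => (nilradical O).mul_mem_left _ ?_
    rw [mem_nilradical]
    exact ev_dd_sub_isNilpotent ev₂ hnil (f j)
  rw [h1]
  exact h2.isUnit_add_left_of_commute hu (Commute.all _ _)

/-- **(D7')** unique root, linear-combination form. -/
theorem ev_X_eq_of_sum_eq {ι : Type*} (s : Finset ι) (ev₂ : MvPowerSeries (Fin 2) W →ₐ[W] O)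
    (hnil : ∀ g : MvPowerSeries (Fin 2) W, MvPowerSeries.constantCoeff g = 0 → IsNilpotent (ev₂ g))
    (μ : ι → O) (f : ι → PowerSeries W)
    (hu : IsUnit (∑ j ∈ s, μ j * algebraMap W O (PowerSeries.coeff 1 (f j))))
    (h : ∑ j ∈ s, μ j * ev₂ (PowerSeries.subst (X 0 : MvPowerSeries (Fin 2) W) (f j)) =
      ∑ j ∈ s, μ j * ev₂ (PowerSeries.subst (X 1 : MvPowerSeries (Fin 2) W) (f j))) :
    ev₂ (X 0) = ev₂ (X 1) := by
  have h1 : (ev₂ (X 0) - ev₂ (X 1)) * ∑ j ∈ s, μ j * ev₂ (dd (f j)) = 0 := by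
    rw [Finset.mul_sum]
    have : ∀ j ∈ s, (ev₂ (X 0) - ev₂ (X 1)) * (μ j * ev₂ (dd (f j))) =
        μ j * ev₂ (PowerSeries.subst (X 0 : MvPowerSeries (Fin 2) W) (f j)) -
          μ j * ev₂ (PowerSeries.subst (X 1 : MvPowerSeries (Fin 2) W) (f j)) := by
      intro j _
      have := ev_sub_ev (ev₂ : MvPowerSeries (Fin 2) W →+* O) (f j)
      simp only [RingHom.coe_coe] at this
      rw [← mul_sub, this]
      ring
    rw [Finset.sum_congr rfl this, Finset.sum_sub_distrib, h, sub_self]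
  exact sub_eq_zero.mp ((isUnit_sum_ev_dd s ev₂ hnil μ f hu).mul_left_eq_zero.mp h1)

theorem ev_X_eq_of_sum_eq_zero {ι : Type*} (s : Finset ι)
    (ev₂ : MvPowerSeries (Fin 2) W →ₐ[W] O)
    (hnil : ∀ g : MvPowerSeries (Fin 2) W, MvPowerSeries.constantCoeff g = 0 → IsNilpotent (ev₂ g))
    (μ : ι → O) (f : ι → PowerSeries W)
    (hu : IsUnit (∑ j ∈ s, μ j * algebraMap W O (PowerSeries.coeff 1 (f j))))
    (h0 : ∑ j ∈ s, μ j * ev₂ (PowerSeries.subst (X 0 : MvPowerSeries (Fin 2) W) (f j)) = 0)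
    (h1 : ∑ j ∈ s, μ j * ev₂ (PowerSeries.subst (X 1 : MvPowerSeries (Fin 2) W) (f j)) = 0) :
    ev₂ (X 0) = ev₂ (X 1) :=
  ev_X_eq_of_sum_eq s ev₂ hnil μ f hu (h0.trans h1.symm)

end Fermat.Agent.FF.FAM.DivDiffNil4
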