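import Mathlib
import Fermat.Agent.FF.FAM.FormalIFT8

set_option autoImplicit false

/-!
# Evaluation of power series at nilpotent points (purely algebraic)

`nilEval θ f` for `θ : σ → O` (nilpotent elements of a commutative `W`-algebra `O`, `σ` finite) and
`f : MvPowerSeries σ W`, defined through Mathlib's substitution into `MvPowerSeries Empty O`.
-/

namespace Fermat.Agent.FF.FAM.NilEval8

open MvPowerSeries Fermat.Agent.FF.FAM.FormalIFT8

variable {W O : Type*} [CommRing W] [CommRing O] [Algebra W O] {σ τ : Type*}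

/-- the constant family `s ↦ C (θ s)` in `MvPowerSeries Empty O` -/
noncomputable def cst (θ : σ → O) : σ → MvPowerSeries Empty O := fun s => C (θ s)

theorem hasSubst_cst [Finite σ] {θ : σ → O} (hθ : ∀ s, IsNilpotent (θ s)) : HasSubst (cst θ) :=
  hasSubst_of_constantCoeff_nilpotent (fun s => by
    show IsNilpotent (constantCoeff (C (θ s) : MvPowerSeries Empty O))
    rw [constantCoeff_C]; exact hθ s)

theorem eq_C_constantCoeff (g : MvPowerSeries Empty O) : g = C (constantCoeff g) := by
  ext d
  have hd : d = 0 := Subsingleton.elim _ _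
  subst hd
  simp

/-- **nilpotent evaluation** (a plain function; it is an algebra homomorphism when the `θ s` are
nilpotent, see `nilEvalHom`). -/
noncomputable def nilEval (θ : σ → O) (f : MvPowerSeries σ W) : O :=
  constantCoeff (subst (cst θ) f : MvPowerSeries Empty O)

/-- the constant coefficient as an algebra homomorphism -/
noncomputable def ccAlg : MvPowerSeries Empty O →ₐ[W] O :=
  { (constantCoeff : MvPowerSeries Empty O →+* O) with
    commutes' := fun w => by
      show constantCoeff (algebraMap W (MvPowerSeries Empty O) w) = algebraMap W O w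
      rw [MvPowerSeries.algebraMap_apply, constantCoeff_C] }

/-- nilpotent evaluation as an algebra homomorphism -/
noncomputable def nilEvalHom [Finite σ] {θ : σ → O} (hθ : ∀ s, IsNilpotent (θ s)) :
    MvPowerSeries σ W →ₐ[W] O :=
  (ccAlg (W := W) (O := O)).comp (substAlgHom (hasSubst_cst hθ))

@[simp] theorem nilEvalHom_apply [Finite σ] {θ : σ → O} (hθ : ∀ s, IsNilpotent (θ s))
    (f : MvPowerSeries σ W) : nilEvalHom hθ f = nilEval θ f := by
  show constantCoeff (substAlgHom (hasSubst_cst hθ) f) = _
  rw [coe_substAlgHom]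
  rfl

section basic

variable [Finite σ] {θ : σ → O} (hθ : ∀ s, IsNilpotent (θ s))
include hθ

theorem nilEval_add (f g : MvPowerSeries σ W) :
    nilEval θ (f + g) = nilEval θ f + nilEval θ g := by
  rw [← nilEvalHom_apply hθ, map_add, nilEvalHom_apply, nilEvalHom_apply]

theorem nilEval_mul (f g : MvPowerSeries σ W) :
    nilEval θ (f * g) = nilEval θ f * nilEval θ g := by
  rw [← nilEvalHom_apply hθ, map_mul, nilEvalHom_apply, nilEvalHom_apply]

theorem nilEval_sub (f g : MvPowerSeries σ W) :
    nilEval θ (f - g) = nilEval θ f - nilEval θ g := by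
  rw [← nilEvalHom_apply hθ, map_sub, nilEvalHom_apply, nilEvalHom_apply]

theorem nilEval_zero : nilEval θ (0 : MvPowerSeries σ W) = 0 := by
  rw [← nilEvalHom_apply hθ, map_zero]

theorem nilEval_one : nilEval θ (1 : MvPowerSeries σ W) = 1 := by
  rw [← nilEvalHom_apply hθ, map_one]

theorem nilEval_sum {κ : Type*} (s : Finset κ) (f : κ → MvPowerSeries σ W) :
    nilEval θ (∑ i ∈ s, f i) = ∑ i ∈ s, nilEval θ (f i) := by
  rw [← nilEvalHom_apply hθ, map_sum]
  exact Finset.sum_congr rfl fun i _ => nilEvalHom_apply hθ _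

theorem nilEval_C (w : W) : nilEval θ (C w : MvPowerSeries σ W) = algebraMap W O w := by
  rw [← nilEvalHom_apply hθ, MvPowerSeries.c_eq_algebraMap, AlgHom.commutes]

theorem nilEval_X (s : σ) : nilEval θ (X s : MvPowerSeries σ W) = θ s := by
  show constantCoeff (subst (cst θ) (X s : MvPowerSeries σ W) : MvPowerSeries Empty O) = _
  rw [subst_X (hasSubst_cst hθ)]
  show constantCoeff (C (θ s) : MvPowerSeries Empty O) = _
  rw [constantCoeff_C]

/-- (N4) series with nilpotent constant coefficient evaluate to nilpotent elements. -/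
theorem isNilpotent_nilEval {f : MvPowerSeries σ W} (hf : IsNilpotent (constantCoeff f)) :
    IsNilpotent (nilEval θ f) :=
  IsNilpotent_subst (hasSubst_cst hθ) hf

theorem isNilpotent_nilEval_of_constantCoeff_zero {f : MvPowerSeries σ W}
    (hf : constantCoeff f = 0) : IsNilpotent (nilEval θ f) :=
  isNilpotent_nilEval hθ (by rw [hf]; exact IsNilpotent.zero)

theorem isNilpotent_nilEval_sub (f : MvPowerSeries σ W) :
    IsNilpotent (nilEval θ f - algebraMap W O (constantCoeff f)) := by
  have h : constantCoeff (f - C (constantCoeff f)) = 0 := by simp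
  have := isNilpotent_nilEval_of_constantCoeff_zero hθ h
  rwa [nilEval_sub hθ, nilEval_C hθ] at this

theorem isUnit_nilEval {f : MvPowerSeries σ W}
    (hf : IsUnit (algebraMap W O (constantCoeff f))) : IsUnit (nilEval θ f) := by
  have h := isNilpotent_nilEval_sub hθ f
  have : nilEval θ f = algebraMap W O (constantCoeff f) +
      (nilEval θ f - algebraMap W O (constantCoeff f)) := by ring
  rw [this]
  exact h.isUnit_add_left_of_commute hf (Commute.all _ _)

/-- (N5) **composition**: evaluation of a substituted series. -/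
theorem nilEval_subst [Finite τ] {a : τ → MvPowerSeries σ W} (ha : HasSubst a)
    (f : MvPowerSeries τ W) :
    nilEval θ (subst a f) = nilEval (fun t => nilEval θ (a t)) f := by
  show constantCoeff (subst (cst θ) (subst a f) : MvPowerSeries Empty O) = _
  rw [subst_comp_subst_apply ha (hasSubst_cst hθ)]
  have h : (fun t => subst (cst θ) (a t) : τ → MvPowerSeries Empty O) =
      cst (fun t => nilEval θ (a t)) := by
    funext t
    exact eq_C_constantCoeff _
  rw [h]
  rfl

theorem nilEval_subst_of_constantCoeff_zero [Finite τ] {a : τ → MvPowerSeries σ W}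
    (ha : ∀ t, constantCoeff (a t) = 0) (f : MvPowerSeries τ W) :
    nilEval θ (subst a f) = nilEval (fun t => nilEval θ (a t)) f :=
  nilEval_subst hθ (hasSubst_of_constantCoeff_zero ha) f

end basic

/-! ### one variable -/

/-- nilpotent evaluation of a one-variable power series -/
noncomputable def nilEval₁ (z : O) (f : PowerSeries W) : O := nilEval (fun _ : Unit => z) f

section one

variable {z : O} (hz : IsNilpotent z)
include hz

theorem nilEval₁_add (f g : PowerSeries W) :
    nilEval₁ z (f + g) = nilEval₁ z f + nilEval₁ z g := nilEval_add (fun _ => hz) f g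

theorem nilEval₁_mul (f g : PowerSeries W) :
    nilEval₁ z (f * g) = nilEval₁ z f * nilEval₁ z g := nilEval_mul (fun _ => hz) f g

theorem nilEval₁_sub (f g : PowerSeries W) :
    nilEval₁ z (f - g) = nilEval₁ z f - nilEval₁ z g := nilEval_sub (fun _ => hz) f g

theorem nilEval₁_C (w : W) : nilEval₁ z (PowerSeries.C w) = algebraMap W O w :=
  nilEval_C (fun _ => hz) w

theorem nilEval₁_X : nilEval₁ z (PowerSeries.X : PowerSeries W) = z :=
  nilEval_X (fun _ => hz) ()

theorem nilEval₁_pow (f : PowerSeries W) (n : ℕ) : nilEval₁ z (f ^ n) = nilEval₁ z f ^ n := by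
  show nilEval (fun _ : Unit => z) (f ^ n) = _
  rw [← nilEvalHom_apply (fun _ => hz), map_pow, nilEvalHom_apply]
  rfl

theorem isNilpotent_nilEval₁_sub (f : PowerSeries W) :
    IsNilpotent (nilEval₁ z f - algebraMap W O (PowerSeries.constantCoeff f)) :=
  isNilpotent_nilEval_sub (fun _ => hz) f

/-- finite formula: if `z ^ N = 0` the evaluation is the truncated sum. -/
theorem nilEval₁_eq_sum {N : ℕ} (hN : z ^ N = 0) (f : PowerSeries W) :
    nilEval₁ z f = ∑ n ∈ Finset.range N, algebraMap W O (PowerSeries.coeff n f) * z ^ n := by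
  have h1 : f = (∑ n ∈ Finset.range N, PowerSeries.C (PowerSeries.coeff n f) * PowerSeries.X ^ n)
      + PowerSeries.X ^ N * PowerSeries.mk (fun n => PowerSeries.coeff (n + N) f) := by
    ext n
    rw [map_add, map_sum, PowerSeries.coeff_X_pow_mul']
    by_cases hn : n < N
    · rw [if_neg (by omega), add_zero, Finset.sum_eq_single n]
      · rw [PowerSeries.coeff_C_mul, PowerSeries.coeff_X_pow, if_pos rfl, mul_one]
      · intro m _ hmn
        rw [PowerSeries.coeff_C_mul, PowerSeries.coeff_X_pow, if_neg (Ne.symm hmn), mul_zero]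
      · intro h; exact absurd (Finset.mem_range.mpr hn) h
    · rw [if_pos (by omega), PowerSeries.coeff_mk, Nat.sub_add_cancel (by omega),
        Finset.sum_eq_zero, zero_add]
      intro m hm
      rw [PowerSeries.coeff_C_mul, PowerSeries.coeff_X_pow, if_neg, mul_zero]
      have := Finset.mem_range.mp hm
      omega
  conv_lhs => rw [h1]
  rw [nilEval₁_add hz, nilEval₁_mul hz, nilEval₁_pow hz, nilEval₁_X hz, hN, zero_mul, add_zero]
  show nilEval (fun _ : Unit => z) _ = _
  rw [nilEval_sum (fun _ => hz)]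
  refine Finset.sum_congr rfl fun n _ => ?_
  show nilEval₁ z _ = _
  rw [nilEval₁_mul hz, nilEval₁_C hz, nilEval₁_pow hz, nilEval₁_X hz]

end one

/-- (N5), one-variable inner series: `f(ζ)` evaluated at `θ` is `f` evaluated at `ζ(θ)`. -/
theorem nilEval_subst₁ [Finite σ] {θ : σ → O} (hθ : ∀ s, IsNilpotent (θ s))
    {ζ : MvPowerSeries σ W} (hζ : constantCoeff ζ = 0) (f : PowerSeries W) :
    nilEval θ (PowerSeries.subst ζ f) = nilEval₁ (nilEval θ ζ) f :=
  nilEval_subst_of_constantCoeff_zero hθ (a := fun _ : Unit => ζ) (fun _ => hζ) f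

theorem nilEval_subst_X [Finite σ] {θ : σ → O} (hθ : ∀ s, IsNilpotent (θ s)) (s : σ)
    (f : PowerSeries W) :
    nilEval θ (PowerSeries.subst (X s : MvPowerSeries σ W) f) = nilEval₁ (θ s) f := by
  rw [nilEval_subst₁ hθ (constantCoeff_X s), nilEval_X hθ]

/-- (N6) functoriality in `O`. -/
theorem map_nilEval [Finite σ] {O' : Type*} [CommRing O'] [Algebra W O'] (φ : O →ₐ[W] O')
    {θ : σ → O} (hθ : ∀ s, IsNilpotent (θ s)) (f : MvPowerSeries σ W) :
    φ (nilEval θ f) = nilEval (fun s => φ (θ s)) f := by
  have hθ' : ∀ s, IsNilpotent (φ (θ s)) := fun s => (hθ s).map φ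
  -- both sides are continuous-free algebra homs agreeing ... use the finite-support formula
  rw [nilEval, nilEval, MvPowerSeries.constantCoeff_subst (hasSubst_cst hθ),
    MvPowerSeries.constantCoeff_subst (hasSubst_cst hθ')]
  have hfin := coeff_subst_finite (hasSubst_cst hθ) f (0 : Empty →₀ ℕ)
  simp only [coeff_zero_eq_constantCoeff_apply] at hfin
  rw [map_finsum φ hfin]
  refine finsum_congr fun d => ?_
  rw [map_smul]
  congr 1
  simp only [cst, Finsupp.prod, map_prod, map_pow, constantCoeff_C]

/-! ### finite formulas, ideal estimates, truncations -/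

theorem nilEval_eq_finsum [Finite σ] {θ : σ → O} (hθ : ∀ s, IsNilpotent (θ s))
    (f : MvPowerSeries σ W) :
    nilEval θ f = ∑ᶠ d : σ →₀ ℕ, coeff d f • d.prod (fun s e => θ s ^ e) := by
  rw [nilEval, MvPowerSeries.constantCoeff_subst (hasSubst_cst hθ)]
  refine finsum_congr fun d => ?_
  congr 1
  simp only [cst, Finsupp.prod, map_prod, map_pow, constantCoeff_C]

theorem prod_pow_mem (I : Ideal O) {θ : σ → O} (hI : ∀ s, θ s ∈ I) (d : σ →₀ ℕ) :
    d.prod (fun s e => θ s ^ e) ∈ I ^ d.degree := by
  rw [Finsupp.degree_apply, ← Finset.prod_pow_eq_pow_sum]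
  exact Ideal.prod_mem_prod fun s _ => Ideal.pow_mem_pow (hI s) _

/-- (N4') ideal estimate. -/
theorem nilEval_mem_pow [Finite σ] {θ : σ → O} (hθ : ∀ s, IsNilpotent (θ s)) (I : Ideal O)
    (hI : ∀ s, θ s ∈ I) {N : ℕ} {f : MvPowerSeries σ W} (hf : Fil N f) :
    nilEval θ f ∈ I ^ N := by
  rw [nilEval_eq_finsum hθ]
  refine finsum_induction (fun x => x ∈ I ^ N) (Ideal.zero_mem _)
    (fun x y hx hy => Ideal.add_mem _ hx hy) fun d => ?_
  by_cases hd : d.degree < N
  · rw [hf d hd, zero_smul]; exact Ideal.zero_mem _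
  · rw [← algebraMap_smul O, smul_eq_mul]
    exact Ideal.mul_mem_left _ _ (Ideal.pow_le_pow_right (not_lt.mp hd) (prod_pow_mem I hI d))

theorem nilEval_mem [Finite σ] {θ : σ → O} (hθ : ∀ s, IsNilpotent (θ s)) (I : Ideal O)
    (hI : ∀ s, θ s ∈ I) {f : MvPowerSeries σ W} (hf : constantCoeff f = 0) :
    nilEval θ f ∈ I := by
  have := nilEval_mem_pow hθ I hI (fil_one_iff.mpr hf)
  rwa [pow_one] at this

/-- evaluation of a polynomial -/
theorem nilEval_coe (θ : σ → O) (p : MvPolynomial σ W) :
    nilEval θ (p : MvPowerSeries σ W) = MvPolynomial.aeval θ p := by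
  rw [nilEval, subst_coe]
  have h : (ccAlg (W := W) (O := O)).comp (MvPolynomial.aeval (cst θ)) = MvPolynomial.aeval θ := by
    apply MvPolynomial.algHom_ext
    intro s
    show constantCoeff (MvPolynomial.aeval (cst θ) (MvPolynomial.X s : MvPolynomial σ W)) = _
    rw [MvPolynomial.aeval_X, MvPolynomial.aeval_X]
    show constantCoeff (C (θ s) : MvPowerSeries Empty O) = _
    rw [constantCoeff_C]
  exact DFunLike.congr_fun h p

theorem fil_sub_truncTotal [Finite σ] (N : ℕ) (f : MvPowerSeries σ W) :
    Fil N (f - ((truncTotal N f : MvPolynomial σ W) : MvPowerSeries σ W)) := by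
  intro e he
  rw [map_sub, MvPolynomial.coeff_coe, sub_eq_zero]
  exact (coeff_truncTotal f he).symm

/-- (N3) evaluation up to `I ^ N` is the evaluation of the truncation. -/
theorem nilEval_sub_aeval_truncTotal_mem [Finite σ] {θ : σ → O} (hθ : ∀ s, IsNilpotent (θ s))
    (I : Ideal O) (hI : ∀ s, θ s ∈ I) (N : ℕ) (f : MvPowerSeries σ W) :
    nilEval θ f - MvPolynomial.aeval θ (truncTotal N f) ∈ I ^ N := by
  rw [← nilEval_coe, ← nilEval_sub hθ]
  exact nilEval_mem_pow hθ I hI (fil_sub_truncTotal N f)

end Fermat.Agent.FF.FAM.NilEval8
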