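import Mathlib
import Fermat.Agent.FF.FAM.Step8
import Fermat.Agent.FF.FAM.NilEval8
import Fermat.Agent.FF.FAM.DivDiffNil4

set_option autoImplicit false

/-!
# The evaluated characterisation of the formal simple step

For nilpotent `θ : ι → O` in a `W`-algebra `O`, the evaluations `nilEval θ (lam j)` are the unique
normalised solution of the evaluated linear system, and `nilEval θ (zeta q)` is the unique nilpotent
root of the evaluated residual equation.
-/

namespace Fermat.Agent.FF.FAM.StepEval8

open MvPowerSeries Fermat.Agent.FF.FAM.FormalIFT8 Fermat.Agent.FF.FAM.Step8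
  Fermat.Agent.FF.FAM.NilEval8 Fermat.Agent.FF.FAM.DivDiffNil4

variable {W O : Type*} [CommRing W] [CommRing O] [Algebra W O]

/-- **unique nilpotent root**, linear-combination form. -/
theorem unique_nilpotent_root {κ : Type*} (s : Finset κ) (μ : κ → O) (f : κ → PowerSeries W)
    (hu : IsUnit (∑ j ∈ s, μ j * algebraMap W O (PowerSeries.coeff 1 (f j)))) {x y : O}
    (hx : IsNilpotent x) (hy : IsNilpotent y)
    (h0 : ∑ j ∈ s, μ j * nilEval₁ x (f j) = 0) (h1 : ∑ j ∈ s, μ j * nilEval₁ y (f j) = 0) :
    x = y := by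
  have hθ : ∀ i : Fin 2, IsNilpotent ((![x, y] : Fin 2 → O) i) := by
    intro i
    fin_cases i
    · exact hx
    · exact hy
  have hnil : ∀ g : MvPowerSeries (Fin 2) W, constantCoeff g = 0 →
      IsNilpotent (nilEvalHom (W := W) hθ g) := fun g hg => by
    rw [nilEvalHom_apply]; exact isNilpotent_nilEval_of_constantCoeff_zero hθ hg
  have e0 : ∀ j, nilEvalHom (W := W) hθ (PowerSeries.subst (X 0 : MvPowerSeries (Fin 2) W) (f j))
      = nilEval₁ x (f j) := fun j => by
    rw [nilEvalHom_apply, nilEval_subst_X hθ]; rfl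
  have e1 : ∀ j, nilEvalHom (W := W) hθ (PowerSeries.subst (X 1 : MvPowerSeries (Fin 2) W) (f j))
      = nilEval₁ y (f j) := fun j => by
    rw [nilEvalHom_apply, nilEval_subst_X hθ]; rfl
  have h := ev_X_eq_of_sum_eq_zero s (nilEvalHom (W := W) hθ) hnil μ f hu
    (by rw [← h0]; exact Finset.sum_congr rfl fun j _ => by rw [e0])
    (by rw [← h1]; exact Finset.sum_congr rfl fun j _ => by rw [e1])
  rw [nilEvalHom_apply, nilEvalHom_apply, nilEval_X hθ, nilEval_X hθ] at h
  exact h

variable {ι : Type*} [Fintype ι] [DecidableEq ι] {Q : Type*} (D : StepData W ι Q)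
  {θ : ι → O} (hθ : ∀ a, IsNilpotent (θ a))

/-- the evaluated linear system -/
noncomputable def cEval (θ : ι → O) : ι → Option ι → O := fun a j => nilEval₁ (θ a) (D.e a j)

include hθ

theorem isUnit_det_minor_cEval : IsUnit (minor (cEval D θ)).det := by
  refine isUnit_det_of_sub_mem_nilradical (minor (cEval D θ))
    ((algebraMap W O).mapMatrix
      (Matrix.of fun a j : ι => PowerSeries.constantCoeff (D.e a (some j)))) ?_ ?_
  · intro a j
    rw [mem_nilradical]
    simp only [minor, cEval, Matrix.of_apply, RingHom.mapMatrix_apply, Matrix.map_apply]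
    exact isNilpotent_nilEval₁_sub (hθ a) _
  · rw [← RingHom.map_det]
    exact D.det_unit.map _

theorem nilEval_lam_none : nilEval θ (D.lam none) = 1 := by
  rw [D.lam_none, nilEval_one hθ]

theorem nilEval_lam_spec (a : ι) :
    ∑ j, nilEval θ (D.lam j) * cEval D θ a j = 0 := by
  have h := congrArg (nilEval θ) (D.lam_spec a)
  rw [nilEval_sum hθ, nilEval_zero hθ] at h
  rw [← h]
  refine Finset.sum_congr rfl fun j _ => ?_
  rw [nilEval_mul hθ, nilEval_subst_X hθ]
  rfl

theorem nilEval_lam_eq_solve : (fun j => nilEval θ (D.lam j)) = solve (cEval D θ) :=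
  solve_unique _ (isUnit_det_minor_cEval D hθ) _ (nilEval_lam_none D hθ) (nilEval_lam_spec D hθ)

/-- uniqueness of the evaluated Cramer coefficients -/
theorem lam_eval_unique (μ : Option ι → O) (h0 : μ none = 1)
    (h : ∀ a, ∑ j, μ j * nilEval₁ (θ a) (D.e a j) = 0) :
    μ = fun j => nilEval θ (D.lam j) := by
  rw [nilEval_lam_eq_solve D hθ]
  exact solve_unique _ (isUnit_det_minor_cEval D hθ) μ h0 h

theorem isNilpotent_nilEval_lam_some (j : ι) : IsNilpotent (nilEval θ (D.lam (some j))) :=
  isNilpotent_nilEval_of_constantCoeff_zero hθ (D.constantCoeff_lam_some j)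

theorem isNilpotent_nilEval_zeta (q : Q) : IsNilpotent (nilEval θ (D.zeta q)) :=
  isNilpotent_nilEval_of_constantCoeff_zero hθ (D.constantCoeff_zeta q)

theorem nilEval_zeta_spec (q : Q) :
    ∑ j, nilEval θ (D.lam j) * nilEval₁ (nilEval θ (D.zeta q)) (D.res q j) = 0 := by
  have h := congrArg (nilEval θ) (D.zeta_spec q)
  rw [nilEval_sum hθ, nilEval_zero hθ] at h
  rw [← h]
  refine Finset.sum_congr rfl fun j _ => ?_
  rw [nilEval_mul hθ, nilEval_subst₁ hθ (D.constantCoeff_zeta q)]

theorem isUnit_sum_lam_coeff_one (q : Q) :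
    IsUnit (∑ j, nilEval θ (D.lam j) * algebraMap W O (PowerSeries.coeff 1 (D.res q j))) := by
  rw [Fintype.sum_option, nilEval_lam_none D hθ, one_mul]
  have hn : IsNilpotent (∑ j : ι, nilEval θ (D.lam (some j)) *
      algebraMap W O (PowerSeries.coeff 1 (D.res q (some j)))) := by
    rw [← mem_nilradical]
    refine (nilradical O).sum_mem fun j _ => (nilradical O).mul_mem_right _ ?_
    rw [mem_nilradical]
    exact isNilpotent_nilEval_lam_some D hθ j
  exact hn.isUnit_add_left_of_commute ((D.res_one q).map _) (Commute.all _ _)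

/-- uniqueness of the evaluated residual root -/
theorem zeta_eval_unique (q : Q) {z : O} (hz : IsNilpotent z)
    (h : ∑ j, nilEval θ (D.lam j) * nilEval₁ z (D.res q j) = 0) :
    z = nilEval θ (D.zeta q) :=
  unique_nilpotent_root Finset.univ (fun j => nilEval θ (D.lam j)) (D.res q)
    (isUnit_sum_lam_coeff_one D hθ q) hz (isNilpotent_nilEval_zeta D hθ q) h
    (nilEval_zeta_spec D hθ q)

/-- **The evaluated characterisation**: any normalised solution `μ` of the evaluated system
together with nilpotent roots `z q` of the evaluated residual equations is the evaluation of the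
formal step. -/
theorem eval_eq_of_rel (μ : Option ι → O) (z : Q → O) (h0 : μ none = 1)
    (h : ∀ a, ∑ j, μ j * nilEval₁ (θ a) (D.e a j) = 0) (hz : ∀ q, IsNilpotent (z q))
    (hres : ∀ q, ∑ j, μ j * nilEval₁ (z q) (D.res q j) = 0) (q : Q) :
    z q = nilEval θ (D.zeta q) := by
  have hμ := lam_eval_unique D hθ μ h0 h
  refine zeta_eval_unique D hθ q (hz q) ?_
  have := hres q
  rw [hμ] at this
  exact this

end Fermat.Agent.FF.FAM.StepEval8
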