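/-
Programme FF (S19), chapter FAM (helper4): **the polar family** (request (R3)/(G3) of the bridge).

Downstairs (any function field `F / K` with `LHyp`): for pairwise distinct places `Q a` (`a : ι`) with
uniformizers `t a`, a divisor `E ≥ 0` off the `Q a` with `L(E) = K`, and `B = Σ_a Q a + E`: the
**polar map** `L(B) → K^ι`, `f ↦ ((f * t a)(Q a))_a` has kernel `L(E)`; hence `l(B) ≤ |ι| + 1`, and the
polar map is onto as soon as `l(B) ≥ |ι| + 1`.

Upstairs (over a good-reduction datum `D : RedDatum L F k Ft`): condition centres `C a` with good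
uniformizers `u a`, a residual non-special system `S`, all discs pairwise distinct,
`B = Σ_a C a + S.D0` with `l(B) ≥ |ι| + 1` (Riemann's inequality).  Then there are integral functions
`b j ∈ L(B)` whose matrix of leading polar coefficients `(b j * u a)(C a)` lies in `A` and reduces to
the identity matrix, so its determinant is a unit of `A` (`exists_polar_family`,
`exists_polar_family_valA`).
-/
import Mathlib
import Fermat.Agent.FF.KER.Ker0
import Fermat.Agent.FF.NS.Orth9
import Fermat.Agent.FF.RED.Disc7

set_option autoImplicit false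
set_option linter.unusedSectionVars false
set_option linter.style.longLine false

namespace Fermat.Agent.FF.FAM.Polar4

open AlgebraicCurve Fermat.Agent.X0.FF Fermat.Agent.RR.LSpace Fermat.Agent.MW.EMB.Value6

noncomputable section

/-! ### The polar map of a function field -/

section Down

variable {K F : Type*} [Field K] [Field F] [Algebra K F] (H : LHyp K F)
variable {ι : Type*} [Fintype ι] (Q : ι → Place K F) (t : ι → F) (E : Divisor K F)

/-- `B = Σ_a Q a + E`. -/
def polB : Divisor K F := ∑ a, Finsupp.single (Q a) (1 : ℤ) + E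

theorem polB_apply_Q (hinj : Function.Injective Q) (hE : ∀ a, E (Q a) = 0) (a : ι) :
    polB Q E (Q a) = 1 := by
  classical
  rw [polB, Finsupp.add_apply, Finsupp.finsetSum_apply, hE, add_zero,
    Finset.sum_eq_single a]
  · simp
  · intro b _ hb
    rw [Finsupp.single_apply, if_neg fun h => hb (hinj h)]
  · intro h; exact absurd (Finset.mem_univ a) h

theorem polB_apply_of_ne {v : Place K F} (h : ∀ a, Q a ≠ v) : polB Q E v = E v := by
  classical
  rw [polB, Finsupp.add_apply, Finsupp.finsetSum_apply, Finset.sum_eq_zero, zero_add]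
  intro a _
  rw [Finsupp.single_apply, if_neg (h a)]

theorem le_polB : E ≤ polB Q E := by
  classical
  intro v
  rw [polB, Finsupp.add_apply, Finsupp.finsetSum_apply]
  have : 0 ≤ ∑ a, (Finsupp.single (Q a) (1 : ℤ)) v := Finset.sum_nonneg fun a _ => by
    rw [Finsupp.single_apply]; split_ifs <;> simp
  omega

theorem polB_nonneg (hE : 0 ≤ E) : 0 ≤ polB Q E := le_trans hE (le_polB Q E)

variable {Q t E}

/-- For `f ∈ L(B)`, `f * t a` is regular at `Q a`. -/
theorem mul_unif_mem (hinj : Function.Injective Q) (hE : ∀ a, E (Q a) = 0)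
    (ht : ∀ a, (Q a).ord (t a) = 1) {f : F} (hf : f ∈ riemannRochSpace (polB Q E)) (a : ι) :
    f * t a ∈ (Q a).toValuationSubring := by
  by_cases hf0 : f = 0
  · rw [hf0, zero_mul]; exact zero_mem _
  have ht0 : t a ≠ 0 := by
    intro h0
    have := ht a
    rw [h0, Place.ord_zero] at this
    exact zero_ne_one this
  apply ffp_mem_of_ord_nonneg
  rw [(Q a).ord_mul hf0 ht0, ht a]
  have := (mem_L_iff hf0).mp hf (Q a)
  rw [polB_apply_Q Q E hinj hE a] at this
  omega

variable (Q t E)

/-- **The polar map** `L(B) → K^ι`, `f ↦ (value of f * t a at Q a)_a` (the leading polar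
coefficients). -/
def polar (hinj : Function.Injective Q) (hE : ∀ a, E (Q a) = 0)
    (ht : ∀ a, (Q a).ord (t a) = 1) : riemannRochSpace (polB Q E) →ₗ[K] (ι → K) where
  toFun f a := valF H (Q a) ((f : F) * t a)
  map_add' f g := by
    funext a
    show valF H (Q a) (((f : F) + (g : F)) * t a) = _
    rw [add_mul, valF_add H (Q a) (mul_unif_mem hinj hE ht f.2 a) (mul_unif_mem hinj hE ht g.2 a)]
    rfl
  map_smul' c f := by
    funext a
    show valF H (Q a) ((c • (f : F)) * t a) = c • valF H (Q a) ((f : F) * t a)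
    rw [smul_mul_assoc, valF_smul H (Q a) c (mul_unif_mem hinj hE ht f.2 a), smul_eq_mul]

theorem polar_apply (hinj : Function.Injective Q) (hE : ∀ a, E (Q a) = 0)
    (ht : ∀ a, (Q a).ord (t a) = 1) (f : riemannRochSpace (polB Q E)) (a : ι) :
    polar H Q t E hinj hE ht f a = valF H (Q a) ((f : F) * t a) := rfl

/-- The kernel of the polar map is `L(E)`. -/
theorem mem_L_of_polar_eq_zero (hinj : Function.Injective Q) (hE : ∀ a, E (Q a) = 0)
    (ht : ∀ a, (Q a).ord (t a) = 1) (f : riemannRochSpace (polB Q E))
    (h : polar H Q t E hinj hE ht f = 0) : (f : F) ∈ riemannRochSpace E := by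
  by_cases hf0 : (f : F) = 0
  · rw [hf0]; exact zero_mem _
  rw [mem_L_iff hf0]
  intro v
  by_cases hv : ∃ a, Q a = v
  · obtain ⟨a, rfl⟩ := hv
    rw [hE a, neg_zero]
    have h1 : valF H (Q a) ((f : F) * t a) = 0 := congrFun h a
    have ht0 : t a ≠ 0 := by
      intro h0
      have := ht a
      rw [h0, Place.ord_zero] at this
      exact zero_ne_one this
    rw [valF_eq_zero_iff H (Q a) (mul_unif_mem hinj hE ht f.2 a)] at h1
    rcases h1 with h1 | h1
    · exact absurd h1 (mul_ne_zero hf0 ht0)
    · rw [(Q a).ord_mul hf0 ht0, ht a] at h1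
      omega
  · push Not at hv
    have := (mem_L_iff hf0).mp f.2 v
    rwa [polB_apply_of_ne Q E hv] at this

/-- If `L(E)` consists of constants, the kernel of the polar map has dimension `≤ 1`. -/
theorem finrank_ker_polar_le (hinj : Function.Injective Q) (hE : ∀ a, E (Q a) = 0)
    (ht : ∀ a, (Q a).ord (t a) = 1) (hE0 : 0 ≤ E)
    (hns : ∀ f : F, f ∈ riemannRochSpace E → ∃ c : K, f = algebraMap K F c) :
    Module.finrank K (LinearMap.ker (polar H Q t E hinj hE ht)) ≤ 1 := by
  have h1mem : (1 : F) ∈ riemannRochSpace (polB Q E) := by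
    refine L_mono (le_polB Q E) ?_
    rw [mem_L_iff one_ne_zero]
    intro v
    rw [Place.ord_one]
    have := hE0 v
    simp only [Finsupp.coe_zero, Pi.zero_apply] at this
    omega
  by_cases hker : (⟨1, h1mem⟩ : riemannRochSpace (polB Q E)) ∈
      LinearMap.ker (polar H Q t E hinj hE ht)
  · refine finrank_le_one (⟨⟨1, h1mem⟩, hker⟩ : LinearMap.ker (polar H Q t E hinj hE ht)) ?_
    intro w
    obtain ⟨c, hc⟩ := hns _ (mem_L_of_polar_eq_zero H Q t E hinj hE ht w.1
      (LinearMap.mem_ker.mp w.2))
    refine ⟨c, ?_⟩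
    apply Subtype.ext
    apply Subtype.ext
    show c • (1 : F) = ((w : riemannRochSpace (polB Q E)) : F)
    rw [hc, Algebra.smul_def, mul_one]
  · -- then the kernel is zero
    have hbot : LinearMap.ker (polar H Q t E hinj hE ht) = ⊥ := by
      rw [eq_bot_iff]
      intro w hw
      obtain ⟨c, hc⟩ := hns _ (mem_L_of_polar_eq_zero H Q t E hinj hE ht w
        (LinearMap.mem_ker.mp hw))
      by_cases hc0 : c = 0
      · rw [Submodule.mem_bot]
        apply Subtype.ext
        rw [hc, hc0, map_zero]; rfl
      · exfalso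
        apply hker
        have h1 : (⟨1, h1mem⟩ : riemannRochSpace (polB Q E)) = c⁻¹ • w := by
          apply Subtype.ext
          show (1 : F) = c⁻¹ • (w : F)
          rw [hc, Algebra.smul_def, ← map_mul, inv_mul_cancel₀ hc0, map_one]
        rw [h1]
        exact Submodule.smul_mem _ _ hw
    rw [hbot, finrank_bot]
    exact Nat.zero_le 1

include H in
/-- `l(B) ≤ |ι| + 1`. -/
theorem finrank_L_polB_le (hinj : Function.Injective Q) (hE : ∀ a, E (Q a) = 0)
    (ht : ∀ a, (Q a).ord (t a) = 1) (hE0 : 0 ≤ E)
    (hns : ∀ f : F, f ∈ riemannRochSpace E → ∃ c : K, f = algebraMap K F c) :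
    Module.finrank K (riemannRochSpace (polB Q E)) ≤ Fintype.card ι + 1 := by
  have := finiteDimensional_L H (polB Q E)
  have h1 := LinearMap.finrank_range_add_finrank_ker (polar H Q t E hinj hE ht)
  have h2 := finrank_ker_polar_le H Q t E hinj hE ht hE0 hns
  have h3 : Module.finrank K (LinearMap.range (polar H Q t E hinj hE ht)) ≤ Fintype.card ι := by
    have := Submodule.finrank_le (LinearMap.range (polar H Q t E hinj hE ht))
    rwa [Module.finrank_fintype_fun_eq_card] at this
  omega

/-- If `l(B) ≥ |ι| + 1` the polar map is onto. -/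
theorem polar_surjective (hinj : Function.Injective Q) (hE : ∀ a, E (Q a) = 0)
    (ht : ∀ a, (Q a).ord (t a) = 1) (hE0 : 0 ≤ E)
    (hns : ∀ f : F, f ∈ riemannRochSpace E → ∃ c : K, f = algebraMap K F c)
    (hl : Fintype.card ι + 1 ≤ Module.finrank K (riemannRochSpace (polB Q E))) :
    Function.Surjective (polar H Q t E hinj hE ht) := by
  have := finiteDimensional_L H (polB Q E)
  have h1 := LinearMap.finrank_range_add_finrank_ker (polar H Q t E hinj hE ht)
  have h2 := finrank_ker_polar_le H Q t E hinj hE ht hE0 hns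
  rw [← LinearMap.range_eq_top]
  apply Submodule.eq_top_of_finrank_eq
  rw [Module.finrank_fintype_fun_eq_card]
  have h3 : Module.finrank K (LinearMap.range (polar H Q t E hinj hE ht)) ≤ Fintype.card ι := by
    have := Submodule.finrank_le (LinearMap.range (polar H Q t E hinj hE ht))
    rwa [Module.finrank_fintype_fun_eq_card] at this
  omega

end Down

/-! ### The polar family over a good-reduction datum -/

section Up

open Fermat.Agent.FF.RED.RedDatum7 Fermat.Agent.FF.RED.Disc7 Fermat.Agent.FF.KER.Ker0
  Fermat.Agent.FF.NS.Orth9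

variable {L F k Ft : Type*} [Field L] [Field F] [Algebra L F] [Field k] [Field Ft] [Algebra k Ft]
variable (D : RedDatum L F k Ft) {g : ℕ} (S : NSSystem D g)
variable {ι : Type*} [Fintype ι] (C : ι → Place L F) (u : ι → D.G)

/-- the divisor of centres vanishes off the centres. -/
theorem D0_apply_of_ne {P' : Place L F} (h : ∀ i, S.P i ≠ P') : S.D0 P' = 0 := by
  classical
  rw [NSSystem.D0, Finsupp.finsetSum_apply]
  refine Finset.sum_eq_zero fun i _ => ?_
  rw [Finsupp.single_apply, if_neg (h i)]

theorem D0_nonneg : 0 ≤ S.D0 := by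
  rw [← S.Ediv_zero]; exact S.Ediv_nonneg 0

theorem mapDomain_D0 : Finsupp.mapDomain D.r S.D0 = S.redDiv := by
  rw [← S.Ediv_zero]; exact S.mapDomain_Ediv 0

/-- the reduction of the polar divisor `B = Σ_a C a + D0` is `Σ_a r (C a) + D~0`. -/
theorem mapDomain_polB :
    Finsupp.mapDomain D.r (polB C S.D0) = polB (fun a => D.r (C a)) S.redDiv := by
  rw [polB, polB, Finsupp.mapDomain_add, Finsupp.mapDomain_finsetSum, mapDomain_D0]
  congr 1
  refine Finset.sum_congr rfl fun a _ => ?_
  rw [Finsupp.mapDomain_single]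

theorem degree_polB : Divisor.degree (polB C S.D0) = (Fintype.card ι : ℤ) + g := by
  rw [polB, map_add, map_sum, S.degree_D0]
  simp [degree_single D.HL]

variable {C u}

theorem injective_of_discs (hinj : Function.Injective fun a => D.r (C a)) :
    Function.Injective C := fun a a' h => hinj (by show D.r (C a) = D.r (C a'); rw [h])

theorem D0_apply_C (hCS : ∀ a i, D.r (C a) ≠ S.Q i) (a : ι) : S.D0 (C a) = 0 :=
  D0_apply_of_ne D S fun i h => hCS a i (by rw [← h]; rfl)

/-- `L(D~0) = k` in the form needed by the polar map. -/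
theorem const_of_mem_L_redDiv (f : Ft) (hf : f ∈ riemannRochSpace S.redDiv) :
    ∃ c : k, f = algebraMap k Ft c := by
  by_cases hf0 : f = 0
  · exact ⟨0, by rw [hf0, map_zero]⟩
  have h := (mem_L_iff hf0).mp hf
  exact S.ns f hf0
    (fun Q' hQ' => by have := h Q'; rwa [S.redDiv_apply_of_ne hQ', neg_zero] at this)
    (fun i => by have := h (S.Q i); rwa [S.redDiv_apply_Q] at this)

/-- For `b ∈ L(B)` integral, `b * u a` has no pole on the disc of `C a`. -/
theorem poleFree_mul_unif (hu : ∀ a, IsGoodUnif D (C a) (u a))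
    (hinj : Function.Injective fun a => D.r (C a)) (hCS : ∀ a i, D.r (C a) ≠ S.Q i)
    {b : D.G} (hb : (b : F) ∈ riemannRochSpace (polB C S.D0)) (a : ι) :
    D.PoleFree ((b * u a : D.G) : F) (D.r (C a)) := by
  intro P' hP'
  rw [Subring.coe_mul]
  by_cases hb0 : (b : F) = 0
  · rw [hb0, zero_mul, Place.ord_zero]
  have hu0 : ((u a : D.G) : F) ≠ 0 := D.coe_ne_zero_of_red_ne_zero (hu a).2.1
  rw [P'.ord_mul hb0 hu0]
  have hB := (mem_L_iff hb0).mp hb P'
  by_cases hPC : P' = C a
  · rw [hPC] at hB ⊢
    rw [polB_apply_Q C S.D0 (injective_of_discs D hinj) (D0_apply_C D S hCS) a] at hB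
    rw [(hu a).1]
    omega
  · have h1 := ((hu a).2.2 P' hP').1
    have hne : ∀ a', C a' ≠ P' := by
      intro a' h
      by_cases haa : a' = a
      · exact hPC (by rw [← h, haa])
      · exact haa (hinj (by show D.r (C a') = D.r (C a); rw [h, hP']))
    have hD0 : S.D0 P' = 0 := D0_apply_of_ne D S fun i h =>
      hCS a i (by rw [← hP', ← h]; rfl)
    rw [polB_apply_of_ne C S.D0 hne, hD0] at hB
    omega

variable [DecidableEq ι]

/-- **(R3) POLAR FAMILY**, matrix-over-`L` form.  For condition centres `C a` with good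
uniformizers `u a` and a residual non-special system `S`, all discs pairwise distinct, and
`l(B) ≥ |ι| + 1` for `B = Σ_a C a + D0`: there are integral functions `b j ∈ L(B)` (`j : ι`) whose
matrix of leading polar coefficients `(b j * u a)(C a)` has entries in `A` and unit determinant
(indeed it reduces to the identity matrix). -/
theorem exists_polar_family [Infinite k] (hu : ∀ a, IsGoodUnif D (C a) (u a))
    (hinj : Function.Injective fun a => D.r (C a)) (hCS : ∀ a i, D.r (C a) ≠ S.Q i)
    (hl : Fintype.card ι + 1 ≤ Module.finrank L (riemannRochSpace (polB C S.D0))) :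
    ∃ b : ι → D.G, (∀ j, ((b j : D.G) : F) ∈ riemannRochSpace (polB C S.D0)) ∧
      ∃ M : Matrix ι ι D.A, (∀ a j, D.res (M a j) = if a = j then 1 else 0) ∧ IsUnit M.det ∧
        ∀ a j, ((M a j : D.A) : L) = valF D.HL (C a) ((b j : F) * (u a : F)) := by
  classical
  -- downstairs data
  set Q : ι → Place k Ft := fun a => D.r (C a) with hQ
  set t : ι → Ft := fun a => D.red (u a) with ht
  have hE : ∀ a, S.redDiv (Q a) = 0 := fun a =>
    S.redDiv_apply_of_ne fun i h => hCS a i h.symm
  have htord : ∀ a, (Q a).ord (t a) = 1 := fun a => (hu a).ord_red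
  have hE0 : 0 ≤ S.redDiv := S.redDiv_nonneg
  have hns := const_of_mem_L_redDiv D S
  -- upstairs: independent reductions
  have := finiteDimensional_L D.HL (polB C S.D0)
  have := finiteDimensional_L D.Hk (polB Q S.redDiv)
  set n := Module.finrank L (riemannRochSpace (polB C S.D0)) with hn
  obtain ⟨v, hv, hli⟩ : ∃ v : Fin n → D.G,
      (∀ i, ((v i : D.G) : F) ∈ riemannRochSpace (polB C S.D0)) ∧
        LinearIndependent k (fun i => D.red (v i)) :=
    exists_red_indep D (riemannRochSpace (polB C S.D0))
  have hmem : ∀ g : D.G, (g : F) ∈ riemannRochSpace (polB C S.D0) →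
      D.red g ∈ riemannRochSpace (polB Q S.redDiv) := by
    intro g hg
    have := red_mem_L D (polB C S.D0) hg
    rwa [mapDomain_polB] at this
  let w : Fin n → riemannRochSpace (polB Q S.redDiv) := fun i => ⟨D.red (v i), hmem (v i) (hv i)⟩
  have hw : LinearIndependent k w := by
    apply LinearIndependent.of_comp (riemannRochSpace (polB Q S.redDiv)).subtype
    exact hli
  have hcard1 : n ≤ Module.finrank k (riemannRochSpace (polB Q S.redDiv)) := by
    have := hw.fintype_card_le_finrank
    simpa using this
  have hcard2 := finrank_L_polB_le D.Hk Q t S.redDiv hinj hE htord hE0 hns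
  have hcard : Fintype.card (Fin n) = Module.finrank k (riemannRochSpace (polB Q S.redDiv)) := by
    rw [Fintype.card_fin]; omega
  have hspan := hw.span_eq_top_of_card_eq_finrank' hcard
  have hsurj := polar_surjective D.Hk Q t S.redDiv hinj hE htord hE0 hns (by omega)
  -- dual functions downstairs
  choose f hf using fun j : ι => hsurj (fun a => if a = j then 1 else 0)
  have hfs : ∀ j, ∃ c : Fin n → k, ∑ i, c i • w i = f j := fun j =>
    (Submodule.mem_span_range_iff_exists_fun k).mp (by rw [hspan]; exact Submodule.mem_top)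
  choose ct hct using hfs
  choose c hc using fun j i => D.res_surj (ct j i)
  -- the lifted functions
  let b : ι → D.G := fun j => ∑ i, D.const (c j i) * v i
  have hbcoe : ∀ j, ((b j : D.G) : F) = ∑ i, ((c j i : D.A) : L) • ((v i : D.G) : F) := by
    intro j
    show ((∑ i, D.const (c j i) * v i : D.G) : F) = _
    rw [← Subring.subtype_apply, map_sum]
    refine Finset.sum_congr rfl fun i _ => ?_
    rw [Subring.subtype_apply, Subring.coe_mul, RedDatum.coe_const, Algebra.smul_def]
  have hbmem : ∀ j, ((b j : D.G) : F) ∈ riemannRochSpace (polB C S.D0) := by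
    intro j
    rw [hbcoe]
    exact Submodule.sum_mem _ fun i _ => Submodule.smul_mem _ _ (hv i)
  have hbred : ∀ j, D.red (b j) = ((f j : riemannRochSpace (polB Q S.redDiv)) : Ft) := by
    intro j
    rw [← hct j]
    show D.red (∑ i, D.const (c j i) * v i) = _
    rw [map_sum]
    have : ((∑ i, ct j i • w i : riemannRochSpace (polB Q S.redDiv)) : Ft) =
        ∑ i, ct j i • D.red (v i) := by
      rw [← Submodule.subtype_apply, map_sum]
      refine Finset.sum_congr rfl fun i _ => ?_
      rw [map_smul]; rfl
    rw [this]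
    refine Finset.sum_congr rfl fun i _ => ?_
    rw [map_mul, D.red_const', hc, Algebra.smul_def]
  have hpf : ∀ a j, D.PoleFree ((b j * u a : D.G) : F) (D.r (C a)) := fun a j =>
    poleFree_mul_unif D S hu hinj hCS (hbmem j) a
  let M : Matrix ι ι D.A := Matrix.of fun a j => valA D (b j * u a) (hpf a j) rfl
  have hMres : ∀ a j, D.res (M a j) = if a = j then 1 else 0 := by
    intro a j
    show D.res (valA D (b j * u a) (hpf a j) rfl) = _
    rw [res_valF, map_mul, hbred]
    have := congrFun (hf j) a
    rw [polar_apply] at this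
    exact this
  refine ⟨b, hbmem, M, hMres, ?_, ?_⟩
  · have hdet : D.res M.det = 1 := by
      rw [RingHom.map_det]
      have : D.res.mapMatrix M = 1 := by
        ext a j
        rw [RingHom.mapMatrix_apply, Matrix.map_apply, hMres, Matrix.one_apply]
      rw [this, Matrix.det_one]
    by_contra hnu
    have := (D.res_eq_zero_iff M.det).mpr hnu
    rw [hdet] at this
    exact one_ne_zero this
  · intro a j
    rfl

/-- membership in `L(B)` in order form (also valid for the zero function since `B ≥ 0`). -/
theorem neg_polB_le_ord {b : F} (hb : b ∈ riemannRochSpace (polB C S.D0)) (P : Place L F) :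
    -(polB C S.D0 P) ≤ P.ord b := by
  by_cases hb0 : b = 0
  · rw [hb0, Place.ord_zero]
    have := polB_nonneg C S.D0 (D0_nonneg D S) P
    simp only [Finsupp.coe_zero, Pi.zero_apply] at this
    omega
  · exact (mem_L_iff hb0).mp hb P

/-- **(R3) POLAR FAMILY**, `valA` form: `∃ b : ι → D.G`, all in `L(B)` (order form), all `b j * u a`
pole-free on the disc of `C a`, and the matrix of the values `valA (b j * u a)` at `C a` has unit
determinant (for any choice of the pole-freeness proofs). -/
theorem exists_polar_family_valA [Infinite k] (hu : ∀ a, IsGoodUnif D (C a) (u a))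
    (hinj : Function.Injective fun a => D.r (C a)) (hCS : ∀ a i, D.r (C a) ≠ S.Q i)
    (hl : Fintype.card ι + 1 ≤ Module.finrank L (riemannRochSpace (polB C S.D0))) :
    ∃ b : ι → D.G, (∀ j, ((b j : D.G) : F) ∈ riemannRochSpace (polB C S.D0)) ∧
      (∀ j P, -(polB C S.D0 P) ≤ P.ord ((b j : D.G) : F)) ∧
      (∀ a j, D.PoleFree ((b j * u a : D.G) : F) (D.r (C a))) ∧
      ∀ hpf : ∀ a j, D.PoleFree ((b j * u a : D.G) : F) (D.r (C a)),
        IsUnit (Matrix.det (Matrix.of fun a j => valA D (b j * u a) (hpf a j) rfl :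
          Matrix ι ι D.A)) := by
  obtain ⟨b, hb, M, _, hM, hMv⟩ := exists_polar_family D S hu hinj hCS hl
  refine ⟨b, hb, fun j P => neg_polB_le_ord D S (hb j) P,
    fun a j => poleFree_mul_unif D S hu hinj hCS (hb j) a, fun hpf => ?_⟩
  have : (Matrix.of fun a j => valA D (b j * u a) (hpf a j) rfl : Matrix ι ι D.A) = M := by
    ext a j
    rw [hMv a j]
    rfl
  rw [this]
  exact hM

/-- the hypothesis `l(B) ≥ |ι| + 1` from Riemann's inequality. -/
theorem card_add_one_le_finrank
    (hRiem : ∀ E : Divisor L F,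
      Divisor.degree E + 1 - (g : ℤ) ≤ (Module.finrank L (riemannRochSpace E) : ℤ)) :
    Fintype.card ι + 1 ≤ Module.finrank L (riemannRochSpace (polB C S.D0)) := by
  have := hRiem (polB C S.D0)
  rw [degree_polB] at this
  omega

end Up

end

end Fermat.Agent.FF.FAM.Polar4
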