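/-
Programme FF (S19), chapter FAM (helper4): **the polar family in `StepPre` form** — `Polar4` restated
for helper8's `BridgeExact8.StepPre`: for condition centres `C : CondFam D ι` and a residual
non-special system `S` with all discs distinct, and `l(C.D0 + S.D0) ≥ |ι| + 1` (Riemann's
inequality), there are integral `b j ∈ L(C.D0 + S.D0)` such that the polar matrix of the `StepPre`
`⟨C, S, disj, b, _, _⟩` has unit determinant.
-/
import Mathlib
import Fermat.Agent.FF.FAM.Polar4
import Fermat.Agent.FF.FAM.BridgeExact8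

set_option autoImplicit false
set_option linter.unusedSectionVars false
set_option linter.style.longLine false

namespace Fermat.Agent.FF.FAM.PolarStep4

open AlgebraicCurve Fermat.Agent.X0.FF Fermat.Agent.RR.LSpace Fermat.Agent.MW.EMB.Value6
open Fermat.Agent.FF.RED.RedDatum7 Fermat.Agent.FF.RED.Disc7 Fermat.Agent.FF.RED.Expand7
open Fermat.Agent.FF.KER.Ker0 Fermat.Agent.FF.FAM.BridgeExact8 Fermat.Agent.FF.FAM.Polar4

noncomputable section

variable {L F k Ft : Type*} [Field L] [Field F] [Algebra L F] [Field k] [Field Ft] [Algebra k Ft]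
variable {D : RedDatum L F k Ft} {ι : Type*} [Fintype ι] [DecidableEq ι] {g : ℕ}

/-- `C.D0 + S.D0` is the polar divisor of `Polar4`. -/
theorem D0_add_D0 (C : CondFam D ι) (S : NSSystem D g) : C.D0 + S.D0 = polB C.P S.D0 := rfl

/-- **(R3) in `StepPre` form.** -/
theorem exists_b [Infinite k] (C : CondFam D ι) (S : NSSystem D g)
    (disj : ∀ a i, D.r (C.P a) ≠ D.r (S.P i))
    (hl : Fintype.card ι + 1 ≤ Module.finrank L (riemannRochSpace (C.D0 + S.D0))) :
    ∃ (b : ι → F) (hG : ∀ j, b j ∈ D.G) (hL : ∀ j, b j ∈ riemannRochSpace (C.D0 + S.D0)),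
      IsUnit (StepPre.polar ⟨C, S, disj, b, hG, hL⟩).det := by
  obtain ⟨b, hb, M, _, hM, hMv⟩ := exists_polar_family D S (C := C.P) (u := C.u) C.good C.inj
    (fun a i => disj a i) hl
  refine ⟨fun j => (b j : F), fun j => (b j).2, hb, ?_⟩
  have : StepPre.polar ⟨C, S, disj, fun j => (b j : F), fun j => (b j).2, hb⟩ = M := by
    ext a j
    rw [hMv a j]
    rfl
  rw [this]
  exact hM

/-- **(R3)**: a `StepPre` with the given centres and residual system and unit polar determinant. -/
theorem exists_stepPre [Infinite k] (C : CondFam D ι) (S : NSSystem D g)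
    (disj : ∀ a i, D.r (C.P a) ≠ D.r (S.P i))
    (hl : Fintype.card ι + 1 ≤ Module.finrank L (riemannRochSpace (C.D0 + S.D0))) :
    ∃ X : StepPre D ι g, X.C = C ∧ X.S = S ∧ IsUnit X.polar.det := by
  obtain ⟨b, hG, hL, h⟩ := exists_b C S disj hl
  exact ⟨⟨C, S, disj, b, hG, hL⟩, rfl, rfl, h⟩

/-- the dimension hypothesis from Riemann's inequality (genus form). -/
theorem card_add_one_le (C : CondFam D ι) (S : NSSystem D g)
    (hRiem : ∀ E : Divisor L F,
      Divisor.degree E + 1 - (g : ℤ) ≤ (Module.finrank L (riemannRochSpace E) : ℤ)) :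
    Fintype.card ι + 1 ≤ Module.finrank L (riemannRochSpace (C.D0 + S.D0)) :=
  card_add_one_le_finrank D S (C := C.P) hRiem

/-- **(R3)** from Riemann's inequality. -/
theorem exists_stepPre_of_riemann [Infinite k] (C : CondFam D ι) (S : NSSystem D g)
    (disj : ∀ a i, D.r (C.P a) ≠ D.r (S.P i))
    (hRiem : ∀ E : Divisor L F,
      Divisor.degree E + 1 - (g : ℤ) ≤ (Module.finrank L (riemannRochSpace E) : ℤ)) :
    ∃ X : StepPre D ι g, X.C = C ∧ X.S = S ∧ IsUnit X.polar.det :=
  exists_stepPre C S disj (card_add_one_le C S hRiem)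

/-- Riemann's inequality in the genus form implies the weak form `hRR` used by `Ker0`/`Add0`. -/
theorem hRR_of_riemann (HL : LHyp L F)
    (hRiem : ∀ E : Divisor L F,
      Divisor.degree E + 1 - (g : ℤ) ≤ (Module.finrank L (riemannRochSpace E) : ℤ)) :
    ∀ E : Divisor L F, Divisor.degree E = g → ∃ f : F, f ≠ 0 ∧ ∀ P, -(E P) ≤ P.ord f := by
  intro E hE
  have h := hRiem E
  rw [hE] at h
  have hpos : 0 < Module.finrank L (riemannRochSpace E) := by omega
  have := finiteDimensional_L HL E
  obtain ⟨f, hf⟩ := Module.finrank_pos_iff_exists_ne_zero.mp hpos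
  have hf0 : (f : F) ≠ 0 := fun h0 => hf (Subtype.ext h0)
  exact ⟨f, hf0, (mem_L_iff hf0).mp f.2⟩

end

end Fermat.Agent.FF.FAM.PolarStep4
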