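/-
Programme FF (S19), chapter FAM (helper4): **existence of the chain data** of `Chain8`: three
non-special systems with pairwise distinct discs and Riemann's inequality give a `ChainData` with
the four polar conditions (`PolarStep4.exists_b` for the four steps A, B, C, D).
-/
import Mathlib
import Fermat.Agent.FF.FAM.PolarStep4
import Fermat.Agent.FF.FAM.Chain8

set_option autoImplicit false
set_option linter.unusedSectionVars false
set_option linter.style.longLine false

namespace Fermat.Agent.FF.FAM.ChainExists4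

open AlgebraicCurve Fermat.Agent.X0.FF Fermat.Agent.RR.LSpace Fermat.Agent.MW.EMB.Value6
open Fermat.Agent.FF.RED.RedDatum7 Fermat.Agent.FF.RED.Disc7 Fermat.Agent.FF.RED.Expand7
open Fermat.Agent.FF.KER.Ker0 Fermat.Agent.FF.FAM.BridgeExact8 Fermat.Agent.FF.FAM.Chain8
open Fermat.Agent.FF.FAM.PolarStep4

noncomputable section

variable {L F k Ft : Type*} [Field L] [Field F] [Algebra L F] [Field k] [Field Ft] [Algebra k Ft]
variable {D : RedDatum L F k Ft} {g : ℕ}

/-- **the four polar families**: chain data with all four polar conditions, from three non-special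
systems with pairwise distinct discs and the dimension bounds `l(B) ≥ |ι| + 1`. -/
theorem exists_chainData_of_finrank [Infinite k] (S0 S0' S1 : NSSystem D g)
    (d01 : ∀ i j, D.r (S0.P i) ≠ D.r (S1.P j)) (d0'1 : ∀ i j, D.r (S0'.P i) ≠ D.r (S1.P j))
    (d00' : ∀ i j, D.r (S0.P i) ≠ D.r (S0'.P j))
    (hlA : Fintype.card (Fin g) + 1 ≤
      Module.finrank L (riemannRochSpace ((CondFam.ofNS S0).D0 + S1.D0)))
    (hlB : Fintype.card (Fin g) + 1 ≤
      Module.finrank L (riemannRochSpace ((CondFam.ofNS S1).D0 + S0'.D0)))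
    (hlC : Fintype.card (Fin g ⊕ Fin g) + 1 ≤
      Module.finrank L (riemannRochSpace
        ((sumFam (CondFam.ofNS S0) (CondFam.ofNS S0') d00').D0 + S1.D0)))
    (hlD : Fintype.card (Fin g) + 1 ≤
      Module.finrank L (riemannRochSpace ((CondFam.ofNS S1).D0 + S0.D0))) :
    ∃ K : ChainData D g, K.S0 = S0 ∧ K.S0' = S0' ∧ K.S1 = S1 ∧ K.Polar := by
  obtain ⟨bA, bA_G, bA_L, hA⟩ := exists_b (CondFam.ofNS S0) S1 d01 hlA
  obtain ⟨bB, bB_G, bB_L, hB⟩ := exists_b (CondFam.ofNS S1) S0' (fun i j => (d0'1 j i).symm) hlB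
  obtain ⟨bC, bC_G, bC_L, hC⟩ := exists_b (sumFam (CondFam.ofNS S0) (CondFam.ofNS S0') d00') S1
    (fun x j => match x with
      | Sum.inl a => d01 a j
      | Sum.inr a => d0'1 a j) hlC
  obtain ⟨bD, bD_G, bD_L, hD⟩ := exists_b (CondFam.ofNS S1) S0 (fun i j => (d01 j i).symm) hlD
  exact ⟨⟨S0, S0', S1, d01, d0'1, d00', bA, bA_G, bA_L, bB, bB_G, bB_L, bC, bC_G, bC_L,
    bD, bD_G, bD_L⟩, rfl, rfl, rfl, ⟨hA, hB, hC, hD⟩⟩

/-- **the four polar families** from Riemann's inequality (genus form). -/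
theorem exists_chainData [Infinite k] (S0 S0' S1 : NSSystem D g)
    (d01 : ∀ i j, D.r (S0.P i) ≠ D.r (S1.P j)) (d0'1 : ∀ i j, D.r (S0'.P i) ≠ D.r (S1.P j))
    (d00' : ∀ i j, D.r (S0.P i) ≠ D.r (S0'.P j))
    (hRiem : ∀ E : Divisor L F,
      Divisor.degree E + 1 - (g : ℤ) ≤ (Module.finrank L (riemannRochSpace E) : ℤ)) :
    ∃ K : ChainData D g, K.S0 = S0 ∧ K.S0' = S0' ∧ K.S1 = S1 ∧ K.Polar :=
  exists_chainData_of_finrank S0 S0' S1 d01 d0'1 d00'
    (card_add_one_le _ _ hRiem) (card_add_one_le _ _ hRiem) (card_add_one_le _ _ hRiem)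
    (card_add_one_le _ _ hRiem)

/-- variant with a single pairwise-distinctness hypothesis on a family of three systems (the shape
of `NSThree9.exists_nsSystems`). -/
theorem exists_chainData_of_three [Infinite k] (S : Fin 3 → NSSystem D g)
    (hdis : ∀ a b i j, D.r ((S a).P i) = D.r ((S b).P j) → a = b ∧ i = j)
    (hRiem : ∀ E : Divisor L F,
      Divisor.degree E + 1 - (g : ℤ) ≤ (Module.finrank L (riemannRochSpace E) : ℤ)) :
    ∃ K : ChainData D g, K.S0 = S 0 ∧ K.S0' = S 1 ∧ K.S1 = S 2 ∧ K.Polar :=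
  exists_chainData (S 0) (S 1) (S 2)
    (fun i j h => absurd (hdis 0 2 i j h).1 (by decide))
    (fun i j h => absurd (hdis 1 2 i j h).1 (by decide))
    (fun i j h => absurd (hdis 0 1 i j h).1 (by decide)) hRiem

end

end Fermat.Agent.FF.FAM.ChainExists4
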