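/-
Programme FF (S19), chapter FAM (helper4): **the chain data over any given coordinate system**.

* `riemann_genus` : Riemann's inequality in the genus form `deg E + 1 - genus ≤ l(E)` for a function
  field with `IsGen` over an algebraically closed field of characteristic zero (from `RR/RRMain`);
* `hRR_genus` : the weak form used by `Ker0`/`Add0`;
* `exists_chainData_extend` : for ANY non-special system `S0` with `genus` centres (e.g. the
  Galois-fixed one of the final assembly) there are chain data `K` with `K.S0 = S0` and the four polar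
  conditions (two auxiliary systems from `NSThree9.exists_nsSystems` with `Bad` = the discs of `S0`,
  then `ChainExists4.exists_chainData`).
-/
import Mathlib
import Fermat.Agent.FF.FAM.ChainExists4
import Fermat.Agent.FF.NS.NSThree9
import Fermat.Agent.RR.RRMain

set_option autoImplicit false
set_option linter.unusedSectionVars false
set_option linter.style.longLine false

namespace Fermat.Agent.FF.FAM.ChainGen4

open AlgebraicCurve KaehlerDifferential Fermat.Agent.X0.FF Fermat.Agent.RR.LSpace
  Fermat.Agent.MW.EMB.Value6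
open Fermat.Agent.FF.RED.RedDatum7 Fermat.Agent.FF.RED.Disc7 Fermat.Agent.FF.NS.Link9
open Fermat.Agent.FF.KER.Ker0 Fermat.Agent.FF.FAM.BridgeExact8 Fermat.Agent.FF.FAM.Chain8
open Fermat.Agent.FF.FAM.ChainExists4 Fermat.Agent.FF.NS.NSThree9

noncomputable section

variable {L F k Ft : Type*} [Field L] [Field F] [Algebra L F] [Field k] [Field Ft] [Algebra k Ft]
variable [IsAlgClosed L] [CharZero L] {x : F} [HasCanonicalDivisor (K := L) (F := F)]

/-- **Riemann's inequality**, genus form. -/
theorem riemann_genus (hx : IsGen L x) (E : Divisor L F) :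
    Divisor.degree E + 1 - (genus L F : ℤ) ≤ (Module.finrank L (riemannRochSpace E) : ℤ) := by
  have hω₀ := D_ne_zero hx
  have hW := fun v => canonicalDivisorOf_apply (K := L) (F := F) hω₀ v
  have h0 := Fermat.Agent.RR.RRMain.riemann_roch_genus hx hω₀ hW E
  have h1 : (0 : ℤ) ≤ (Module.finrank L (riemannRochSpace (canonicalDivisorOf hω₀ - E)) : ℤ) :=
    Int.natCast_nonneg _
  omega

/-- the weak form of Riemann's inequality used by `Ker0.exists_kap_eq` and `Add0`. -/
theorem hRR_genus (hx : IsGen L x) :
    ∀ E : Divisor L F, Divisor.degree E = (genus L F : ℤ) →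
      ∃ f : F, f ≠ 0 ∧ ∀ P, -(E P) ≤ P.ord f :=
  Fermat.Agent.FF.FAM.PolarStep4.hRR_of_riemann (Fermat.Agent.RR.LHypGen.lHyp_of_isGen hx)
    (riemann_genus hx)

variable {D : RedDatum L F k Ft}

/-- **chain data over a given coordinate system.** -/
theorem exists_chainData_extend [Infinite k] (hx : IsGen L x)
    (hsurj : Function.Surjective D.red) {ι : Type*} (C : ChartCover D ι)
    (S0 : NSSystem D (genus L F)) :
    ∃ K : ChainData D (genus L F), K.S0 = S0 ∧ K.Polar := by
  classical
  let Bad : Finset (Place k Ft) := Finset.univ.image fun i => D.r (S0.P i)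
  have hBad0 : ∀ i, D.r (S0.P i) ∈ Bad := fun i =>
    Finset.mem_image.mpr ⟨i, Finset.mem_univ _, rfl⟩
  obtain ⟨S, Q0, _, _, hBad, hdis, _⟩ := exists_nsSystems hx hsurj C Bad 2
  obtain ⟨K, h0, _, _, hK⟩ := exists_chainData S0 (S 0) (S 1)
    (fun i j h => hBad 1 j (h ▸ hBad0 i))
    (fun i j h => absurd (hdis 0 1 i j h).1 (by decide))
    (fun i j h => hBad 0 j (h ▸ hBad0 i))
    (riemann_genus hx)
  exact ⟨K, h0, hK⟩

end

end Fermat.Agent.FF.FAM.ChainGen4
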