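import Mathlib
import Fermat.Agent.FF.FAM.NilEval8

set_option autoImplicit false

/-!
# Iterated composition of a formal family, evaluated at nilpotent points

For `F : Fin g → MvPowerSeries (Fin g ⊕ Fin g) W` with vanishing constant coefficients, the series
`F3 F i = F i (F (X, Y), Z)` in the variables `(Fin g ⊕ Fin g) ⊕ Fin g`, its mirror
`F3' F i = F i (X, F (Y, Z))`, and their nilpotent evaluations.  Also the renaming lemma for
`nilEval`.
-/

namespace Fermat.Agent.FF.FAM.Comp3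

open MvPowerSeries Fermat.Agent.FF.FAM.NilEval8

variable {W O : Type*} [CommRing W] [CommRing O] [Algebra W O] {σ τ : Type*}

/-! ### renaming of variables -/

/-- **renaming**: evaluating `f (X ∘ e)` at `θ` is evaluating `f` at `θ ∘ e`. -/
theorem nilEval_rename [Finite σ] [Finite τ] {θ : σ → O} (hθ : ∀ s, IsNilpotent (θ s))
    (e : τ → σ) (f : MvPowerSeries τ W) :
    nilEval θ (subst (fun t => (X (e t) : MvPowerSeries σ W)) f) = nilEval (θ ∘ e) f := by
  rw [nilEval_subst_of_constantCoeff_zero hθ (fun t => constantCoeff_X (e t))]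
  congr 1
  funext t
  exact nilEval_X hθ (e t)

/-- renaming, `Function.comp` form of the substituted family. -/
theorem nilEval_rename' [Finite σ] [Finite τ] {θ : σ → O} (hθ : ∀ s, IsNilpotent (θ s))
    (e : τ → σ) (f : MvPowerSeries τ W) :
    nilEval θ (subst ((X : σ → MvPowerSeries σ W) ∘ e) f) = nilEval (θ ∘ e) f :=
  nilEval_rename hθ e f

/-! ### nilpotency bookkeeping on sums -/

theorem isNilpotent_sumElim {α β : Type*} {θ0 : α → O} {θ1 : β → O}
    (h0 : ∀ a, IsNilpotent (θ0 a)) (h1 : ∀ b, IsNilpotent (θ1 b)) :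
    ∀ s, IsNilpotent (Sum.elim θ0 θ1 s) := by
  rintro (a | b)
  · exact h0 a
  · exact h1 b

/-! ### the composed families -/

section comp

variable {g : ℕ}

/-- the inner family `F (X, Y)` lifted to the variables `(X, Y, Z)` -/
noncomputable def liftL (F : Fin g → MvPowerSeries (Fin g ⊕ Fin g) W) :
    Fin g → MvPowerSeries ((Fin g ⊕ Fin g) ⊕ Fin g) W :=
  fun j => subst (fun s => (X (Sum.inl s) : MvPowerSeries ((Fin g ⊕ Fin g) ⊕ Fin g) W)) (F j)

/-- the substituted family `(F (X, Y), Z)` -/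
noncomputable def famL (F : Fin g → MvPowerSeries (Fin g ⊕ Fin g) W) :
    Fin g ⊕ Fin g → MvPowerSeries ((Fin g ⊕ Fin g) ⊕ Fin g) W :=
  Sum.elim (liftL F) (fun j => X (Sum.inr j))

/-- `F3 F i = F i (F (X, Y), Z)`, in the variables `(Fin g ⊕ Fin g) ⊕ Fin g`. -/
noncomputable def F3 (F : Fin g → MvPowerSeries (Fin g ⊕ Fin g) W) (i : Fin g) :
    MvPowerSeries ((Fin g ⊕ Fin g) ⊕ Fin g) W :=
  subst (famL F) (F i)

theorem F3_def (F : Fin g → MvPowerSeries (Fin g ⊕ Fin g) W) (i : Fin g) :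
    F3 F i = subst (Sum.elim
      (fun j => subst ((X : (Fin g ⊕ Fin g) ⊕ Fin g → MvPowerSeries ((Fin g ⊕ Fin g) ⊕ Fin g) W)
        ∘ Sum.inl) (F j))
      (fun j => (X (Sum.inr j) : MvPowerSeries ((Fin g ⊕ Fin g) ⊕ Fin g) W))) (F i) := rfl

/-- the re-bracketing `Y ↦ (inl (inr ·))`, `Z ↦ inr ·` used for the mirror family -/
def embR : Fin g ⊕ Fin g → (Fin g ⊕ Fin g) ⊕ Fin g :=
  Sum.elim (fun j => Sum.inl (Sum.inr j)) (fun j => Sum.inr j)

/-- the inner family `F (Y, Z)` lifted to the variables `(X, Y, Z)` -/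
noncomputable def liftR (F : Fin g → MvPowerSeries (Fin g ⊕ Fin g) W) :
    Fin g → MvPowerSeries ((Fin g ⊕ Fin g) ⊕ Fin g) W :=
  fun j => subst (fun s => (X (embR s) : MvPowerSeries ((Fin g ⊕ Fin g) ⊕ Fin g) W)) (F j)

/-- the substituted family `(X, F (Y, Z))` -/
noncomputable def famR (F : Fin g → MvPowerSeries (Fin g ⊕ Fin g) W) :
    Fin g ⊕ Fin g → MvPowerSeries ((Fin g ⊕ Fin g) ⊕ Fin g) W :=
  Sum.elim (fun j => X (Sum.inl (Sum.inl j))) (liftR F)

/-- `F3' F i = F i (X, F (Y, Z))`, in the variables `(Fin g ⊕ Fin g) ⊕ Fin g`. -/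
noncomputable def F3' (F : Fin g → MvPowerSeries (Fin g ⊕ Fin g) W) (i : Fin g) :
    MvPowerSeries ((Fin g ⊕ Fin g) ⊕ Fin g) W :=
  subst (famR F) (F i)

variable {F : Fin g → MvPowerSeries (Fin g ⊕ Fin g) W}

theorem constantCoeff_liftL (hF : ∀ j, constantCoeff (F j) = 0) (j : Fin g) :
    constantCoeff (liftL F j) = 0 :=
  MvPowerSeries.constantCoeff_subst_eq_zero
    (hasSubst_of_constantCoeff_zero fun s => constantCoeff_X (Sum.inl s))
    (fun s => constantCoeff_X (Sum.inl s)) (hF j)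

theorem constantCoeff_liftR (hF : ∀ j, constantCoeff (F j) = 0) (j : Fin g) :
    constantCoeff (liftR F j) = 0 :=
  MvPowerSeries.constantCoeff_subst_eq_zero
    (hasSubst_of_constantCoeff_zero fun s => constantCoeff_X (embR s))
    (fun s => constantCoeff_X (embR s)) (hF j)

theorem constantCoeff_famL (hF : ∀ j, constantCoeff (F j) = 0) (s : Fin g ⊕ Fin g) :
    constantCoeff (famL F s) = 0 := by
  rcases s with j | j
  · exact constantCoeff_liftL hF j
  · exact constantCoeff_X _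

theorem constantCoeff_famR (hF : ∀ j, constantCoeff (F j) = 0) (s : Fin g ⊕ Fin g) :
    constantCoeff (famR F s) = 0 := by
  rcases s with j | j
  · exact constantCoeff_X _
  · exact constantCoeff_liftR hF j

theorem hasSubst_famL (hF : ∀ j, constantCoeff (F j) = 0) : HasSubst (famL F) :=
  hasSubst_of_constantCoeff_zero (constantCoeff_famL hF)

theorem hasSubst_famR (hF : ∀ j, constantCoeff (F j) = 0) : HasSubst (famR F) :=
  hasSubst_of_constantCoeff_zero (constantCoeff_famR hF)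

theorem constantCoeff_F3 (hF : ∀ j, constantCoeff (F j) = 0) (i : Fin g) :
    constantCoeff (F3 F i) = 0 :=
  MvPowerSeries.constantCoeff_subst_eq_zero (hasSubst_famL hF) (constantCoeff_famL hF) (hF i)

theorem constantCoeff_F3' (hF : ∀ j, constantCoeff (F j) = 0) (i : Fin g) :
    constantCoeff (F3' F i) = 0 :=
  MvPowerSeries.constantCoeff_subst_eq_zero (hasSubst_famR hF) (constantCoeff_famR hF) (hF i)

variable {θ0 θ1 θ2 : Fin g → O}

/-- evaluation of the lifted inner family `F (X, Y)` -/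
theorem nilEval_liftL (h0 : ∀ j, IsNilpotent (θ0 j)) (h1 : ∀ j, IsNilpotent (θ1 j))
    (h2 : ∀ j, IsNilpotent (θ2 j)) (j : Fin g) :
    nilEval (Sum.elim (Sum.elim θ0 θ1) θ2) (liftL F j) = nilEval (Sum.elim θ0 θ1) (F j) := by
  have hθ := isNilpotent_sumElim (isNilpotent_sumElim h0 h1) h2
  rw [liftL, nilEval_rename hθ Sum.inl (F j)]
  rfl

/-- evaluation of the lifted inner family `F (Y, Z)` -/
theorem nilEval_liftR (h0 : ∀ j, IsNilpotent (θ0 j)) (h1 : ∀ j, IsNilpotent (θ1 j))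
    (h2 : ∀ j, IsNilpotent (θ2 j)) (j : Fin g) :
    nilEval (Sum.elim (Sum.elim θ0 θ1) θ2) (liftR F j) = nilEval (Sum.elim θ1 θ2) (F j) := by
  have hθ := isNilpotent_sumElim (isNilpotent_sumElim h0 h1) h2
  rw [liftR, nilEval_rename hθ embR (F j)]
  congr 1
  funext s
  rcases s with s | s <;> rfl

/-- **`F (F (X, Y), Z)` evaluated**: `nilEval (θ0, θ1, θ2) (F3 F i) = F i (F (θ0, θ1), θ2)`. -/
theorem nilEval_F3 (hF : ∀ j, constantCoeff (F j) = 0)
    (h0 : ∀ j, IsNilpotent (θ0 j)) (h1 : ∀ j, IsNilpotent (θ1 j)) (h2 : ∀ j, IsNilpotent (θ2 j))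
    (i : Fin g) :
    nilEval (Sum.elim (Sum.elim θ0 θ1) θ2) (F3 F i) =
      nilEval (Sum.elim (fun j => nilEval (Sum.elim θ0 θ1) (F j)) θ2) (F i) := by
  have hθ := isNilpotent_sumElim (isNilpotent_sumElim h0 h1) h2
  rw [F3, nilEval_subst hθ (hasSubst_famL hF) (F i)]
  congr 1
  funext s
  rcases s with j | j
  · exact nilEval_liftL h0 h1 h2 j
  · exact nilEval_X hθ (Sum.inr j)

/-- **`F (X, F (Y, Z))` evaluated**: `nilEval (θ0, θ1, θ2) (F3' F i) = F i (θ0, F (θ1, θ2))`. -/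
theorem nilEval_F3' (hF : ∀ j, constantCoeff (F j) = 0)
    (h0 : ∀ j, IsNilpotent (θ0 j)) (h1 : ∀ j, IsNilpotent (θ1 j)) (h2 : ∀ j, IsNilpotent (θ2 j))
    (i : Fin g) :
    nilEval (Sum.elim (Sum.elim θ0 θ1) θ2) (F3' F i) =
      nilEval (Sum.elim θ0 (fun j => nilEval (Sum.elim θ1 θ2) (F j))) (F i) := by
  have hθ := isNilpotent_sumElim (isNilpotent_sumElim h0 h1) h2
  rw [F3', nilEval_subst hθ (hasSubst_famR hF) (F i)]
  congr 1
  funext s
  rcases s with j | j
  · exact nilEval_X hθ (Sum.inl (Sum.inl j))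
  · exact nilEval_liftR h0 h1 h2 j

/-- nilpotency of the evaluated inner family (so that the outer evaluations above are at nilpotent
points). -/
theorem isNilpotent_nilEval_F (hF : ∀ j, constantCoeff (F j) = 0)
    (h0 : ∀ j, IsNilpotent (θ0 j)) (h1 : ∀ j, IsNilpotent (θ1 j)) (j : Fin g) :
    IsNilpotent (nilEval (Sum.elim θ0 θ1) (F j)) :=
  isNilpotent_nilEval_of_constantCoeff_zero (isNilpotent_sumElim h0 h1) (hF j)

end comp

/-! ### the swapped family (commutativity bookkeeping) -/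

section swap

variable {g : ℕ}

/-- `Fswap F i = F i (Y, X)` -/
noncomputable def Fswap (F : Fin g → MvPowerSeries (Fin g ⊕ Fin g) W) (i : Fin g) :
    MvPowerSeries (Fin g ⊕ Fin g) W :=
  subst (fun s => (X (Sum.swap s) : MvPowerSeries (Fin g ⊕ Fin g) W)) (F i)

theorem nilEval_Fswap {F : Fin g → MvPowerSeries (Fin g ⊕ Fin g) W} {θ0 θ1 : Fin g → O}
    (h0 : ∀ j, IsNilpotent (θ0 j)) (h1 : ∀ j, IsNilpotent (θ1 j)) (i : Fin g) :
    nilEval (Sum.elim θ0 θ1) (Fswap F i) = nilEval (Sum.elim θ1 θ0) (F i) := by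
  rw [Fswap, nilEval_rename (isNilpotent_sumElim h0 h1) Sum.swap (F i)]
  congr 1
  funext s
  rcases s with s | s <;> rfl

end swap

end Fermat.Agent.FF.FAM.Comp3
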