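import Mathlib
import Fermat.Agent.FF.FAM.Law8
import Fermat.Agent.FF.FAM.Comp3
import Fermat.Agent.FF.GLUE.Rational7

set_option autoImplicit false
set_option linter.unusedSectionVars false
set_option linter.style.longLine false

/-!
# The output of F5: the power series of the three-fold group law over `A`

From the chain data `K` with its four polar conditions, and the rank-one property of `A`, we derive
the contract `Rational7.PSOut K.S0` consumed by the glue chapter: the three-fold sum of kernel points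
is computed in coordinates by the series `Fs i := F3 i (X ∘ reassoc)`, up to the `N`-th power of
the ideal generated by the coordinates.
-/

namespace Fermat.Agent.FF.FAM.Out3

open AlgebraicCurve Fermat.Agent.X0.FF Fermat.Agent.RR.LSpace Fermat.Agent.MW.EMB.Value6
open Fermat.Agent.FF.RED.RedDatum7 Fermat.Agent.FF.RED.Disc7 Fermat.Agent.FF.RED.Expand7
open Fermat.Agent.FF.KER.Ker0 Fermat.Agent.FF.KER.Add0 Fermat.Agent.FF.FAM.Step8
open Fermat.Agent.FF.FAM.BridgeExact8 Fermat.Agent.FF.FAM.Chain8 Fermat.Agent.FF.FAM.NilEval8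
open Fermat.Agent.FF.FAM.StepEval8 Fermat.Agent.FF.FAM.BridgeNil8 Fermat.Agent.FF.FAM.Law8
open Fermat.Agent.FF.FAM.Comp3 Fermat.Agent.FF.GLUE.Rational7

noncomputable section

/-! ### re-bracketing of the variables -/

/-- `(X, (Y, Z)) ↦ ((X, Y), Z)` on the index types -/
def reassoc (g : ℕ) : Fin g ⊕ (Fin g ⊕ Fin g) → Var g :=
  Sum.elim (fun a => Sum.inl (Sum.inl a))
    (Sum.elim (fun b => Sum.inl (Sum.inr b)) (fun c => Sum.inr c))

theorem sumElim_comp_reassoc {α : Type*} {g : ℕ} (x y z : Fin g → α) :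
    (Sum.elim (Sum.elim x y) z) ∘ reassoc g = Sum.elim x (Sum.elim y z) := by
  funext s
  rcases s with a | b | c <;> rfl

/-! ### polynomial evaluation modulo an ideal -/

theorem aeval_mk_eq {R : Type*} [CommRing R] {σ : Type*} (𝔞 : Ideal R) (x : σ → R)
    (p : MvPolynomial σ R) :
    MvPolynomial.aeval (fun s => Ideal.Quotient.mk 𝔞 (x s)) p
      = Ideal.Quotient.mk 𝔞 (MvPolynomial.eval x p) := by
  induction p using MvPolynomial.induction_on with
  | C a => rw [MvPolynomial.aeval_C, MvPolynomial.eval_C]; rfl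
  | add p q hp hq => rw [map_add, map_add, map_add, hp, hq]
  | mul_X p s hp => rw [map_mul, map_mul, map_mul, hp, MvPolynomial.aeval_X, MvPolynomial.eval_X]

variable {L F : Type} {k Ft : Type*} [Field L] [Field F] [Algebra L F] [Field k] [Field Ft]
  [Algebra k Ft]
variable {D : RedDatum L F k Ft} {g : ℕ} (K : ChainData D g) (hK : K.Polar)

/-- **the series of F5's output**: the three-fold law in the variables `((X, Y), Z)`. -/
def Fs (i : Fin g) : MvPowerSeries (Var g) D.A :=
  MvPowerSeries.subst (fun s => (MvPowerSeries.X (reassoc g s) : MvPowerSeries (Var g) D.A))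
    (F3 K hK i)

theorem constantCoeff_Fs (i : Fin g) : MvPowerSeries.constantCoeff (Fs K hK i) = 0 :=
  MvPowerSeries.constantCoeff_subst_eq_zero
    (MvPowerSeries.hasSubst_of_constantCoeff_zero fun _ => MvPowerSeries.constantCoeff_X _)
    (fun _ => MvPowerSeries.constantCoeff_X _) (constantCoeff_F3 K hK i)

/-- the three-fold law modulo `𝔞`, in the variables `((X, Y), Z)`. -/
theorem mk_coord_eq_nilEval_Fs (𝔞 : Ideal D.A) (h𝔞 : NilMod 𝔞) {T T' δ T'' : Fin g → mA D}
    (hkap : K.S0.kap T + K.S0.kap T' + K.S0.kap δ = K.S0.kap T'') (i : Fin g) :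
    Ideal.Quotient.mk 𝔞 (T'' i : D.A) =
      nilEval (fun s => Ideal.Quotient.mk 𝔞 (coords T T' δ s)) (Fs K hK i) := by
  have hθ : ∀ s, IsNilpotent (Ideal.Quotient.mk 𝔞 (coords T T' δ s)) :=
    fun s => h𝔞 _ (coords_mem T T' δ s)
  have h := mk_coord_add3 K hK 𝔞 h𝔞 hkap i
  rw [Fs, nilEval_rename hθ (reassoc g) (F3 K hK i)]
  have hc : (fun s => Ideal.Quotient.mk 𝔞 (coords T T' δ s)) ∘ reassoc g
      = Sum.elim (mkv 𝔞 T) (Sum.elim (mkv 𝔞 T') (mkv 𝔞 δ)) := by
    funext s
    rcases s with a | b | c <;> rfl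
  rw [hc]
  exact h

include hK in
/-- **F5's output**: the contract `PSOut` for the system `S0` of the chain data. -/
theorem psOut_of_law
    (hrank : ∀ w : D.A, w ≠ 0 → ∀ c : D.A, ¬ IsUnit c → ∃ n : ℕ, c ^ n ∈ Ideal.span {w}) :
    PSOut K.S0 := by
  refine ⟨Fs K hK, ?_⟩
  intro T T' δ T'' hkap i N
  set x := coords T T' δ with hx
  set I : Ideal D.A := Ideal.span (Set.range x) with hI
  rcases Nat.eq_zero_or_pos N with hN0 | hNpos
  · -- `N = 0`
    rw [hN0, pow_zero, Ideal.one_eq_top]
    exact Submodule.mem_top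
  by_cases hall : ∀ s, x s = 0
  · -- all coordinates vanish: the three points are `0`
    have hT : T = 0 := by
      funext l; exact Subtype.ext (hall (Sum.inl (Sum.inl l)))
    have hT' : T' = 0 := by
      funext l; exact Subtype.ext (hall (Sum.inl (Sum.inr l)))
    have hδ : δ = 0 := by
      funext l; exact Subtype.ext (hall (Sum.inr l))
    have hT'' : T'' = 0 := by
      apply K.S0.kap_injective
      rw [← hkap, hT, hT', hδ, K.S0.kap_zero, add_zero, add_zero]
    have hx0 : x = 0 := funext hall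
    have hev : MvPolynomial.eval x (MvPowerSeries.truncTotal N (Fs K hK i)) = 0 := by
      rw [hx0, MvPolynomial.eval_zero, MvPolynomial.constantCoeff_eq,
        MvPowerSeries.coeff_truncTotal _ (by simpa using hNpos)]
      exact constantCoeff_Fs K hK i
    rw [hev, hT'']
    simp
  · -- some coordinate `w` is nonzero: `I ^ N` is `NilMod`
    rw [not_forall] at hall
    obtain ⟨s0, hs0⟩ := hall
    have hwI : x s0 ∈ I := Ideal.subset_span ⟨s0, rfl⟩
    have hwN : (x s0) ^ N ≠ 0 := pow_ne_zero N hs0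
    have h𝔞 : NilMod (I ^ N) := by
      intro c hc
      have hcu : ¬ IsUnit c := by
        rwa [IsLocalRing.mem_maximalIdeal, mem_nonunits_iff] at hc
      obtain ⟨n, hn⟩ := hrank _ hwN c hcu
      refine ⟨n, ?_⟩
      rw [← map_pow, Ideal.Quotient.eq_zero_iff_mem]
      exact (Ideal.span_le.mpr (Set.singleton_subset_iff.mpr (Ideal.pow_mem_pow hwI N))) hn
    have hθ : ∀ s, IsNilpotent (Ideal.Quotient.mk (I ^ N) (x s)) :=
      fun s => h𝔞 _ (coords_mem T T' δ s)
    have h1 := mk_coord_eq_nilEval_Fs K hK (I ^ N) h𝔞 hkap i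
    -- the evaluation is the evaluation of the truncation
    have h2 := nilEval_sub_aeval_truncTotal_mem (W := D.A) hθ (I.map (Ideal.Quotient.mk (I ^ N)))
      (fun s => Ideal.mem_map_of_mem _ (Ideal.subset_span ⟨s, rfl⟩)) N (Fs K hK i)
    rw [← Ideal.map_pow, Ideal.map_quotient_self, Ideal.mem_bot, sub_eq_zero] at h2
    rw [← Ideal.Quotient.eq_zero_iff_mem, map_sub, sub_eq_zero, h1, h2]
    exact aeval_mk_eq (I ^ N) x _

end

end Fermat.Agent.FF.FAM.Out3
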