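import Mathlib
import Fermat.Agent.FF.FAM.Out3
import Fermat.Agent.FF.FAM.ChainExists4
import Fermat.Agent.FF.NS.NSFinal5
import Fermat.Agent.FF.INST.RRInst0
import Fermat.Agent.MW.ASM.Reps1
import Fermat.Agent.FF.INST.Main0

set_option autoImplicit false
set_option linter.unusedSectionVars false
set_option linter.style.longLine false

/-!
# The closing theorem of F5

For **every** non-special system `S` of `genus L F` centres the contract `Rational7.PSOut S` holds
(two auxiliary systems off the discs of `S` come from `NSFinal5.exists_nsSystem`, the polar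
conditions from Riemann's inequality), and, for a group `Γ` acting semilinearly, trivially on the
discs and fixing `S`, the polynomial form `Comul0.FGOut S W` for every `W ⊇ A^Γ` — the hypothesis
`hFG` of `INST/Main0.exists_approxGen`.
-/

namespace Fermat.Agent.FF.FAM.Close3

open AlgebraicCurve Fermat.Agent.X0.FF Fermat.Agent.RR.LSpace Fermat.Agent.MW.EMB.Value6
open Fermat.Agent.FF.RED.RedDatum7 Fermat.Agent.FF.RED.Disc7 Fermat.Agent.FF.KER.Ker0
open Fermat.Agent.FF.KER.KerGal0 Fermat.Agent.FF.INST.Gen0 Fermat.Agent.FF.INST.Comul0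
open Fermat.Agent.FF.FAM.Chain8 Fermat.Agent.FF.GLUE.Rational7 Fermat.Agent.FF.NS.Link9

noncomputable section

variable {L F : Type} {k Ft : Type*} [Field L] [Field F] [Algebra L F] [Field k] [Field Ft]
  [Algebra k Ft]
variable [IsAlgClosed L] [CharZero L] {x : F} [HasCanonicalDivisor (K := L) (F := F)] [Infinite k]
variable {D : RedDatum L F k Ft}

/-- two auxiliary non-special systems off the discs of a given one (and off each other). -/
theorem exists_aux_systems (hx : IsGen L x) (hsurj : Function.Surjective D.red) {ι : Type*}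
    (C : ChartCover D ι) {g : ℕ} (S : NSSystem D g) :
    ∃ S0' S1 : NSSystem D (genus L F),
      (∀ i j, D.r (S.P i) ≠ D.r (S1.P j)) ∧ (∀ i j, D.r (S0'.P i) ≠ D.r (S1.P j)) ∧
      (∀ i j, D.r (S.P i) ≠ D.r (S0'.P j)) := by
  classical
  obtain ⟨S0', h0', -⟩ := Fermat.Agent.FF.NS.NSFinal5.exists_nsSystem hx hsurj C
    (Finset.univ.image fun i => D.r (S.P i))
  obtain ⟨S1, h1, -⟩ := Fermat.Agent.FF.NS.NSFinal5.exists_nsSystem hx hsurj C
    ((Finset.univ.image fun i => D.r (S.P i)) ∪ Finset.univ.image fun i => D.r (S0'.P i))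
  refine ⟨S0', S1, fun i j h => ?_, fun i j h => ?_, fun i j h => ?_⟩
  · exact h1 j (Finset.mem_union_left _ (h ▸ Finset.mem_image_of_mem _ (Finset.mem_univ i)))
  · exact h1 j (Finset.mem_union_right _ (h ▸ Finset.mem_image_of_mem _ (Finset.mem_univ i)))
  · exact h0' j (h ▸ Finset.mem_image_of_mem _ (Finset.mem_univ i))

/-- **the closing theorem of F5**: the power series contract for every non-special system of
`genus L F` centres. -/
theorem psOut_all (hx : IsGen L x) (hsurj : Function.Surjective D.red) {ι : Type*}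
    (C : ChartCover D ι)
    (hrank : ∀ w : D.A, w ≠ 0 → ∀ c : D.A, ¬ IsUnit c → ∃ n : ℕ, c ^ n ∈ Ideal.span {w})
    (S : NSSystem D (genus L F)) : PSOut S := by
  obtain ⟨S0', S1, d01, d0'1, d00'⟩ := exists_aux_systems hx hsurj C S
  obtain ⟨K, hK0, -, -, hK⟩ := Fermat.Agent.FF.FAM.ChainExists4.exists_chainData S S0' S1 d01 d0'1
    d00' (fun E => Fermat.Agent.MW.ASM.Reps1.riemann_le hx E)
  rw [← hK0]
  exact Fermat.Agent.FF.FAM.Out3.psOut_of_law K hK hrank

variable {Γ : Type} [Group Γ] [MulSemiringAction Γ L]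

/-- the trivial setting on a `Γ`-fixed system (`M = 0`): enough for the rationality argument. -/
def trivialSetting (hx : IsGen L x) (ρ : Γ →* SemilinearAut L F)
    (base : ∀ (γ : Γ) (a : L), SemilinearAut.baseAut (ρ γ) a = γ • a)
    (triv : ∀ (γ : Γ) (P : Place L F), D.r (ρ γ • P) = D.r P)
    (S : NSSystem D (genus L F)) (hS : ∀ γ : Γ, Fixes S (ρ γ)) : Setting S Γ where
  hRR := fun E hE => Fermat.Agent.FF.INST.RRInst0.hRR_of_isGen hx E hE
  ρ := ρ
  base := base
  triv := triv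
  fixes := hS
  M := ⊥
  finM := inferInstance
  stab := fun γ x hx' => by
    rw [AddSubgroup.mem_bot] at hx' ⊢
    rw [hx']
    exact smul_zero (A := Pic0 L F) (ρ γ)
  y := fun _ => 0
  red_y := fun x hx' => by
    rw [AddSubgroup.mem_bot] at hx'
    rw [hx', map_zero]
  fix_y := fun γ _ _ => smul_zero (A := Pic0 L F) (ρ γ)

/-- **F5 + rationality, in the shape of `Main0.exists_approxGen`'s hypothesis `hFG`.** -/
theorem fgOut_all [Infinite D.A] (hx : IsGen L x) (hsurj : Function.Surjective D.red) {ι : Type*}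
    (C : ChartCover D ι) (ρ : Γ →* SemilinearAut L F)
    (base : ∀ (γ : Γ) (a : L), SemilinearAut.baseAut (ρ γ) a = γ • a)
    (triv : ∀ (γ : Γ) (P : Place L F), D.r (ρ γ • P) = D.r P)
    (hΓA : ∀ (γ : Γ) (a : L), a ∈ D.A → γ • a ∈ D.A)
    (hsmall : Fermat.Agent.FF.GLUE.UniqSeries7.Small (IsLocalRing.maximalIdeal D.A))
    (hrank : ∀ w : D.A, w ≠ 0 → ∀ c : D.A, ¬ IsUnit c → ∃ n : ℕ, c ^ n ∈ Ideal.span {w})
    {W : Type} [CommRing W] [Algebra W L]
    (hWA : ∀ w : W, algebraMap W L w ∈ D.A) (hWinj : Function.Injective (algebraMap W L))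
    (hWfix : ∀ a : D.A, (∀ γ : Γ, γ • (a : L) = (a : L)) → ∃ w : W, algebraMap W L w = (a : L)) :
    ∀ S : NSSystem D (genus L F), (∀ γ : Γ, Fixes S (ρ γ)) → FGOut S W :=
  fun S hS => fgOut_of_psOut (trivialSetting hx ρ base triv S hS) hΓA hsmall hrank hWA hWinj hWfix
    (psOut_all hx hsurj C hrank S)

/-- **`Main0.exists_approxGen` with F5 plugged in**: the approximate Hopf generating set over `Γ` on
any finite `Γ`-stable subgroup `M ⊂ Pic0`, with no hypothesis on F5 left. -/
theorem exists_approxGen_all {L F k Ft : Type} [Field L] [Field F] [Algebra L F] [Field k] [Field Ft]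
    [Algebra k Ft] [IsAlgClosed L] [CharZero L] {x : F} [HasCanonicalDivisor (K := L) (F := F)]
    [Infinite k] {D : RedDatum L F k Ft} {Γ : Type} [Group Γ] [MulSemiringAction Γ L]
    [Infinite D.A] (ρ : Γ →* SemilinearAut L F)
    (hx : IsGen L x) (hsurj : Function.Surjective D.red) {ι : Type}
    (C : ChartCover D ι)
    (base : ∀ (γ : Γ) (a : L), SemilinearAut.baseAut (ρ γ) a = γ • a)
    (triv : ∀ (γ : Γ) (P : Place L F), D.r (ρ γ • P) = D.r P)
    (Bad : Finset (Place k Ft))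
    (hunif : ∀ Q : Place k Ft, Q ∉ Bad → ∃ u : D.G, D.PoleFree (u : F) Q ∧ Q.ord (D.red u) = 1 ∧
      ∀ γ : Γ, ρ γ • (u : F) = (u : F))
    (M : AddSubgroup (Pic0 L F)) (finM : Finite M) (stab : ∀ (γ : Γ), ∀ x ∈ M, ρ γ • x ∈ M)
    (hΓA : ∀ (γ : Γ) (a : L), a ∈ D.A → γ • a ∈ D.A)
    (hsmall : Fermat.Agent.FF.GLUE.UniqSeries7.Small (IsLocalRing.maximalIdeal D.A))
    (hrank : ∀ w : D.A, w ≠ 0 → ∀ c : D.A, ¬ IsUnit c → ∃ n : ℕ, c ^ n ∈ Ideal.span {w})
    {W : Type} [CommRing W] [Algebra W L]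
    (hWA : ∀ w : W, algebraMap W L w ∈ D.A) (hWinj : Function.Injective (algebraMap W L))
    (hWfix : ∀ a : D.A, (∀ γ : Γ, γ • (a : L) = (a : L)) → ∃ w : W, algebraMap W L w = (a : L)) :
    ∃ S0 : Set (M → L), Fermat.Agent.FF.BASE.ApproxGen2.ApproxGen W D.A.toSubring
      (fun (γ : Γ) (m : M) => (⟨ρ γ • (m : Pic0 L F), stab γ m.1 m.2⟩ : M)) S0 :=
  Fermat.Agent.FF.INST.Main0.exists_approxGen ρ hx hsurj C base triv Bad hunif M finM stab hWA hWfix
    (fgOut_all hx hsurj C ρ base triv hΓA hsmall hrank hWA hWinj hWfix)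

end

end Fermat.Agent.FF.FAM.Close3
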