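/-
Programme FF (S19), chapter FAM (F5 FAMILY), helper3: CRAMER WITH A UNIT MINOR.

For an `n × (n+1)` matrix `M` over a commutative ring, `cramerVec M j = (-1)^j · det (M without
column j)` is a kernel vector.  If one coordinate is a unit, it generates the kernel.  Over a local
ring, if the kernel of the residue matrix is contained in a line `k ∙ v₀` with `v₀ j ≠ 0`, the
`j`-th coordinate is a unit.
-/
import Mathlib

set_option autoImplicit false

open Matrix

namespace Fermat.Agent.FF.FAM.Cramer3

variable {R : Type*} [CommRing R] {n : ℕ}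

/-- the square matrix obtained by deleting column `j`. -/
def delCol (M : Matrix (Fin n) (Fin (n + 1)) R) (j : Fin (n + 1)) : Matrix (Fin n) (Fin n) R :=
  M.submatrix id j.succAbove

/-- the Cramer kernel vector: signed maximal minors. -/
def cramerVec (M : Matrix (Fin n) (Fin (n + 1)) R) (j : Fin (n + 1)) : R :=
  (-1) ^ (j : ℕ) * (delCol M j).det

theorem delCol_map {S : Type*} [CommRing S] (φ : R →+* S) (M : Matrix (Fin n) (Fin (n + 1)) R)
    (j : Fin (n + 1)) : delCol (M.map φ) j = (delCol M j).map φ := rfl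

theorem cramerVec_map {S : Type*} [CommRing S] (φ : R →+* S) (M : Matrix (Fin n) (Fin (n + 1)) R)
    (j : Fin (n + 1)) : cramerVec (M.map φ) j = φ (cramerVec M j) := by
  unfold cramerVec
  rw [delCol_map, map_mul, map_pow, map_neg, map_one, RingHom.map_det]
  rfl

/-- `M *ᵥ cramerVec M = 0`: Laplace expansion of a determinant with two equal rows. -/
theorem mulVec_cramerVec (M : Matrix (Fin n) (Fin (n + 1)) R) : M *ᵥ cramerVec M = 0 := by
  funext i
  set A : Matrix (Fin (n + 1)) (Fin (n + 1)) R := Matrix.of (Fin.cons (M i) M) with hA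
  have hdet : A.det = 0 := by
    apply Matrix.det_zero_of_row_eq (i := 0) (j := i.succ) (Fin.succ_ne_zero i).symm
    funext c
    simp [hA]
  rw [Matrix.det_succ_row_zero] at hdet
  simp only [Pi.zero_apply, Matrix.mulVec, dotProduct]
  rw [← hdet]
  apply Finset.sum_congr rfl
  intro j _
  have h1 : A 0 j = M i j := by simp [hA]
  have h2 : A.submatrix Fin.succ j.succAbove = delCol M j := by
    ext a b
    simp [hA, delCol]
  rw [h1, h2, cramerVec]
  ring

theorem isUnit_delCol_det_iff (M : Matrix (Fin n) (Fin (n + 1)) R) (j : Fin (n + 1)) :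
    IsUnit (delCol M j).det ↔ IsUnit (cramerVec M j) := by
  unfold cramerVec
  constructor
  · intro h
    exact (IsUnit.pow _ isUnit_one.neg).mul h
  · intro h
    have : (delCol M j).det = (-1) ^ (j : ℕ) * ((-1) ^ (j : ℕ) * (delCol M j).det) := by
      rw [← mul_assoc, ← mul_pow]
      simp
    rw [this]
    exact (IsUnit.pow _ isUnit_one.neg).mul h

/-- splitting `M *ᵥ v` into column `j` and the other columns. -/
theorem mulVec_eq_delCol (M : Matrix (Fin n) (Fin (n + 1)) R) (j : Fin (n + 1))
    (v : Fin (n + 1) → R) :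
    M *ᵥ v = (fun i => M i j * v j) + delCol M j *ᵥ (fun k => v (j.succAbove k)) := by
  funext i
  simp only [Matrix.mulVec, dotProduct, Pi.add_apply, delCol, Matrix.submatrix_apply, id]
  rw [Fin.sum_univ_succAbove _ j]

/-- row form of `M *ᵥ v = 0`, split at column `j`. -/
theorem row_eq_of_mulVec_eq_zero (M : Matrix (Fin n) (Fin (n + 1)) R) (j : Fin (n + 1))
    (v : Fin (n + 1) → R) (hv : M *ᵥ v = 0) (i : Fin n) :
    ∑ k' : Fin n, M i (j.succAbove k') * v (j.succAbove k') = -(M i j * v j) := by
  have h := congrFun hv i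
  simp only [Matrix.mulVec, dotProduct, Pi.zero_apply] at h
  rw [Fin.sum_univ_succAbove _ j] at h
  rw [eq_neg_iff_add_eq_zero, add_comm]
  exact h

/-- If the `j`-th Cramer coordinate is a unit, every kernel vector is proportional to the Cramer
vector (cross-multiplied form, no inverse). -/
theorem mul_cramerVec_eq_of_mulVec_eq_zero (M : Matrix (Fin n) (Fin (n + 1)) R)
    (j : Fin (n + 1)) (hj : IsUnit (cramerVec M j)) (v : Fin (n + 1) → R) (hv : M *ᵥ v = 0)
    (k : Fin (n + 1)) : cramerVec M j * v k = v j * cramerVec M k := by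
  have hdet : IsUnit (delCol M j).det := (isUnit_delCol_det_iff M j).2 hj
  have hinj : ∀ u : Fin n → R, (delCol M j).mulVec u = 0 → u = 0 := by
    intro u hu
    have h1 : (delCol M j)⁻¹ *ᵥ ((delCol M j) *ᵥ u) = u := by
      rw [Matrix.mulVec_mulVec, Matrix.nonsing_inv_mul _ hdet, Matrix.one_mulVec]
    rw [← h1]
    have : (delCol M j) *ᵥ u = 0 := hu
    rw [this, Matrix.mulVec_zero]
  have hl : M *ᵥ cramerVec M = 0 := mulVec_cramerVec M
  have hz : (delCol M j).mulVec
      (fun k' => cramerVec M j * v (j.succAbove k') - v j * cramerVec M (j.succAbove k')) = 0 := by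
    funext i
    have e1 := row_eq_of_mulVec_eq_zero M j v hv i
    have e2 := row_eq_of_mulVec_eq_zero M j (cramerVec M) hl i
    simp only [Matrix.mulVec, dotProduct, delCol, Matrix.submatrix_apply, id, Pi.zero_apply]
    calc ∑ x : Fin n, M i (j.succAbove x) *
          (cramerVec M j * v (j.succAbove x) - v j * cramerVec M (j.succAbove x))
        = cramerVec M j * ∑ x : Fin n, M i (j.succAbove x) * v (j.succAbove x)
          - v j * ∑ x : Fin n, M i (j.succAbove x) * cramerVec M (j.succAbove x) := by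
          rw [Finset.mul_sum, Finset.mul_sum, ← Finset.sum_sub_distrib]
          apply Finset.sum_congr rfl
          intro x _
          ring
      _ = 0 := by rw [e1, e2]; ring
  have hz' : (fun k' => cramerVec M j * v (j.succAbove k') - v j * cramerVec M (j.succAbove k'))
      = 0 := by
    exact hinj _ hz
  rcases Fin.eq_self_or_eq_succAbove j k with h | ⟨k', h⟩
  · rw [h, mul_comm]
  · have := congrFun hz' k'
    simp only [Pi.zero_apply, sub_eq_zero] at this
    rw [h]; exact this

/-- The kernel is generated by the Cramer vector when one coordinate is a unit. -/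
theorem exists_smul_cramerVec_of_mulVec_eq_zero (M : Matrix (Fin n) (Fin (n + 1)) R)
    (j : Fin (n + 1)) (hj : IsUnit (cramerVec M j)) (v : Fin (n + 1) → R) (hv : M *ᵥ v = 0) :
    ∃ c : R, v = c • cramerVec M := by
  obtain ⟨u, hu⟩ := hj
  refine ⟨v j * ↑u⁻¹, ?_⟩
  funext k
  have h := mul_cramerVec_eq_of_mulVec_eq_zero M j ⟨u, hu⟩ v hv k
  rw [← hu] at h
  simp only [Pi.smul_apply, smul_eq_mul]
  calc v k = ↑u⁻¹ * (↑u * v k) := by rw [← mul_assoc, Units.inv_mul, one_mul]
    _ = ↑u⁻¹ * (v j * cramerVec M k) := by rw [h]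
    _ = v j * ↑u⁻¹ * cramerVec M k := by ring

/-- the normalised generator: `j`-th coordinate `1`. -/
noncomputable def normVec (M : Matrix (Fin n) (Fin (n + 1)) R) (j : Fin (n + 1))
    (hj : IsUnit (cramerVec M j)) : Fin (n + 1) → R :=
  fun k => ↑hj.unit⁻¹ * cramerVec M k

theorem normVec_self (M : Matrix (Fin n) (Fin (n + 1)) R) (j : Fin (n + 1))
    (hj : IsUnit (cramerVec M j)) : normVec M j hj j = 1 := by
  unfold normVec
  have e : ↑hj.unit⁻¹ * cramerVec M j = ↑hj.unit⁻¹ * ↑hj.unit := by
    congr 1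
  rw [e]
  exact Units.inv_mul _

theorem mulVec_normVec (M : Matrix (Fin n) (Fin (n + 1)) R) (j : Fin (n + 1))
    (hj : IsUnit (cramerVec M j)) : M *ᵥ normVec M j hj = 0 := by
  have : normVec M j hj = (↑hj.unit⁻¹ : R) • cramerVec M := by
    funext k; simp [normVec]
  rw [this, Matrix.mulVec_smul, mulVec_cramerVec, smul_zero]

/-- uniqueness of the normalised kernel vector. -/
theorem eq_normVec_of_mulVec_eq_zero (M : Matrix (Fin n) (Fin (n + 1)) R) (j : Fin (n + 1))
    (hj : IsUnit (cramerVec M j)) (v : Fin (n + 1) → R) (hv : M *ᵥ v = 0) (hvj : v j = 1) :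
    v = normVec M j hj := by
  funext k
  have h := mul_cramerVec_eq_of_mulVec_eq_zero M j hj v hv k
  rw [hvj, one_mul] at h
  have e : cramerVec M j = ↑hj.unit := hj.unit_spec.symm
  unfold normVec
  calc v k = ↑hj.unit⁻¹ * (↑hj.unit * v k) := by rw [← mul_assoc, Units.inv_mul, one_mul]
    _ = ↑hj.unit⁻¹ * cramerVec M k := by rw [← e, h]

/-- every kernel vector is `v j •` the normalised generator. -/
theorem eq_smul_normVec_of_mulVec_eq_zero (M : Matrix (Fin n) (Fin (n + 1)) R) (j : Fin (n + 1))
    (hj : IsUnit (cramerVec M j)) (v : Fin (n + 1) → R) (hv : M *ᵥ v = 0) :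
    v = v j • normVec M j hj := by
  funext k
  have h := mul_cramerVec_eq_of_mulVec_eq_zero M j hj v hv k
  simp only [Pi.smul_apply, smul_eq_mul, normVec]
  have e : cramerVec M j = ↑hj.unit := hj.unit_spec.symm
  calc v k = ↑hj.unit⁻¹ * (↑hj.unit * v k) := by rw [← mul_assoc, Units.inv_mul, one_mul]
    _ = ↑hj.unit⁻¹ * (v j * cramerVec M k) := by rw [← e, h]
    _ = v j * (↑hj.unit⁻¹ * cramerVec M k) := by ring

/-- functoriality of the normalised generator. -/
theorem normVec_map {S : Type*} [CommRing S] (φ : R →+* S) (M : Matrix (Fin n) (Fin (n + 1)) R)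
    (j : Fin (n + 1)) (hj : IsUnit (cramerVec M j))
    (hj' : IsUnit (cramerVec (M.map φ) j)) (k : Fin (n + 1)) :
    normVec (M.map φ) j hj' k = φ (normVec M j hj k) := by
  have h1 : (M.map φ) *ᵥ (fun k => φ (normVec M j hj k)) = 0 := by
    funext i
    have := congrArg φ (congrFun (mulVec_normVec M j hj) i)
    simp only [Matrix.mulVec, dotProduct, Pi.zero_apply, map_zero, map_sum, map_mul] at this
    simp only [Matrix.mulVec, dotProduct, Pi.zero_apply, Matrix.map_apply]
    exact this
  have h2 : (fun k => φ (normVec M j hj k)) j = 1 := by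
    simp [normVec_self]
  exact (congrFun (eq_normVec_of_mulVec_eq_zero (M.map φ) j hj' _ h1 h2) k).symm

section Field

variable {k : Type*} [Field k]

/-- Over a field: if the kernel is contained in the line `k ∙ v₀` and `v₀ j ≠ 0`, the `j`-th minor
is nonzero. -/
theorem delCol_det_ne_zero_of_ker_le (N : Matrix (Fin n) (Fin (n + 1)) k) (v₀ : Fin (n + 1) → k)
    (hker : ∀ v, N *ᵥ v = 0 → ∃ c : k, v = c • v₀) (j : Fin (n + 1)) (hj : v₀ j ≠ 0) :
    (delCol N j).det ≠ 0 := by
  intro hdet
  obtain ⟨w, hw0, hw⟩ := (Matrix.exists_mulVec_eq_zero_iff (M := delCol N j)).2 hdet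
  -- extend `w` by `0` at position `j`
  set w' : Fin (n + 1) → k := Fin.insertNth j 0 w with hw'
  have hNw : N *ᵥ w' = 0 := by
    rw [mulVec_eq_delCol N j]
    have e1 : w' j = 0 := by simp [hw']
    have e2 : (fun k' => w' (j.succAbove k')) = w := by
      funext k'; simp [hw']
    rw [e1, e2, hw]
    funext i; simp
  obtain ⟨c, hc⟩ := hker w' hNw
  have hcj : c = 0 := by
    have := congrFun hc j
    simp only [hw', Fin.insertNth_apply_same, Pi.smul_apply, smul_eq_mul] at this
    rcases mul_eq_zero.1 this.symm with h | h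
    · exact h
    · exact absurd h hj
  apply hw0
  funext k'
  have := congrFun hc (j.succAbove k')
  simp only [hw', Fin.insertNth_apply_succAbove, hcj, zero_smul, Pi.zero_apply] at this
  simpa using this

theorem cramerVec_ne_zero_of_ker_le (N : Matrix (Fin n) (Fin (n + 1)) k) (v₀ : Fin (n + 1) → k)
    (hker : ∀ v, N *ᵥ v = 0 → ∃ c : k, v = c • v₀) (j : Fin (n + 1)) (hj : v₀ j ≠ 0) :
    cramerVec N j ≠ 0 := by
  have h := delCol_det_ne_zero_of_ker_le N v₀ hker j hj
  unfold cramerVec
  exact mul_ne_zero (pow_ne_zero _ (neg_ne_zero.2 one_ne_zero)) h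

end Field

section Local

variable [IsLocalRing R]

/-- **Unit minor over a local ring**: if the kernel of the residue matrix is contained in a line
`κ ∙ v₀` with `v₀ j ≠ 0`, then `cramerVec M j` is a unit. -/
theorem isUnit_cramerVec_of_residue_ker_le (M : Matrix (Fin n) (Fin (n + 1)) R)
    (v₀ : Fin (n + 1) → IsLocalRing.ResidueField R)
    (hker : ∀ v, (M.map (IsLocalRing.residue R)) *ᵥ v = 0 →
      ∃ c : IsLocalRing.ResidueField R, v = c • v₀)
    (j : Fin (n + 1)) (hj : v₀ j ≠ 0) : IsUnit (cramerVec M j) := by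
  have h := cramerVec_ne_zero_of_ker_le (M.map (IsLocalRing.residue R)) v₀ hker j hj
  rw [cramerVec_map] at h
  by_contra hnu
  exact h ((IsLocalRing.residue_eq_zero_iff _).2 ((IsLocalRing.mem_maximalIdeal _).2 hnu))

omit [IsLocalRing R] in
/-- general local-hom version: `φ : R → κ` a ring hom to a field with `IsLocalHom`. -/
theorem isUnit_cramerVec_of_map_ker_le {κ : Type*} [Field κ] (φ : R →+* κ) [IsLocalHom φ]
    (M : Matrix (Fin n) (Fin (n + 1)) R) (v₀ : Fin (n + 1) → κ)
    (hker : ∀ v, (M.map φ) *ᵥ v = 0 → ∃ c : κ, v = c • v₀)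
    (j : Fin (n + 1)) (hj : v₀ j ≠ 0) : IsUnit (cramerVec M j) := by
  have h := cramerVec_ne_zero_of_ker_le (M.map φ) v₀ hker j hj
  rw [cramerVec_map] at h
  exact isUnit_of_map_unit φ _ (isUnit_iff_ne_zero.2 h)

end Local

end Fermat.Agent.FF.FAM.Cramer3
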