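/-
PROGRAMME FF (S19), chapter F5 FAMILY, brick (C) (helper4): **Cramer for bordered systems**, over an
arbitrary commutative ring and over `S = MvPowerSeries σ W`.

A *bordered system* is `c : Fin m → Fin (m+1) → R` (`m` linear conditions on `m+1` unknowns
`lam 0, …, lam m`, the condition `a` being `Σ_j lam j * c a j = 0`); its *minor* is the `m × m`
matrix `minor c = (c a (j+1))`.

General ring `R`:
* `sol c` : the normalised solution (`sol c 0 = 1`, the others `= -(minor c)⁻¹ *ᵥ c(·,0)`);
* `sol_spec`, `sol_unique`, **`existsUnique_sol`** (C2) : if `det (minor c)` is a unit, `sol c` is THE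
  vector `lam` with `lam 0 = 1` and `∀ a, Σ_j lam j * c a j = 0`;
* **`map_sol`** (C4) : naturality under ring homomorphisms `φ : R →+* R'`
  (`φ ∘ sol c = sol (φ ∘ c)`), `isUnit_det_minor_map`, `existsUnique_map`;
* `det_mul_sol_succ` : Cramer's rule `det (minor c) * sol c (j+1) = -cramer (minor c) (border c) j`;
* `sol_succ_eq_zero` : if the border `c(·,0)` vanishes, `sol c (j+1) = 0`;
* `sol_succ_mem` : if the border lies in an ideal `I`, so do the `sol c (j+1)`.

Power series `S = MvPowerSeries σ W`:
* **`isUnit_det_of_constantCoeff`** (C1) : `IsUnit (det (constantCoeff ∘ M)) → IsUnit (det M)`;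
* **`existsUnique_sol_mvPowerSeries`** (C2) and **`constantCoeff_sol_succ`** (C3) : if the minor of
  constant coefficients is invertible the normalised solution exists and is unique, and if the
  border has no constant terms the `sol c (j+1)` have no constant terms.
-/
import Mathlib

set_option autoImplicit false
set_option linter.unusedSectionVars false

namespace Fermat.Agent.FF.FAM.Cramer4

open Matrix

section General

variable {R : Type*} [CommRing R] {m : ℕ}

/-- The minor `(c a (j+1))` of a bordered system. -/
def minor (c : Fin m → Fin (m + 1) → R) : Matrix (Fin m) (Fin m) R :=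
  Matrix.of fun a j => c a j.succ

@[simp] theorem minor_apply (c : Fin m → Fin (m + 1) → R) (a j : Fin m) :
    minor c a j = c a j.succ := rfl

/-- The border `c(·,0)`. -/
def border (c : Fin m → Fin (m + 1) → R) : Fin m → R := fun a => c a 0

/-- The normalised solution of a bordered system. -/
noncomputable def sol (c : Fin m → Fin (m + 1) → R) : Fin (m + 1) → R :=
  Fin.cons 1 (-((minor c)⁻¹ *ᵥ border c))

@[simp] theorem sol_zero (c : Fin m → Fin (m + 1) → R) : sol c 0 = 1 := rfl

theorem sol_succ (c : Fin m → Fin (m + 1) → R) (j : Fin m) :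
    sol c j.succ = -((minor c)⁻¹ *ᵥ border c) j := by
  simp [sol]

/-- The conditions of a bordered system in matrix form. -/
theorem sum_eq (c : Fin m → Fin (m + 1) → R) (lam : Fin (m + 1) → R) (a : Fin m) :
    ∑ j, lam j * c a j = lam 0 * c a 0 + (minor c *ᵥ fun j => lam j.succ) a := by
  rw [Fin.sum_univ_succ, Matrix.mulVec, dotProduct]
  congr 1
  exact Finset.sum_congr rfl fun j _ => by rw [minor_apply, mul_comm]

theorem sol_spec (c : Fin m → Fin (m + 1) → R) (h : IsUnit (minor c).det) (a : Fin m) :
    ∑ j, sol c j * c a j = 0 := by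
  rw [sum_eq, sol_zero, one_mul]
  have h1 : (fun j : Fin m => sol c j.succ) = -((minor c)⁻¹ *ᵥ border c) := by
    funext j; rw [sol_succ, Pi.neg_apply]
  rw [h1, Matrix.mulVec_neg, Matrix.mulVec_mulVec, Matrix.mul_nonsing_inv _ h, Matrix.one_mulVec]
  simp [border]

theorem sol_unique (c : Fin m → Fin (m + 1) → R) (h : IsUnit (minor c).det)
    (lam : Fin (m + 1) → R) (h0 : lam 0 = 1) (hl : ∀ a, ∑ j, lam j * c a j = 0) :
    lam = sol c := by
  have h1 : minor c *ᵥ (fun j => lam j.succ) = -border c := by
    funext a
    have := hl a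
    rw [sum_eq, h0, one_mul] at this
    rw [Pi.neg_apply, border]
    linear_combination this
  have h2 : (fun j => lam j.succ) = -((minor c)⁻¹ *ᵥ border c) := by
    have := congrArg (fun v => (minor c)⁻¹ *ᵥ v) h1
    simp only [Matrix.mulVec_mulVec, Matrix.nonsing_inv_mul _ h, Matrix.one_mulVec,
      Matrix.mulVec_neg] at this
    exact this
  funext j
  refine Fin.cases ?_ (fun j => ?_) j
  · rw [h0, sol_zero]
  · rw [sol_succ, ← Pi.neg_apply, ← h2]

/-- **(C2)** existence and uniqueness of the normalised solution. -/
theorem existsUnique_sol (c : Fin m → Fin (m + 1) → R) (h : IsUnit (minor c).det) :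
    ∃! lam : Fin (m + 1) → R, lam 0 = 1 ∧ ∀ a, ∑ j, lam j * c a j = 0 :=
  ⟨sol c, ⟨sol_zero c, sol_spec c h⟩, fun lam hl => sol_unique c h lam hl.1 hl.2⟩

/-- Cramer's rule: `det (minor c) * sol c (j+1) = - det (minor c with column j replaced by the
border)`. -/
theorem det_mul_sol_succ (c : Fin m → Fin (m + 1) → R) (h : IsUnit (minor c).det) (j : Fin m) :
    (minor c).det * sol c j.succ = -(Matrix.cramer (minor c) (border c) j) := by
  rw [sol_succ, Matrix.inv_def, Matrix.smul_mulVec, ← Matrix.cramer_eq_adjugate_mulVec,
    Pi.smul_apply, smul_eq_mul, mul_neg, ← mul_assoc, Ring.mul_inverse_cancel _ h, one_mul]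

/-! ### Naturality -/

variable {R' : Type*} [CommRing R']

theorem minor_map (φ : R →+* R') (c : Fin m → Fin (m + 1) → R) :
    minor (fun a j => φ (c a j)) = (minor c).map φ := rfl

theorem isUnit_det_minor_map (φ : R →+* R') (c : Fin m → Fin (m + 1) → R)
    (h : IsUnit (minor c).det) : IsUnit (minor fun a j => φ (c a j)).det := by
  rw [minor_map, ← RingHom.mapMatrix_apply, ← RingHom.map_det]
  exact h.map φ

/-- **(C4)** the normalised solution commutes with ring homomorphisms. -/
theorem map_sol (φ : R →+* R') (c : Fin m → Fin (m + 1) → R) (h : IsUnit (minor c).det) :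
    (fun j => φ (sol c j)) = sol fun a j => φ (c a j) := by
  refine sol_unique _ (isUnit_det_minor_map φ c h) _ (by rw [sol_zero, map_one]) fun a => ?_
  have := congrArg φ (sol_spec c h a)
  rwa [map_sum, map_zero, Finset.sum_congr rfl fun j _ => map_mul φ _ _] at this

theorem map_sol_apply (φ : R →+* R') (c : Fin m → Fin (m + 1) → R) (h : IsUnit (minor c).det)
    (j : Fin (m + 1)) : φ (sol c j) = sol (fun a j => φ (c a j)) j :=
  congrFun (map_sol φ c h) j

/-- **(C4)** in the image ring the mapped vector is the unique normalised solution of the mapped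
system. -/
theorem existsUnique_map (φ : R →+* R') (c : Fin m → Fin (m + 1) → R)
    (h : IsUnit (minor fun a j => φ (c a j)).det) :
    ∃! lam : Fin (m + 1) → R', lam 0 = 1 ∧ ∀ a, ∑ j, lam j * φ (c a j) = 0 :=
  existsUnique_sol _ h

theorem map_sol_unique (φ : R →+* R') (c : Fin m → Fin (m + 1) → R) (h : IsUnit (minor c).det)
    (lam : Fin (m + 1) → R') (h0 : lam 0 = 1) (hl : ∀ a, ∑ j, lam j * φ (c a j) = 0) :
    lam = fun j => φ (sol c j) := by
  rw [map_sol φ c h]
  exact sol_unique _ (isUnit_det_minor_map φ c h) lam h0 hl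

/-! ### Vanishing of the solution with the border -/

theorem sol_succ_eq_zero (c : Fin m → Fin (m + 1) → R) (h0 : ∀ a, c a 0 = 0) (j : Fin m) :
    sol c j.succ = 0 := by
  have : border c = 0 := funext h0
  rw [sol_succ, this, Matrix.mulVec_zero, Pi.zero_apply, neg_zero]

/-- If the border lies in an ideal, so do the non-normalised entries of the solution. -/
theorem sol_succ_mem (c : Fin m → Fin (m + 1) → R) (I : Ideal R) (h0 : ∀ a, c a 0 ∈ I)
    (j : Fin m) : sol c j.succ ∈ I := by
  rw [sol_succ, Matrix.mulVec, dotProduct]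
  exact I.neg_mem (I.sum_mem fun a _ => I.mul_mem_left _ (h0 a))

end General

section PowerSeries

variable {σ W : Type*} [CommRing W] {m : ℕ}

/-- **(C1)** a matrix of power series whose matrix of constant coefficients is invertible is
invertible. -/
theorem isUnit_det_of_constantCoeff {n : Type*} [Fintype n] [DecidableEq n]
    (M : Matrix n n (MvPowerSeries σ W))
    (h : IsUnit (M.map (MvPowerSeries.constantCoeff (σ := σ) (R := W))).det) : IsUnit M.det := by
  rw [MvPowerSeries.isUnit_iff_constantCoeff, RingHom.map_det]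
  exact h

theorem isUnit_det_minor_of_constantCoeff (c : Fin m → Fin (m + 1) → MvPowerSeries σ W)
    (h : IsUnit (minor fun a j => MvPowerSeries.constantCoeff (c a j)).det) :
    IsUnit (minor c).det :=
  isUnit_det_of_constantCoeff _ h

/-- **(C2)** over power series: invertibility is read on the constant coefficients. -/
theorem existsUnique_sol_mvPowerSeries (c : Fin m → Fin (m + 1) → MvPowerSeries σ W)
    (h : IsUnit (Matrix.of fun a j : Fin m =>
      MvPowerSeries.constantCoeff (c a j.succ)).det) :
    ∃! lam : Fin (m + 1) → MvPowerSeries σ W, lam 0 = 1 ∧ ∀ a, ∑ j, lam j * c a j = 0 :=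
  existsUnique_sol c (isUnit_det_minor_of_constantCoeff c h)

/-- **(C3)** if the border has no constant terms, neither have the `sol c (j+1)`. -/
theorem constantCoeff_sol_succ (c : Fin m → Fin (m + 1) → MvPowerSeries σ W)
    (h : IsUnit (Matrix.of fun a j : Fin m =>
      MvPowerSeries.constantCoeff (c a j.succ)).det)
    (h0 : ∀ a, MvPowerSeries.constantCoeff (c a 0) = 0) (j : Fin m) :
    MvPowerSeries.constantCoeff (sol c j.succ) = 0 := by
  rw [map_sol_apply MvPowerSeries.constantCoeff c (isUnit_det_minor_of_constantCoeff c h)]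
  exact sol_succ_eq_zero _ h0 j

/-- The value of the normalised solution under a ring homomorphism `ev : S →+* O` (e.g. an
evaluation `MvPowerSeries.aeval`). -/
theorem ev_sol {O : Type*} [CommRing O] (ev : MvPowerSeries σ W →+* O)
    (c : Fin m → Fin (m + 1) → MvPowerSeries σ W)
    (h : IsUnit (Matrix.of fun a j : Fin m =>
      MvPowerSeries.constantCoeff (c a j.succ)).det) :
    (fun j => ev (sol c j)) = sol fun a j => ev (c a j) :=
  map_sol ev c (isUnit_det_minor_of_constantCoeff c h)

end PowerSeries

end Fermat.Agent.FF.FAM.Cramer4
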