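/-
PROGRAMME FF (S19), chapter F5 FAMILY, brick (D) (helper4): **divided differences of power series**.

`W` any commutative ring.  For `f = Σ f_n X^n : W⟦X⟧`,
`dd f := Σ_n f_n Σ_{a+b=n-1} X₀^a X₁^b : MvPowerSeries (Fin 2) W`.

* (D1) `dd_spec` : `f(X₀) - f(X₁) = (X₀ - X₁) * dd f` (with Mathlib's `PowerSeries.subst`);
  `dd_unique` (`X₀ - X₁` is a non-zero-divisor: `eq_zero_of_X0_sub_X1_mul_eq_zero`);
* (D2) `constantCoeff_dd` : the constant coefficient of `dd f` is `f_1`; (D3) `coeff_dd`;
* (D4) `dd_C`, `dd_one`, `dd_X`, `dd_mul` (product rule), `dd_X_mul`, `ddL` (linearity), `dd_map`;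
* (D5) `subst_diag_dd` : `dd f (X, X) = f'` (Mathlib's `PowerSeries.derivative`);
* (D6) `aeval_sub_aeval` : in a complete linearly topologised `W`-algebra `O` (Mathlib's setting for
  `MvPowerSeries.aeval`, `W` discrete), for `x y` topologically nilpotent,
  `f(x) - f(y) = (x - y) * (dd f)(x, y)`;
* (D7) `eq_of_aeval_eq`, `eq_of_aeval_eq_zero` : if the linear coefficient of `f` is a unit of `O`,
  `f` is injective on topologically nilpotent elements (uniqueness of the zero in the open disc);
  auxiliary: `isUnit_one_sub_of_isTopologicallyNilpotent`, `isUnit_add_of_isTopologicallyNilpotent`,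
  `isTopologicallyNilpotent_aeval`, `isUnit_aeval_dd`, `hasEval_pair`, `aeval_congr`.
-/
import Mathlib

set_option autoImplicit false
set_option linter.unusedSectionVars false

namespace Fermat.Agent.FF.FAM.DivDiff4

open MvPowerSeries

variable {W : Type*} [CommRing W]

/-- The divided difference of a power series: `dd f = Σ_n f_n Σ_{a+b=n-1} X₀^a X₁^b`. -/
noncomputable def dd (f : PowerSeries W) : MvPowerSeries (Fin 2) W :=
  fun e => PowerSeries.coeff (e 0 + e 1 + 1) f

@[simp]
theorem coeff_dd (f : PowerSeries W) (e : Fin 2 →₀ ℕ) :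
    MvPowerSeries.coeff e (dd f) = PowerSeries.coeff (e 0 + e 1 + 1) f := rfl

theorem constantCoeff_dd (f : PowerSeries W) :
    MvPowerSeries.constantCoeff (dd f) = PowerSeries.coeff 1 f := by
  rw [← MvPowerSeries.coeff_zero_eq_constantCoeff_apply, coeff_dd]
  simp

/-- `dd` as a linear map. -/
noncomputable def ddL : PowerSeries W →ₗ[W] MvPowerSeries (Fin 2) W where
  toFun := dd
  map_add' f g := by ext e; simp
  map_smul' c f := by ext e; simp

@[simp] theorem ddL_apply (f : PowerSeries W) : ddL f = dd f := rfl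

theorem dd_add (f g : PowerSeries W) : dd (f + g) = dd f + dd g := map_add ddL f g
theorem dd_sub (f g : PowerSeries W) : dd (f - g) = dd f - dd g := map_sub ddL f g
theorem dd_smul (c : W) (f : PowerSeries W) : dd (c • f) = c • dd f := map_smul ddL c f
theorem dd_zero : dd (0 : PowerSeries W) = 0 := map_zero ddL

theorem eq_single_zero_iff (e : Fin 2 →₀ ℕ) : e = Finsupp.single 0 (e 0) ↔ e 1 = 0 := by
  constructor
  · intro h; rw [h]; simp
  · intro h
    ext i
    fin_cases i
    · simp
    · simpa using h

theorem eq_single_one_iff (e : Fin 2 →₀ ℕ) : e = Finsupp.single 1 (e 1) ↔ e 0 = 0 := by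
  constructor
  · intro h; rw [h]; simp
  · intro h
    ext i
    fin_cases i
    · simpa using h
    · simp

/-- **(D1)** `f(X₀) - f(X₁) = (X₀ - X₁) * dd f`. -/
theorem dd_spec (f : PowerSeries W) :
    PowerSeries.subst (X 0 : MvPowerSeries (Fin 2) W) f -
        PowerSeries.subst (X 1 : MvPowerSeries (Fin 2) W) f = (X 0 - X 1) * dd f := by
  classical
  ext e
  rw [map_sub, PowerSeries.coeff_subst_single, PowerSeries.coeff_subst_single, sub_mul, map_sub,
    X, X, coeff_monomial_mul, coeff_monomial_mul]
  simp only [eq_single_zero_iff, eq_single_one_iff, Finsupp.single_le_iff, coeff_dd, one_mul]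
  have h0 : ∀ i : Fin 2, (e - Finsupp.single i 1 : Fin 2 →₀ ℕ) i = e i - 1 := fun i => by
    simp [Finsupp.tsub_apply]
  have h01 : (e - Finsupp.single (0 : Fin 2) 1 : Fin 2 →₀ ℕ) 1 = e 1 := by simp [Finsupp.tsub_apply]
  have h10 : (e - Finsupp.single (1 : Fin 2) 1 : Fin 2 →₀ ℕ) 0 = e 0 := by simp [Finsupp.tsub_apply]
  rw [h0 0, h0 1, h01, h10]
  generalize e 0 = a
  generalize e 1 = b
  rcases a with _ | a <;> rcases b with _ | b
  · simp
  · simp
  · simp
  · simp only [Nat.add_eq_zero_iff, one_ne_zero, and_false, if_false, sub_self,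
      Nat.le_add_left, if_true, Nat.add_sub_cancel]
    rw [show a + (b + 1) + 1 = a + 1 + b + 1 by omega, sub_self]


/-! ### Coefficients of `X i * φ` in two variables -/

/-- The exponent `(a, b)`. -/
noncomputable def mk2 (a b : ℕ) : Fin 2 →₀ ℕ := Finsupp.single 0 a + Finsupp.single 1 b

@[simp] theorem mk2_zero (a b : ℕ) : mk2 a b 0 = a := by simp [mk2]
@[simp] theorem mk2_one (a b : ℕ) : mk2 a b 1 = b := by simp [mk2]

theorem eq_mk2 (e : Fin 2 →₀ ℕ) : e = mk2 (e 0) (e 1) := by
  ext i; fin_cases i <;> simp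

theorem mk2_succ_left (a b : ℕ) : mk2 (a + 1) b = Finsupp.single 0 1 + mk2 a b := by
  ext i; fin_cases i <;> simp [add_comm]

theorem mk2_succ_right (a b : ℕ) : mk2 a (b + 1) = Finsupp.single 1 1 + mk2 a b := by
  ext i; fin_cases i <;> simp [add_comm]

theorem coeff_X0_mul_succ (φ : MvPowerSeries (Fin 2) W) (a b : ℕ) :
    coeff (mk2 (a + 1) b) (X 0 * φ) = coeff (mk2 a b) φ := by
  rw [mk2_succ_left, X, coeff_add_monomial_mul, one_mul]

theorem coeff_X0_mul_zero (φ : MvPowerSeries (Fin 2) W) (b : ℕ) :
    coeff (mk2 0 b) (X 0 * φ) = 0 := by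
  rw [X, coeff_monomial_mul, if_neg]
  rw [Finsupp.single_le_iff]
  simp

theorem coeff_X1_mul_succ (φ : MvPowerSeries (Fin 2) W) (a b : ℕ) :
    coeff (mk2 a (b + 1)) (X 1 * φ) = coeff (mk2 a b) φ := by
  rw [mk2_succ_right, X, coeff_add_monomial_mul, one_mul]

theorem coeff_X1_mul_zero (φ : MvPowerSeries (Fin 2) W) (a : ℕ) :
    coeff (mk2 a 0) (X 1 * φ) = 0 := by
  rw [X, coeff_monomial_mul, if_neg]
  rw [Finsupp.single_le_iff]
  simp

/-- `X₀ - X₁` is a non-zero-divisor. -/
theorem eq_zero_of_X0_sub_X1_mul_eq_zero {φ : MvPowerSeries (Fin 2) W}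
    (h : (X 0 - X 1) * φ = 0) : φ = 0 := by
  have key : ∀ b a : ℕ, coeff (mk2 a b) φ = 0 := by
    intro b
    induction b with
    | zero =>
      intro a
      have := congrArg (coeff (mk2 (a + 1) 0)) h
      rwa [sub_mul, map_sub, coeff_X0_mul_succ, coeff_X1_mul_zero, sub_zero, map_zero] at this
    | succ b ih =>
      intro a
      have := congrArg (coeff (mk2 (a + 1) (b + 1))) h
      rw [sub_mul, map_sub, coeff_X0_mul_succ, coeff_X1_mul_succ, ih (a + 1), sub_zero,
        map_zero] at this
      exact this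
  ext e
  rw [eq_mk2 e, key, map_zero]

theorem X0_sub_X1_mul_cancel {φ ψ : MvPowerSeries (Fin 2) W}
    (h : (X 0 - X 1) * φ = (X 0 - X 1) * ψ) : φ = ψ := by
  have : (X 0 - X 1 : MvPowerSeries (Fin 2) W) * (φ - ψ) = 0 := by rw [mul_sub, h, sub_self]
  exact sub_eq_zero.mp (eq_zero_of_X0_sub_X1_mul_eq_zero this)

/-- `dd f` is characterised by `dd_spec`. -/
theorem dd_unique {f : PowerSeries W} {φ : MvPowerSeries (Fin 2) W}
    (h : PowerSeries.subst (X 0 : MvPowerSeries (Fin 2) W) f -
        PowerSeries.subst (X 1 : MvPowerSeries (Fin 2) W) f = (X 0 - X 1) * φ) : φ = dd f :=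
  X0_sub_X1_mul_cancel (h.symm.trans (dd_spec f))

/-! ### **(D4)** special values and the product rule -/

theorem dd_C (a : W) : dd (PowerSeries.C a) = 0 := by
  ext e
  rw [coeff_dd, PowerSeries.coeff_C, if_neg (by omega), map_zero]

theorem dd_one : dd (1 : PowerSeries W) = 0 := by
  rw [← map_one PowerSeries.C, dd_C]

theorem dd_X : dd (PowerSeries.X : PowerSeries W) = 1 := by
  classical
  ext e
  rw [coeff_dd, PowerSeries.coeff_X, MvPowerSeries.coeff_one]
  by_cases h : e = 0
  · subst h; simp
  · rw [if_neg h, if_neg]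
    intro h'
    apply h
    rw [eq_mk2 e]
    ext i
    fin_cases i
    · simp; omega
    · simp; omega

/-- The product rule. -/
theorem dd_mul (f g : PowerSeries W) :
    dd (f * g) = PowerSeries.subst (X 0 : MvPowerSeries (Fin 2) W) f * dd g +
      dd f * PowerSeries.subst (X 1 : MvPowerSeries (Fin 2) W) g := by
  symm
  apply dd_unique
  rw [PowerSeries.subst_mul (PowerSeries.HasSubst.X _), PowerSeries.subst_mul (PowerSeries.HasSubst.X _)]
  have h1 := dd_spec f
  have h2 := dd_spec g
  linear_combination (PowerSeries.subst (X 0 : MvPowerSeries (Fin 2) W) f) * h2 +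
    (PowerSeries.subst (X 1 : MvPowerSeries (Fin 2) W) g) * h1

theorem dd_X_mul (f : PowerSeries W) :
    dd (PowerSeries.X * f) = PowerSeries.subst (X 0 : MvPowerSeries (Fin 2) W) f + X 1 * dd f := by
  rw [mul_comm, dd_mul, dd_X, mul_one, PowerSeries.subst_X (PowerSeries.HasSubst.X _), mul_comm (dd f)]

/-- Functoriality in the coefficient ring. -/
theorem dd_map {W' : Type*} [CommRing W'] (φ : W →+* W') (f : PowerSeries W) :
    dd (PowerSeries.map φ f) = MvPowerSeries.map φ (dd f) := by
  ext e
  simp


/-! ### **(D5)** the diagonal -/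

theorem hasSubst_diag :
    MvPowerSeries.HasSubst (fun _ : Fin 2 => (PowerSeries.X : PowerSeries W)) :=
  MvPowerSeries.hasSubst_of_constantCoeff_zero fun _ => PowerSeries.constantCoeff_X

/-- The diagonal value `dd f (X, X)`. -/
noncomputable def diag (f : PowerSeries W) : PowerSeries W :=
  MvPowerSeries.subst (fun _ : Fin 2 => (PowerSeries.X : PowerSeries W)) (dd f)

theorem diag_add (f g : PowerSeries W) : diag (f + g) = diag f + diag g := by
  rw [diag, dd_add, MvPowerSeries.subst_add hasSubst_diag]; rfl

theorem diag_C (a : W) : diag (PowerSeries.C a) = 0 := by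
  rw [diag, dd_C, ← MvPowerSeries.coe_substAlgHom hasSubst_diag, map_zero]

theorem diag_X_mul (f : PowerSeries W) : diag (PowerSeries.X * f) = f + PowerSeries.X * diag f := by
  rw [diag, dd_X_mul, MvPowerSeries.subst_add hasSubst_diag, MvPowerSeries.subst_mul hasSubst_diag,
    MvPowerSeries.subst_X hasSubst_diag]
  congr 1
  rw [PowerSeries.subst_def, MvPowerSeries.subst_comp_subst_apply
    (PowerSeries.HasSubst.X (0 : Fin 2)).const hasSubst_diag]
  simp only [MvPowerSeries.subst_X hasSubst_diag]
  exact PowerSeries.X_subst f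

/-- **(D5)** `dd f (X, X) = f'`. -/
theorem diag_shift (f : PowerSeries W) :
    diag f = (PowerSeries.mk fun p => PowerSeries.coeff (p + 1) f) +
      PowerSeries.X * diag (PowerSeries.mk fun p => PowerSeries.coeff (p + 1) f) := by
  conv_lhs => rw [PowerSeries.eq_X_mul_shift_add_const f]
  rw [diag_add, diag_C, diag_X_mul, add_zero]

theorem derivative_shift (f : PowerSeries W) :
    PowerSeries.derivative W f = (PowerSeries.mk fun p => PowerSeries.coeff (p + 1) f) +
      PowerSeries.X * PowerSeries.derivative W (PowerSeries.mk fun p => PowerSeries.coeff (p + 1) f) := by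
  conv_lhs => rw [PowerSeries.eq_X_mul_shift_add_const f]
  rw [map_add, (PowerSeries.derivative W).leibniz, PowerSeries.derivative_C,
    PowerSeries.derivative_X, add_zero, smul_eq_mul, smul_eq_mul, mul_one, add_comm]

/-- **(D5)** `dd f (X, X) = f'`. -/
theorem diag_eq_derivative (f : PowerSeries W) : diag f = PowerSeries.derivative W f := by
  have key : ∀ (n : ℕ) (f : PowerSeries W),
      PowerSeries.coeff n (diag f) = PowerSeries.coeff n (PowerSeries.derivative W f) := by
    intro n
    induction n with
    | zero =>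
      intro f
      rw [diag_shift, derivative_shift, map_add, map_add, PowerSeries.coeff_zero_X_mul,
        PowerSeries.coeff_zero_X_mul]
    | succ n ih =>
      intro f
      rw [diag_shift, derivative_shift, map_add, map_add, PowerSeries.coeff_succ_X_mul,
        PowerSeries.coeff_succ_X_mul, ih]
  ext n
  exact key n f

theorem subst_diag_dd (f : PowerSeries W) :
    MvPowerSeries.subst (fun _ : Fin 2 => (PowerSeries.X : PowerSeries W)) (dd f) =
      PowerSeries.derivative W f := diag_eq_derivative f


/-! ### **(D6)**, **(D7)**: the evaluated forms -/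

section Eval

variable {W : Type*} [CommRing W] [UniformSpace W] [DiscreteUniformity W]
  {O : Type*} [CommRing O] [UniformSpace O] [IsUniformAddGroup O] [IsTopologicalRing O]
  [IsLinearTopology O O] [T2Space O] [CompleteSpace O] [Algebra W O] [ContinuousSMul W O]

/-- A pair of topologically nilpotent elements can be substituted into a power series in two
variables. -/
theorem hasEval_pair {x y : O} (hx : IsTopologicallyNilpotent x)
    (hy : IsTopologicallyNilpotent y) : MvPowerSeries.HasEval ![x, y] where
  hpow s := by fin_cases s <;> simpa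
  tendsto_zero := by simp [Filter.cofinite_eq_bot]

theorem aeval_X_pair {x y : O} (hx : IsTopologicallyNilpotent x)
    (hy : IsTopologicallyNilpotent y) (i : Fin 2) :
    MvPowerSeries.aeval (hasEval_pair hx hy) (X i : MvPowerSeries (Fin 2) W) = ![x, y] i := by
  rw [MvPowerSeries.coe_aeval, MvPowerSeries.eval₂_X]

theorem aeval_congr {σ : Type*} {a b : σ → O} (h : a = b) (ha : MvPowerSeries.HasEval a)
    (hb : MvPowerSeries.HasEval b) :
    (MvPowerSeries.aeval ha : MvPowerSeries σ W →ₐ[W] O) = MvPowerSeries.aeval hb := by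
  subst h; rfl

theorem aeval_subst_X_pair {x y : O} (hx : IsTopologicallyNilpotent x)
    (hy : IsTopologicallyNilpotent y) (i : Fin 2) (hi : IsTopologicallyNilpotent (![x, y] i))
    (f : PowerSeries W) :
    MvPowerSeries.aeval (hasEval_pair hx hy) (PowerSeries.subst (X i : MvPowerSeries (Fin 2) W) f) =
      PowerSeries.aeval hi f := by
  rw [PowerSeries.subst_def, MvPowerSeries.comp_subst_apply (PowerSeries.HasSubst.X i).const
    (MvPowerSeries.continuous_aeval (hasEval_pair hx hy))]
  unfold PowerSeries.aeval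
  exact DFunLike.congr_fun (aeval_congr (funext fun _ => aeval_X_pair hx hy i) _ _) f

/-- **(D6)** the evaluated form of `dd_spec`. -/
theorem aeval_sub_aeval {x y : O} (hx : IsTopologicallyNilpotent x)
    (hy : IsTopologicallyNilpotent y) (f : PowerSeries W) :
    PowerSeries.aeval hx f - PowerSeries.aeval hy f =
      (x - y) * MvPowerSeries.aeval (hasEval_pair hx hy) (dd f) := by
  have h := congrArg (MvPowerSeries.aeval (hasEval_pair hx hy)) (dd_spec f)
  rw [map_sub, map_mul, map_sub, aeval_X_pair hx hy 0, aeval_X_pair hx hy 1,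
    aeval_subst_X_pair hx hy 0 hx, aeval_subst_X_pair hx hy 1 hy] at h
  exact h

/-! ### Units in complete linearly topologised rings -/

omit [UniformSpace W] [DiscreteUniformity W] [Algebra W O] [ContinuousSMul W O]
  [IsUniformAddGroup O] [T2Space O] [CompleteSpace O] in
/-- A linearly topologised ring is nonarchimedean. -/
theorem nonarchimedeanAddGroup_of_isLinearTopology : NonarchimedeanAddGroup O where
  is_nonarchimedean U hU := by
    obtain ⟨I, hI, hIU⟩ := (IsLinearTopology.hasBasis_open_ideal (R := O)).mem_iff.mp hU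
    exact ⟨⟨I.toAddSubgroup, hI⟩, hIU⟩

omit [UniformSpace W] [DiscreteUniformity W] [Algebra W O] [ContinuousSMul W O] in
/-- `1 - x` is a unit when `x` is topologically nilpotent (geometric series). -/
theorem isUnit_one_sub_of_isTopologicallyNilpotent {x : O} (hx : IsTopologicallyNilpotent x) :
    IsUnit (1 - x) := by
  have : NonarchimedeanAddGroup O := nonarchimedeanAddGroup_of_isLinearTopology
  have hs : Summable (x ^ · : ℕ → O) :=
    NonarchimedeanAddGroup.summable_of_tendsto_cofinite_zero
      (by rw [Nat.cofinite_eq_atTop]; exact hx)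
  exact ⟨⟨1 - x, ∑' i, x ^ i, hs.one_sub_mul_tsum_pow, hs.tsum_pow_mul_one_sub⟩, rfl⟩

omit [UniformSpace W] [DiscreteUniformity W] [Algebra W O] [ContinuousSMul W O] in
/-- unit `+` topologically nilpotent `=` unit. -/
theorem isUnit_add_of_isTopologicallyNilpotent {u x : O} (hu : IsUnit u)
    (hx : IsTopologicallyNilpotent x) : IsUnit (u + x) := by
  obtain ⟨v, rfl⟩ := hu
  have h1 : IsTopologicallyNilpotent (-(↑v⁻¹ * x)) := by
    rw [neg_eq_neg_one_mul]
    exact (hx.mul_left _).mul_left _
  have h2 := isUnit_one_sub_of_isTopologicallyNilpotent h1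
  have : (v : O) + x = v * (1 - -(↑v⁻¹ * x)) := by
    rw [sub_neg_eq_add, mul_add, mul_one, ← mul_assoc, Units.mul_inv, one_mul]
  rw [this]
  exact v.isUnit.mul h2

/-- The value of a power series without constant term at topologically nilpotent elements is
topologically nilpotent. -/
theorem isTopologicallyNilpotent_aeval {σ : Type*} {θ : σ → O} (hθ : MvPowerSeries.HasEval θ)
    {g : MvPowerSeries σ W} (hg : MvPowerSeries.constantCoeff g = 0) :
    IsTopologicallyNilpotent (MvPowerSeries.aeval hθ g) := by
  open MvPowerSeries.WithPiTopology in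
  exact IsTopologicallyNilpotent.map (MvPowerSeries.continuous_aeval hθ)
    (MvPowerSeries.WithPiTopology.isTopologicallyNilpotent_of_constantCoeff_zero hg)

/-- The value of `dd f` at a pair of topologically nilpotent elements is a unit as soon as the
linear coefficient of `f` is. -/
theorem isUnit_aeval_dd {x y : O} (hx : IsTopologicallyNilpotent x)
    (hy : IsTopologicallyNilpotent y) (f : PowerSeries W)
    (h1 : IsUnit (algebraMap W O (PowerSeries.coeff 1 f))) :
    IsUnit (MvPowerSeries.aeval (hasEval_pair hx hy) (dd f)) := by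
  have hg : MvPowerSeries.constantCoeff (dd f - MvPowerSeries.C (PowerSeries.coeff 1 f)) = 0 := by
    rw [map_sub, constantCoeff_dd, MvPowerSeries.constantCoeff_C, sub_self]
  have h2 := isTopologicallyNilpotent_aeval (hasEval_pair hx hy) hg
  have h3 : MvPowerSeries.aeval (hasEval_pair hx hy) (dd f) =
      algebraMap W O (PowerSeries.coeff 1 f) +
        MvPowerSeries.aeval (hasEval_pair hx hy)
          (dd f - MvPowerSeries.C (PowerSeries.coeff 1 f)) := by
    rw [map_sub, MvPowerSeries.c_eq_algebraMap, AlgHom.commutes]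
    ring
  rw [h3]
  exact isUnit_add_of_isTopologicallyNilpotent h1 h2

/-- **(D7)** a power series with unit linear coefficient is injective on topologically nilpotent
elements; in particular it has at most one topologically nilpotent zero. -/
theorem eq_of_aeval_eq {x y : O} (hx : IsTopologicallyNilpotent x)
    (hy : IsTopologicallyNilpotent y) (f : PowerSeries W)
    (h1 : IsUnit (algebraMap W O (PowerSeries.coeff 1 f)))
    (h : PowerSeries.aeval hx f = PowerSeries.aeval hy f) : x = y := by
  have h2 := aeval_sub_aeval hx hy f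
  rw [h, sub_self] at h2
  have h3 := (isUnit_aeval_dd hx hy f h1).mul_left_eq_zero.mp h2.symm
  exact sub_eq_zero.mp h3

theorem eq_of_aeval_eq_zero {x y : O} (hx : IsTopologicallyNilpotent x)
    (hy : IsTopologicallyNilpotent y) (f : PowerSeries W)
    (h1 : IsUnit (algebraMap W O (PowerSeries.coeff 1 f)))
    (h0 : PowerSeries.aeval hx f = 0) (h0' : PowerSeries.aeval hy f = 0) : x = y :=
  eq_of_aeval_eq hx hy f h1 (h0.trans h0'.symm)

end Eval

end Fermat.Agent.FF.FAM.DivDiff4
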