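/-
Programme FF (S19), chapter FAM (F5 FAMILY), helper3: NILPOTENT EVALUATION TOOLKIT.

`nilEval θ hθ : MvPowerSeries σ W →ₐ[W] O` evaluates a multivariate power series with coefficients
in `W` at a family `θ : σ → O` of NILPOTENT elements of a `W`-algebra `O` (`σ` finite).  No topology,
no completeness: it is Mathlib's substitution into `MvPowerSeries Empty O` followed by the constant
coefficient.  One-variable version `nilEval₁ z hz : PowerSeries W →ₐ[W] O`.
-/
import Mathlib
import Fermat.Agent.FF.FAM.FormalIFT8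

set_option autoImplicit false

open MvPowerSeries

namespace Fermat.Agent.FF.FAM.NilEval3

open Fermat.Agent.FF.FAM.FormalIFT8 (Fil fil_one_iff)

variable {W : Type*} [CommRing W] {O : Type*} [CommRing O] [Algebra W O]
variable {σ : Type*} [Finite σ] {τ : Type*} [Finite τ]

/-! ### power series in no variables -/

theorem eq_C_constantCoeff (g : MvPowerSeries Empty O) :
    g = MvPowerSeries.C (constantCoeff g) := by
  ext e
  have he : e = 0 := Subsingleton.elim _ _
  subst he
  simp

/-- the constant coefficient of a power series in no variables, as a `W`-algebra hom. -/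
noncomputable def ccAlg : MvPowerSeries Empty O →ₐ[W] O :=
  { (constantCoeff : MvPowerSeries Empty O →+* O) with
    commutes' := fun w => by
      simp [MvPowerSeries.algebraMap_apply] }

@[simp] theorem ccAlg_apply (g : MvPowerSeries Empty O) :
    (ccAlg (W := W) g : O) = constantCoeff g := rfl

/-- the constant family attached to `θ`. -/
noncomputable def cst (θ : σ → O) : σ → MvPowerSeries Empty O :=
  fun s => MvPowerSeries.C (θ s)

theorem hasSubst_cst (θ : σ → O) (hθ : ∀ s, IsNilpotent (θ s)) : HasSubst (cst θ) :=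
  hasSubst_of_constantCoeff_nilpotent (fun s => by simpa [cst] using hθ s)

/-- **(N1)** evaluation of a power series at a finite family of nilpotent elements. -/
noncomputable def nilEval (θ : σ → O) (hθ : ∀ s, IsNilpotent (θ s)) :
    MvPowerSeries σ W →ₐ[W] O :=
  (ccAlg (W := W)).comp (substAlgHom (R := W) (hasSubst_cst θ hθ))

theorem nilEval_apply (θ : σ → O) (hθ : ∀ s, IsNilpotent (θ s)) (f : MvPowerSeries σ W) :
    nilEval θ hθ f = constantCoeff (subst (cst θ) f) := by
  unfold nilEval
  rw [AlgHom.comp_apply, substAlgHom_apply, ccAlg_apply]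

theorem subst_cst_eq (θ : σ → O) (hθ : ∀ s, IsNilpotent (θ s)) (f : MvPowerSeries σ W) :
    subst (cst θ) f = MvPowerSeries.C (nilEval θ hθ f) := by
  rw [nilEval_apply]
  exact eq_C_constantCoeff _

/-- **(N2)** -/
@[simp] theorem nilEval_X (θ : σ → O) (hθ : ∀ s, IsNilpotent (θ s)) (s : σ) :
    nilEval θ hθ (X s : MvPowerSeries σ W) = θ s := by
  rw [nilEval_apply, subst_X (hasSubst_cst θ hθ)]
  simp [cst]

@[simp] theorem nilEval_C (θ : σ → O) (hθ : ∀ s, IsNilpotent (θ s)) (w : W) :
    nilEval θ hθ (MvPowerSeries.C w : MvPowerSeries σ W) = algebraMap W O w := by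
  have : (MvPowerSeries.C w : MvPowerSeries σ W) = algebraMap W (MvPowerSeries σ W) w := by
    simp [MvPowerSeries.algebraMap_apply]
  rw [this, AlgHom.commutes]

theorem nilEval_coe (θ : σ → O) (hθ : ∀ s, IsNilpotent (θ s)) (p : MvPolynomial σ W) :
    nilEval θ hθ (p : MvPowerSeries σ W) = MvPolynomial.aeval θ p := by
  rw [nilEval_apply, subst_coe]
  have h : ((ccAlg (W := W) (O := O)).comp (MvPolynomial.aeval (cst θ)))
      = MvPolynomial.aeval θ := by
    apply MvPolynomial.algHom_ext
    intro s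
    simp [cst]
  have := DFunLike.congr_fun h p
  simpa using this

/-- the general finite-sum formula. -/
theorem nilEval_eq_finsum (θ : σ → O) (hθ : ∀ s, IsNilpotent (θ s)) (f : MvPowerSeries σ W) :
    nilEval θ hθ f = ∑ᶠ d : σ →₀ ℕ, coeff d f • d.prod (fun s e => θ s ^ e) := by
  rw [nilEval_apply, MvPowerSeries.constantCoeff_subst (hasSubst_cst θ hθ)]
  apply finsum_congr
  intro d
  congr 1
  simp [cst, Finsupp.prod, map_prod]

theorem hasFiniteSupport_term (θ : σ → O) (hθ : ∀ s, IsNilpotent (θ s))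
    (f : MvPowerSeries σ W) :
    (Function.support fun d : σ →₀ ℕ => coeff d f • d.prod (fun s e => θ s ^ e)).Finite := by
  have h := coeff_subst_finite (R := W) (hasSubst_cst θ hθ) f (0 : Empty →₀ ℕ)
  have e : (fun d : σ →₀ ℕ => coeff d f • d.prod (fun s e => θ s ^ e))
      = fun d => coeff d f • coeff (0 : Empty →₀ ℕ) (d.prod fun s e => (cst θ s) ^ e) := by
    funext d
    congr 1
    simp [cst, Finsupp.prod, map_prod]
  rw [e]
  exact h

/-- **(N6)** functoriality. -/
theorem map_nilEval {O' : Type*} [CommRing O'] [Algebra W O'] (φ : O →ₐ[W] O') (θ : σ → O)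
    (hθ : ∀ s, IsNilpotent (θ s)) (f : MvPowerSeries σ W) :
    φ (nilEval θ hθ f) = nilEval (fun s => φ (θ s)) (fun s => (hθ s).map φ) f := by
  rw [nilEval_eq_finsum, nilEval_eq_finsum]
  have h := AddMonoidHom.map_finsum (φ : O →+ O') (hasFiniteSupport_term θ hθ f)
  simp only [AddMonoidHom.coe_coe] at h
  rw [h]
  apply finsum_congr
  intro d
  rw [map_smul]
  congr 1
  simp [Finsupp.prod, map_prod]

/-- **(N4)** ideal estimate. -/
theorem nilEval_mem_pow (θ : σ → O) (hθ : ∀ s, IsNilpotent (θ s)) (𝔞 : Ideal O)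
    (h𝔞 : ∀ s, θ s ∈ 𝔞) {n : ℕ} {f : MvPowerSeries σ W} (hf : Fil n f) :
    nilEval θ hθ f ∈ 𝔞 ^ n := by
  classical
  rw [nilEval_eq_finsum]
  apply finsum_induction (p := fun x => x ∈ 𝔞 ^ n)
  · exact Ideal.zero_mem _
  · intro x y hx hy; exact Ideal.add_mem _ hx hy
  · intro d
    by_cases hd : d.degree < n
    · rw [hf d hd, zero_smul]; exact Ideal.zero_mem _
    · have hdn : n ≤ d.degree := not_lt.1 hd
      have hprod : d.prod (fun s e => θ s ^ e) ∈ 𝔞 ^ d.degree := by
        rw [Finsupp.degree_apply, Finsupp.prod, ← Finset.prod_pow_eq_pow_sum]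
        exact Ideal.prod_mem_prod (fun s _ => Ideal.pow_mem_pow (h𝔞 s) _)
      have := Ideal.pow_le_pow_right hdn hprod
      rw [Algebra.smul_def]
      exact Ideal.mul_mem_left _ _ this

theorem nilEval_mem_span (θ : σ → O) (hθ : ∀ s, IsNilpotent (θ s)) {f : MvPowerSeries σ W}
    (hf : constantCoeff f = 0) : nilEval θ hθ f ∈ Ideal.span (Set.range θ) := by
  have := nilEval_mem_pow θ hθ (Ideal.span (Set.range θ))
    (fun s => Ideal.subset_span ⟨s, rfl⟩) (fil_one_iff.2 hf)
  simpa using this

theorem isNilpotent_nilEval (θ : σ → O) (hθ : ∀ s, IsNilpotent (θ s)) {f : MvPowerSeries σ W}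
    (hf : constantCoeff f = 0) : IsNilpotent (nilEval θ hθ f) := by
  rw [nilEval_apply]
  apply IsNilpotent_subst (hasSubst_cst θ hθ)
  rw [hf]
  exact IsNilpotent.zero

theorem isNilpotent_nilEval_sub (θ : σ → O) (hθ : ∀ s, IsNilpotent (θ s))
    (f : MvPowerSeries σ W) :
    IsNilpotent (nilEval θ hθ f - algebraMap W O (constantCoeff f)) := by
  have h : nilEval θ hθ f - algebraMap W O (constantCoeff f)
      = nilEval θ hθ (f - MvPowerSeries.C (constantCoeff f)) := by
    rw [map_sub, nilEval_C]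
  rw [h]
  apply isNilpotent_nilEval
  simp

theorem isUnit_nilEval (θ : σ → O) (hθ : ∀ s, IsNilpotent (θ s)) {f : MvPowerSeries σ W}
    (hf : IsUnit (algebraMap W O (constantCoeff f))) : IsUnit (nilEval θ hθ f) := by
  have h := isNilpotent_nilEval_sub θ hθ f
  have e : nilEval θ hθ f = algebraMap W O (constantCoeff f)
      + (nilEval θ hθ f - algebraMap W O (constantCoeff f)) := by ring
  rw [e]
  exact h.isUnit_add_left_of_commute hf (Commute.all _ _)

/-- **(N5)** composition. -/
theorem nilEval_subst (θ : σ → O) (hθ : ∀ s, IsNilpotent (θ s)) (a : τ → MvPowerSeries σ W)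
    (ha : ∀ t, constantCoeff (a t) = 0) (f : MvPowerSeries τ W) :
    nilEval θ hθ (subst a f) =
      nilEval (fun t => nilEval θ hθ (a t)) (fun t => isNilpotent_nilEval θ hθ (ha t)) f := by
  have hsa : HasSubst a := hasSubst_of_constantCoeff_zero ha
  have h1 : subst (cst θ) (subst a f) = subst (fun t => subst (cst θ) (a t)) f :=
    subst_comp_subst_apply hsa (hasSubst_cst θ hθ) f
  have h2 : (fun t => subst (cst θ) (a t)) = cst (fun t => nilEval θ hθ (a t)) := by
    funext t
    exact subst_cst_eq θ hθ (a t)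
  rw [nilEval_apply, h1, h2, ← nilEval_apply]

/-! ### (N3) finite formulas -/

/-- a series all of whose low-degree coefficients vanish evaluates to `0` as soon as all
high-degree monomials in `θ` vanish. -/
theorem nilEval_eq_zero_of_fil (θ : σ → O) (hθ : ∀ s, IsNilpotent (θ s)) {N : ℕ}
    (hN : ∀ d : σ →₀ ℕ, N ≤ d.degree → d.prod (fun s e => θ s ^ e) = 0)
    {f : MvPowerSeries σ W} (hf : Fil N f) : nilEval θ hθ f = 0 := by
  rw [nilEval_eq_finsum]
  apply finsum_eq_zero_of_forall_eq_zero
  intro d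
  by_cases hd : d.degree < N
  · rw [hf d hd, zero_smul]
  · rw [hN d (not_lt.1 hd), smul_zero]

theorem fil_sub_truncTotal (N : ℕ) (f : MvPowerSeries σ W) :
    Fil N (f - ((truncTotal N f : MvPolynomial σ W) : MvPowerSeries σ W)) := by
  intro d hd
  rw [map_sub, MvPolynomial.coeff_coe, coeff_truncTotal _ hd, sub_self]

/-- **(N3)** if all monomials of degree `≥ N` in `θ` vanish, evaluation is the polynomial
evaluation of the total-degree truncation. -/
theorem nilEval_eq_aeval_truncTotal (θ : σ → O) (hθ : ∀ s, IsNilpotent (θ s)) {N : ℕ}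
    (hN : ∀ d : σ →₀ ℕ, N ≤ d.degree → d.prod (fun s e => θ s ^ e) = 0)
    (f : MvPowerSeries σ W) :
    nilEval θ hθ f = MvPolynomial.aeval θ (truncTotal N f) := by
  have h := nilEval_eq_zero_of_fil θ hθ hN (fil_sub_truncTotal N f)
  rw [map_sub, sub_eq_zero, nilEval_coe] at h
  exact h

omit [Finite σ] in
/-- the hypothesis of (N3) from an ideal: `θ s ∈ 𝔞` and `𝔞 ^ N = ⊥`. -/
theorem prod_eq_zero_of_mem_of_pow_eq_bot (θ : σ → O) (𝔞 : Ideal O) (h𝔞 : ∀ s, θ s ∈ 𝔞)
    {N : ℕ} (hN : 𝔞 ^ N = ⊥) (d : σ →₀ ℕ) (hd : N ≤ d.degree) :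
    d.prod (fun s e => θ s ^ e) = 0 := by
  have hprod : d.prod (fun s e => θ s ^ e) ∈ 𝔞 ^ d.degree := by
    rw [Finsupp.degree_apply, Finsupp.prod, ← Finset.prod_pow_eq_pow_sum]
    exact Ideal.prod_mem_prod (fun s _ => Ideal.pow_mem_pow (h𝔞 s) _)
  have := Ideal.pow_le_pow_right hd hprod
  rw [hN] at this
  simpa using this

/-- congruence in the point. -/
theorem nilEval_congr {θ θ' : σ → O} (h : θ = θ') (hθ : ∀ s, IsNilpotent (θ s))
    (hθ' : ∀ s, IsNilpotent (θ' s)) (f : MvPowerSeries σ W) :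
    nilEval θ hθ f = nilEval θ' hθ' f := by
  subst h; rfl

/-! ### one variable -/

/-- **(N1), one variable** evaluation of a one-variable power series at a nilpotent element. -/
noncomputable def nilEval₁ (z : O) (hz : IsNilpotent z) : PowerSeries W →ₐ[W] O :=
  nilEval (σ := Unit) (fun _ => z) (fun _ => hz)

theorem nilEval₁_congr {z z' : O} (h : z = z') (hz : IsNilpotent z) (hz' : IsNilpotent z')
    (f : PowerSeries W) : nilEval₁ z hz f = nilEval₁ z' hz' f := by
  subst h; rfl

@[simp] theorem nilEval₁_X (z : O) (hz : IsNilpotent z) :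
    nilEval₁ z hz (PowerSeries.X : PowerSeries W) = z :=
  nilEval_X (σ := Unit) (fun _ => z) (fun _ => hz) ()

@[simp] theorem nilEval₁_C (z : O) (hz : IsNilpotent z) (w : W) :
    nilEval₁ z hz (PowerSeries.C w : PowerSeries W) = algebraMap W O w :=
  nilEval_C (σ := Unit) (fun _ => z) (fun _ => hz) w

theorem nilEval₁_coe (z : O) (hz : IsNilpotent z) (p : Polynomial W) :
    nilEval₁ z hz (p : PowerSeries W) = Polynomial.aeval z p := by
  have h : ((nilEval₁ z hz : PowerSeries W →ₐ[W] O) : PowerSeries W →+* O).comp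
      (Polynomial.coeToPowerSeries.ringHom (R := W))
      = ((Polynomial.aeval z : Polynomial W →ₐ[W] O) : Polynomial W →+* O) := by
    apply Polynomial.ringHom_ext
    · intro a
      simp
    · simp
  have := DFunLike.congr_fun h p
  simpa using this

theorem isNilpotent_nilEval₁ (z : O) (hz : IsNilpotent z) {f : PowerSeries W}
    (hf : PowerSeries.constantCoeff f = 0) : IsNilpotent (nilEval₁ z hz f) :=
  isNilpotent_nilEval (σ := Unit) (fun _ => z) (fun _ => hz) hf

theorem isUnit_nilEval₁ (z : O) (hz : IsNilpotent z) {f : PowerSeries W}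
    (hf : IsUnit (algebraMap W O (PowerSeries.constantCoeff f))) : IsUnit (nilEval₁ z hz f) :=
  isUnit_nilEval (σ := Unit) (fun _ => z) (fun _ => hz) hf

/-- **(N5), one-variable form**: evaluate a one-variable series at a multivariate series without
constant term, then at `θ`. -/
theorem nilEval_powerSeries_subst (θ : σ → O) (hθ : ∀ s, IsNilpotent (θ s))
    (ζ : MvPowerSeries σ W) (hζ : constantCoeff ζ = 0) (f : PowerSeries W) :
    nilEval θ hθ (PowerSeries.subst ζ f) =
      nilEval₁ (nilEval θ hθ ζ) (isNilpotent_nilEval θ hθ hζ) f :=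
  nilEval_subst (τ := Unit) θ hθ (fun _ => ζ) (fun _ => hζ) f

theorem nilEval_powerSeries_subst_X (θ : σ → O) (hθ : ∀ s, IsNilpotent (θ s)) (s : σ)
    (f : PowerSeries W) :
    nilEval θ hθ (PowerSeries.subst (X s : MvPowerSeries σ W) f) = nilEval₁ (θ s) (hθ s) f := by
  rw [nilEval_powerSeries_subst θ hθ (X s) (by simp)]
  exact nilEval₁_congr (nilEval_X θ hθ s) _ _ f

/-- **(N3), one variable**: `z ^ N = 0 ⇒ nilEval₁ z f = ∑ n < N, coeff n f • z ^ n`. -/
theorem nilEval₁_eq_sum (z : O) (hz : IsNilpotent z) {N : ℕ} (hN : z ^ N = 0)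
    (f : PowerSeries W) :
    nilEval₁ z hz f = ∑ n ∈ Finset.range N, PowerSeries.coeff n f • z ^ n := by
  have hdvd : (PowerSeries.X : PowerSeries W) ^ N ∣ f - (PowerSeries.trunc N f : PowerSeries W) := by
    rw [PowerSeries.X_pow_dvd_iff]
    intro m hm
    rw [map_sub, Polynomial.coeff_coe, PowerSeries.coeff_trunc, if_pos hm, sub_self]
  obtain ⟨g, hg⟩ := hdvd
  have h1 : nilEval₁ z hz (f - (PowerSeries.trunc N f : PowerSeries W)) = 0 := by
    rw [hg, map_mul, map_pow, nilEval₁_X, hN, zero_mul]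
  rw [map_sub, sub_eq_zero, nilEval₁_coe] at h1
  rw [h1, PowerSeries.trunc_apply, map_sum, Nat.Ico_zero_eq_range]
  apply Finset.sum_congr rfl
  intro n _
  rw [Polynomial.aeval_monomial, Algebra.smul_def]

end Fermat.Agent.FF.FAM.NilEval3
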