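/-
PROGRAMME FF (S19), chapter F5 FAMILY, brick (D') instantiated (helper4): **evaluated divided
differences at nilpotent points**, literal `NilEval3.nilEval` forms of `DivDiffNil4`.

For nilpotent `x y : O` (`O` a `W`-algebra) and `f : PowerSeries W`:

* (D6') `nilEval₁_sub_nilEval₁` : `f(x) - f(y) = (x - y) * nilEval ![x, y] (dd f)`;
* `isUnit_sum_nilEval_dd` : `Σ_j μ j * nilEval ![x, y] (dd (f j))` is a unit as soon as
  `Σ_j μ j * (f j)_1` is;
* (D7') `eq_of_sum_nilEval₁_eq(_zero)` : UNIQUE NILPOTENT ROOT, linear-combination form;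
  `eq_of_nilEval₁_eq(_zero)` : single function form (`f_1` a unit, `f(x) = f(y)` ⇒ `x = y`).
-/
import Mathlib
import Fermat.Agent.FF.FAM.DivDiffNil4
import Fermat.Agent.FF.FAM.NilEval3

set_option autoImplicit false
set_option linter.unusedSectionVars false

namespace Fermat.Agent.FF.FAM.DivDiffNilInst4

open MvPowerSeries Fermat.Agent.FF.FAM.DivDiff4 Fermat.Agent.FF.FAM.DivDiffNil4
  Fermat.Agent.FF.FAM.NilEval3

variable {W O : Type*} [CommRing W] [CommRing O] [Algebra W O]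

theorem isNilpotent_pair {x y : O} (hx : IsNilpotent x) (hy : IsNilpotent y) :
    ∀ i : Fin 2, IsNilpotent (![x, y] i) := by
  intro i
  fin_cases i
  · exact hx
  · exact hy

/-- the two-point evaluation `g ↦ g(x, y)`. -/
noncomputable def ev₂ {x y : O} (hx : IsNilpotent x) (hy : IsNilpotent y) :
    MvPowerSeries (Fin 2) W →ₐ[W] O :=
  nilEval ![x, y] (isNilpotent_pair hx hy)

theorem ev₂_X0 {x y : O} (hx : IsNilpotent x) (hy : IsNilpotent y) :
    ev₂ (W := W) hx hy (X 0) = x := by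
  rw [ev₂, nilEval_X]; rfl

theorem ev₂_X1 {x y : O} (hx : IsNilpotent x) (hy : IsNilpotent y) :
    ev₂ (W := W) hx hy (X 1) = y := by
  rw [ev₂, nilEval_X]; rfl

theorem ev₂_subst_X0 {x y : O} (hx : IsNilpotent x) (hy : IsNilpotent y) (f : PowerSeries W) :
    ev₂ hx hy (PowerSeries.subst (X 0 : MvPowerSeries (Fin 2) W) f) = nilEval₁ x hx f := by
  rw [ev₂, nilEval_powerSeries_subst_X]
  exact nilEval₁_congr rfl _ _ f

theorem ev₂_subst_X1 {x y : O} (hx : IsNilpotent x) (hy : IsNilpotent y) (f : PowerSeries W) :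
    ev₂ hx hy (PowerSeries.subst (X 1 : MvPowerSeries (Fin 2) W) f) = nilEval₁ y hy f := by
  rw [ev₂, nilEval_powerSeries_subst_X]
  exact nilEval₁_congr rfl _ _ f

theorem ev₂_isNilpotent {x y : O} (hx : IsNilpotent x) (hy : IsNilpotent y)
    (g : MvPowerSeries (Fin 2) W) (hg : MvPowerSeries.constantCoeff g = 0) :
    IsNilpotent (ev₂ hx hy g) :=
  isNilpotent_nilEval _ _ hg

/-- **(D6')** `f(x) - f(y) = (x - y) * (dd f)(x, y)` at nilpotent points. -/
theorem nilEval₁_sub_nilEval₁ {x y : O} (hx : IsNilpotent x) (hy : IsNilpotent y)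
    (f : PowerSeries W) :
    nilEval₁ x hx f - nilEval₁ y hy f =
      (x - y) * nilEval ![x, y] (isNilpotent_pair hx hy) (dd f) := by
  have := ev_sub_ev ((ev₂ (W := W) hx hy : MvPowerSeries (Fin 2) W →ₐ[W] O) :
    MvPowerSeries (Fin 2) W →+* O) f
  simp only [RingHom.coe_coe] at this
  rw [ev₂_subst_X0, ev₂_subst_X1, ev₂_X0, ev₂_X1] at this
  exact this

/-- `(dd f)(x, y) - f_1` is nilpotent. -/
theorem nilEval_dd_sub_isNilpotent {x y : O} (hx : IsNilpotent x) (hy : IsNilpotent y)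
    (f : PowerSeries W) :
    IsNilpotent (nilEval ![x, y] (isNilpotent_pair hx hy) (dd f) -
      algebraMap W O (PowerSeries.coeff 1 f)) :=
  ev_dd_sub_isNilpotent (ev₂ hx hy) (ev₂_isNilpotent hx hy) f

/-- `Σ_j μ j * (dd (f j))(x, y)` is a unit as soon as `Σ_j μ j * (f j)_1` is. -/
theorem isUnit_sum_nilEval_dd {ι : Type*} (s : Finset ι) {x y : O} (hx : IsNilpotent x)
    (hy : IsNilpotent y) (μ : ι → O) (f : ι → PowerSeries W)
    (hu : IsUnit (∑ j ∈ s, μ j * algebraMap W O (PowerSeries.coeff 1 (f j)))) :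
    IsUnit (∑ j ∈ s, μ j * nilEval ![x, y] (isNilpotent_pair hx hy) (dd (f j))) :=
  isUnit_sum_ev_dd s (ev₂ hx hy) (ev₂_isNilpotent hx hy) μ f hu

/-- **(D7')** unique nilpotent root, linear-combination form. -/
theorem eq_of_sum_nilEval₁_eq {ι : Type*} (s : Finset ι) {x y : O} (hx : IsNilpotent x)
    (hy : IsNilpotent y) (μ : ι → O) (f : ι → PowerSeries W)
    (hu : IsUnit (∑ j ∈ s, μ j * algebraMap W O (PowerSeries.coeff 1 (f j))))
    (h : ∑ j ∈ s, μ j * nilEval₁ x hx (f j) = ∑ j ∈ s, μ j * nilEval₁ y hy (f j)) :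
    x = y := by
  have := ev_X_eq_of_sum_eq s (ev₂ (W := W) hx hy) (ev₂_isNilpotent hx hy) μ f hu
    (by simpa only [ev₂_subst_X0, ev₂_subst_X1] using h)
  rwa [ev₂_X0, ev₂_X1] at this

theorem eq_of_sum_nilEval₁_eq_zero {ι : Type*} (s : Finset ι) {x y : O} (hx : IsNilpotent x)
    (hy : IsNilpotent y) (μ : ι → O) (f : ι → PowerSeries W)
    (hu : IsUnit (∑ j ∈ s, μ j * algebraMap W O (PowerSeries.coeff 1 (f j))))
    (h0 : ∑ j ∈ s, μ j * nilEval₁ x hx (f j) = 0)
    (h1 : ∑ j ∈ s, μ j * nilEval₁ y hy (f j) = 0) : x = y :=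
  eq_of_sum_nilEval₁_eq s hx hy μ f hu (h0.trans h1.symm)

/-- **(D7')** unique nilpotent root, one function: if `f_1` is a unit of `O` and `f(x) = f(y)` for
nilpotent `x, y`, then `x = y`. -/
theorem eq_of_nilEval₁_eq {x y : O} (hx : IsNilpotent x) (hy : IsNilpotent y) (f : PowerSeries W)
    (hu : IsUnit (algebraMap W O (PowerSeries.coeff 1 f)))
    (h : nilEval₁ x hx f = nilEval₁ y hy f) : x = y := by
  refine eq_of_sum_nilEval₁_eq (ι := Unit) Finset.univ hx hy (fun _ => 1) (fun _ => f) ?_ ?_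
  · simpa using hu
  · simpa using h

theorem eq_of_nilEval₁_eq_zero {x y : O} (hx : IsNilpotent x) (hy : IsNilpotent y)
    (f : PowerSeries W) (hu : IsUnit (algebraMap W O (PowerSeries.coeff 1 f)))
    (h0 : nilEval₁ x hx f = 0) (h1 : nilEval₁ y hy f = 0) : x = y :=
  eq_of_nilEval₁_eq hx hy f hu (h0.trans h1.symm)

end Fermat.Agent.FF.FAM.DivDiffNilInst4
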