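import Mathlib
import Fermat.Agent.FF.FAM.Law8
import Fermat.Agent.FF.FAM.PolarStep4
import Fermat.Agent.FF.FAM.Comp3
import Fermat.Agent.FF.GLUE.Rational7

set_option autoImplicit false
set_option linter.unusedSectionVars false
set_option linter.style.longLine false

/-!
# The output of F5: `PSOut`

`psOut_of_chain` : from chain data with unit polar determinants and the rank-one property of `A`, the
three-fold group law of the kernel of reduction, in the coordinates of `S0`, is computed by the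
power series `Law8.F3` up to the `N`-th power of the ideal of the coordinates (helper7's contract
`Rational7.PSOut`).  `psOut` : the same from three non-special systems with pairwise distinct discs
and Riemann's inequality (the polar families are produced by helper4's `PolarStep4`).
-/

namespace Fermat.Agent.FF.FAM.Out8

open AlgebraicCurve Fermat.Agent.X0.FF Fermat.Agent.RR.LSpace Fermat.Agent.MW.EMB.Value6
open Fermat.Agent.FF.RED.RedDatum7 Fermat.Agent.FF.RED.Disc7 Fermat.Agent.FF.RED.Expand7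
open Fermat.Agent.FF.KER.Ker0 Fermat.Agent.FF.KER.Add0 Fermat.Agent.FF.FAM.Step8
open Fermat.Agent.FF.FAM.BridgeExact8 Fermat.Agent.FF.FAM.Chain8 Fermat.Agent.FF.FAM.NilEval8
open Fermat.Agent.FF.FAM.StepEval8 Fermat.Agent.FF.FAM.BridgeNil8 Fermat.Agent.FF.FAM.Law8
open Fermat.Agent.FF.FAM.PolarStep4 Fermat.Agent.FF.GLUE.Rational7

noncomputable section

variable {L F : Type} {k Ft : Type*} [Field L] [Field F] [Algebra L F] [Field k] [Field Ft]
  [Algebra k Ft]
variable {D : RedDatum L F k Ft} {g : ℕ}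

/-- the rank-one property of the valuation ring -/
def RankOne (D : RedDatum L F k Ft) : Prop :=
  ∀ w : D.A, w ≠ 0 → ∀ c : D.A, c ∈ IsLocalRing.maximalIdeal D.A → ∃ n : ℕ, c ^ n ∈ Ideal.span {w}

theorem nilMod_of_mem (hrank : RankOne D) (𝔞 : Ideal D.A) {w : D.A} (hw : w ≠ 0) (hw𝔞 : w ∈ 𝔞) :
    NilMod 𝔞 := by
  intro c hc
  obtain ⟨n, hn⟩ := hrank w hw c hc
  refine ⟨n, ?_⟩
  rw [← map_pow, Ideal.Quotient.eq_zero_iff_mem]
  exact (Ideal.span_le.mpr (Set.singleton_subset_iff.mpr hw𝔞)) hn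

theorem aeval_mk (𝔞 : Ideal D.A) {σ : Type*} (x : σ → D.A) (p : MvPolynomial σ D.A) :
    MvPolynomial.aeval (fun s => Ideal.Quotient.mk 𝔞 (x s)) p =
      Ideal.Quotient.mk 𝔞 (MvPolynomial.eval x p) := by
  rw [MvPolynomial.aeval_def, MvPolynomial.eval, MvPolynomial.coe_eval₂Hom,
    MvPolynomial.eval₂_comp_left (Ideal.Quotient.mk 𝔞) (RingHom.id _) x p]
  rfl

variable (K : ChainData D g)

/-- the three-fold law `F(F(X,Y),Z)` in the variables `(Fin g ⊕ Fin g) ⊕ Fin g` -/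
def F3L (hK : K.Polar) (i : Fin g) : MvPowerSeries ((Fin g ⊕ Fin g) ⊕ Fin g) D.A :=
  Comp3.F3 (Flaw K hK) i

theorem constantCoeff_F3L (hK : K.Polar) (i : Fin g) :
    MvPowerSeries.constantCoeff (F3L K hK i) = 0 :=
  Comp3.constantCoeff_F3 (constantCoeff_Flaw K hK) i

/-- **the three-fold law modulo `𝔞`**, left-bracketed. -/
theorem mk_coord_add3L (hK : K.Polar) (𝔞 : Ideal D.A) (h𝔞 : NilMod 𝔞)
    {T T' δ T'' : Fin g → mA D}
    (hkap : K.S0.kap T + K.S0.kap T' + K.S0.kap δ = K.S0.kap T'') (i : Fin g) :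
    mkv 𝔞 T'' i =
      nilEval (Sum.elim (Sum.elim (mkv 𝔞 T) (mkv 𝔞 T')) (mkv 𝔞 δ)) (F3L K hK i) := by
  obtain ⟨_, _, _, T1, _, _, _, _, hk1⟩ := K.exists_chain hK T T'
  have e1 : (fun j => nilEval (Sum.elim (mkv 𝔞 T) (mkv 𝔞 T')) (Flaw K hK j)) = mkv 𝔞 T1 := by
    funext j
    exact (mk_coord_add K hK 𝔞 h𝔞 hk1 j).symm
  have hk2 : K.S0.kap T1 + K.S0.kap δ = K.S0.kap T'' := by
    rw [← hk1]; exact hkap
  rw [F3L, Comp3.nilEval_F3 (constantCoeff_Flaw K hK) (isNilpotent_mkv 𝔞 h𝔞 T)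
    (isNilpotent_mkv 𝔞 h𝔞 T') (isNilpotent_mkv 𝔞 h𝔞 δ) i, e1]
  exact mk_coord_add K hK 𝔞 h𝔞 hk2 i

/-- **F5's output.** -/
theorem psOut_of_chain (hK : K.Polar) (hrank : RankOne D) : PSOut K.S0 := by
  refine ⟨F3L K hK, fun T T' δ T'' hkap i N => ?_⟩
  set x := coords T T' δ with hx
  rcases Nat.eq_zero_or_pos N with hN | hN
  · subst hN
    rw [pow_zero, Ideal.one_eq_top]
    exact Submodule.mem_top
  by_cases h0 : ∀ s, x s = 0
  · -- all coordinates vanish
    have hT : T = 0 := by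
      funext l; apply Subtype.ext; exact h0 (Sum.inl (Sum.inl l))
    have hT' : T' = 0 := by
      funext l; apply Subtype.ext; exact h0 (Sum.inl (Sum.inr l))
    have hδ : δ = 0 := by
      funext l; apply Subtype.ext; exact h0 (Sum.inr l)
    rw [hT, hT', hδ, K.S0.kap_zero, add_zero, add_zero] at hkap
    have hT'' : T'' = 0 := K.S0.kap_injective (hkap.symm.trans K.S0.kap_zero.symm)
    have hx0 : x = 0 := funext h0
    have hev : MvPolynomial.eval x (MvPowerSeries.truncTotal N (F3L K hK i)) = 0 := by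
      rw [hx0]
      have : MvPolynomial.eval (0 : Var g → D.A) (MvPowerSeries.truncTotal N (F3L K hK i)) =
          MvPolynomial.constantCoeff (MvPowerSeries.truncTotal N (F3L K hK i)) := by
        rw [MvPolynomial.constantCoeff_eq, MvPolynomial.eval_zero]
        rfl
      rw [this, MvPowerSeries.constantCoeff_truncTotal_eq_ite, if_pos hN, constantCoeff_F3L]
    rw [hev, hT'', sub_zero]
    exact Ideal.zero_mem _
  · push Not at h0
    obtain ⟨s0, hs0⟩ := h0
    set I : Ideal D.A := Ideal.span (Set.range x) with hI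
    set 𝔞 : Ideal D.A := I ^ N with h𝔞def
    have hw : x s0 ^ N ≠ 0 := pow_ne_zero N hs0
    have hw𝔞 : x s0 ^ N ∈ 𝔞 := Ideal.pow_mem_pow (Ideal.subset_span (Set.mem_range_self s0)) N
    have h𝔞 : NilMod 𝔞 := nilMod_of_mem hrank 𝔞 hw hw𝔞
    have hcore := mk_coord_add3L K hK 𝔞 h𝔞 hkap i
    set θ : Var g → D.A ⧸ 𝔞 := fun s => Ideal.Quotient.mk 𝔞 (x s) with hθdef
    have hθeq : Sum.elim (Sum.elim (mkv 𝔞 T) (mkv 𝔞 T')) (mkv 𝔞 δ) = θ := by
      funext s
      rcases s with (l | l) | l <;> rfl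
    rw [hθeq] at hcore
    have hθ : ∀ s, IsNilpotent (θ s) := fun s => h𝔞 _ (coords_mem T T' δ s)
    have hmem := nilEval_sub_aeval_truncTotal_mem hθ (I.map (Ideal.Quotient.mk 𝔞))
      (fun s => Ideal.mem_map_of_mem _ (Ideal.subset_span (Set.mem_range_self s))) N (F3L K hK i)
    rw [← Ideal.map_pow, ← h𝔞def, Ideal.map_quotient_self, Ideal.mem_bot, sub_eq_zero,
      ← hcore, aeval_mk] at hmem
    have : Ideal.Quotient.mk 𝔞 ((T'' i : D.A) -
        MvPolynomial.eval x (MvPowerSeries.truncTotal N (F3L K hK i))) = 0 := by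
      rw [map_sub, sub_eq_zero]
      exact hmem
    exact Ideal.Quotient.eq_zero_iff_mem.mp this

/-- chain data with unit polar determinants exist (helper4's polar families). -/
theorem exists_chainData [Infinite k] (S0 S0' S1 : NSSystem D g)
    (d01 : ∀ i j, D.r (S0.P i) ≠ D.r (S1.P j)) (d0'1 : ∀ i j, D.r (S0'.P i) ≠ D.r (S1.P j))
    (d00' : ∀ i j, D.r (S0.P i) ≠ D.r (S0'.P j))
    (hRiem : ∀ E : Divisor L F,
      Divisor.degree E + 1 - (g : ℤ) ≤ (Module.finrank L (riemannRochSpace E) : ℤ)) :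
    ∃ K : ChainData D g, K.S0 = S0 ∧ K.Polar := by
  obtain ⟨bA, hAG, hAL, hA⟩ := exists_b (CondFam.ofNS S0) S1 d01
    (card_add_one_le (CondFam.ofNS S0) S1 hRiem)
  obtain ⟨bB, hBG, hBL, hB⟩ := exists_b (CondFam.ofNS S1) S0' (fun i j => (d0'1 j i).symm)
    (card_add_one_le (CondFam.ofNS S1) S0' hRiem)
  obtain ⟨bC, hCG, hCL, hC⟩ := exists_b (sumFam (CondFam.ofNS S0) (CondFam.ofNS S0') d00') S1
    (fun x j => match x with
      | Sum.inl a => d01 a j
      | Sum.inr a => d0'1 a j)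
    (card_add_one_le (sumFam (CondFam.ofNS S0) (CondFam.ofNS S0') d00') S1 hRiem)
  obtain ⟨bD, hDG, hDL, hD⟩ := exists_b (CondFam.ofNS S1) S0 (fun i j => (d01 j i).symm)
    (card_add_one_le (CondFam.ofNS S1) S0 hRiem)
  exact ⟨⟨S0, S0', S1, d01, d0'1, d00', bA, hAG, hAL, bB, hBG, hBL, bC, hCG, hCL, bD, hDG, hDL⟩,
    rfl, ⟨hA, hB, hC, hD⟩⟩

/-- **F5's output**, from three non-special systems with pairwise distinct discs, Riemann's
inequality and the rank-one property of `A`. -/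
theorem psOut [Infinite k] (S0 S0' S1 : NSSystem D g)
    (d01 : ∀ i j, D.r (S0.P i) ≠ D.r (S1.P j)) (d0'1 : ∀ i j, D.r (S0'.P i) ≠ D.r (S1.P j))
    (d00' : ∀ i j, D.r (S0.P i) ≠ D.r (S0'.P j))
    (hRiem : ∀ E : Divisor L F,
      Divisor.degree E + 1 - (g : ℤ) ≤ (Module.finrank L (riemannRochSpace E) : ℤ))
    (hrank : RankOne D) : PSOut S0 := by
  obtain ⟨K, hK0, hK⟩ := exists_chainData S0 S0' S1 d01 d0'1 d00' hRiem
  rw [← hK0]
  exact psOut_of_chain K hK hrank

end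

end Fermat.Agent.FF.FAM.Out8
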