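import Mathlib
import Fermat.Agent.FF.FAM.Step8

set_option autoImplicit false

/-!
# Naturality of the formal simple step under change of coefficients

For a ring homomorphism `φ : W →+* W'` the step data can be pushed forward, and the Cramer
coefficients and the residual roots of the pushed-forward data are the images of the original ones.
In particular, if the expansions have coefficients in a subring `W ⊆ A`, so have `lam` and `zeta`
computed over `A`.
-/

namespace Fermat.Agent.FF.FAM.StepMap8

open MvPowerSeries Fermat.Agent.FF.FAM.FormalIFT8 Fermat.Agent.FF.FAM.Step8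

variable {W W' : Type*} [CommRing W] [CommRing W'] {ι : Type*} [Fintype ι] [DecidableEq ι]
  {Q : Type*}

/-- push-forward of step data along a ring homomorphism of the coefficients -/
noncomputable def mapData (φ : W →+* W') (D : StepData W ι Q) : StepData W' ι Q where
  e a j := PowerSeries.map φ (D.e a j)
  res q j := PowerSeries.map φ (D.res q j)
  e_zero a := by
    rw [← PowerSeries.coeff_zero_eq_constantCoeff_apply, PowerSeries.coeff_map,
      PowerSeries.coeff_zero_eq_constantCoeff_apply, D.e_zero, map_zero]
  det_unit := by
    have h : (Matrix.of fun a j : ι =>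
        PowerSeries.constantCoeff (PowerSeries.map φ (D.e a (some j)))) =
        φ.mapMatrix (Matrix.of fun a j : ι => PowerSeries.constantCoeff (D.e a (some j))) := by
      ext a j
      simp only [Matrix.of_apply, RingHom.mapMatrix_apply, Matrix.map_apply]
      rw [← PowerSeries.coeff_zero_eq_constantCoeff_apply, PowerSeries.coeff_map,
        PowerSeries.coeff_zero_eq_constantCoeff_apply]
    rw [h, ← RingHom.map_det]
    exact D.det_unit.map φ
  res_zero q := by
    rw [← PowerSeries.coeff_zero_eq_constantCoeff_apply, PowerSeries.coeff_map,
      PowerSeries.coeff_zero_eq_constantCoeff_apply, D.res_zero, map_zero]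
  res_one q := by
    rw [PowerSeries.coeff_map]
    exact (D.res_one q).map φ

@[simp] theorem mapData_e (φ : W →+* W') (D : StepData W ι Q) (a : ι) (j : Option ι) :
    (mapData φ D).e a j = PowerSeries.map φ (D.e a j) := rfl

@[simp] theorem mapData_res (φ : W →+* W') (D : StepData W ι Q) (q : Q) (j : Option ι) :
    (mapData φ D).res q j = PowerSeries.map φ (D.res q j) := rfl

omit [Fintype ι] [DecidableEq ι] in
theorem map_subst' (φ : W →+* W') (f : PowerSeries W) {z : MvPowerSeries ι W}
    (hz : constantCoeff z = 0) :
    MvPowerSeries.map φ (f.subst z) = (PowerSeries.map φ f).subst (MvPowerSeries.map φ z) :=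
  PowerSeries.map_subst (PowerSeries.HasSubst.of_constantCoeff_zero hz) f

theorem lam_mapData (φ : W →+* W') (D : StepData W ι Q) (j : Option ι) :
    (mapData φ D).lam j = MvPowerSeries.map φ (D.lam j) := by
  have h := (mapData φ D).lam_unique (fun j => MvPowerSeries.map φ (D.lam j))
    (by simp) (fun a => by
      have h1 := congrArg (MvPowerSeries.map φ) (D.lam_spec a)
      rw [map_sum, map_zero] at h1
      rw [← h1]
      refine Finset.sum_congr rfl fun j _ => ?_
      rw [map_mul, map_subst' φ _ (constantCoeff_X a), MvPowerSeries.map_X, mapData_e])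
  exact (congrFun h j).symm

theorem zeta_mapData (φ : W →+* W') (D : StepData W ι Q) (q : Q) :
    (mapData φ D).zeta q = MvPowerSeries.map φ (D.zeta q) := by
  refine ((mapData φ D).zeta_unique q _ ?_ ?_).symm
  · rw [MvPowerSeries.constantCoeff_map, D.constantCoeff_zeta, map_zero]
  · have h1 := congrArg (MvPowerSeries.map φ) (D.zeta_spec q)
    rw [map_sum, map_zero] at h1
    rw [← h1]
    refine Finset.sum_congr rfl fun j _ => ?_
    rw [map_mul, map_subst' φ _ (D.constantCoeff_zeta q), lam_mapData, mapData_res]

end Fermat.Agent.FF.FAM.StepMap8
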